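/-
P-S48 (Deligne-Serre), block G1 (helper88, chief architect): the MODEL.

Formal division values of the Tate curve and the function fields of `X(M)` and `X₁(M)` in every
characteristic prime to `M`, as subfields of Laurent series fields.

For `v = (a, b) ∈ (ℤ/M)²`, `ζ` a primitive `M`-th root of unity and `z = q^(1/M)`:

  `e_v(z) = c₀(v) + ∑_{m ≥ 1} (∑_{k ∣ m} k ([m/k ≡ a] ζ^(b k) + [m/k ≡ -a] ζ^(-b k))) z^m`,
  `c₀(v) = ζ^b / (1 - ζ^b)²` if `a = 0`, and `0` otherwise.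

This is `X(ζ^b z^a, z^M) + 2 ∑ σ₁(n) z^(M n)`, `X(u, q)` the `x`-coordinate of the Tate curve, i.e.
`℘((a τ + b)/M; ℤ + ℤ τ) / (2 π i)²` up to a summand independent of `v`.  Hence the differences
`e_v - e_w` are the expansions of the weight two forms `(℘_v - ℘_w)/(2 π i)²` on `Γ(M)` and the

  `ratio v w v' w' = (e_v - e_w) / (e_v' - e_w')`

are modular FUNCTIONS of level `M`; `SL₂(ℤ/M)` acts on them by `v ↦ v g` on all four indices,
`z ↦ ζ z` is `(a, b) ↦ (a, a + b)`, and `ζ ↦ ζ^t` is `(a, b) ↦ (a, t b)`.  No Eisenstein series,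
no `Δ`, no `2 π i`, no denominators `2, 3`: the same formulas work in every characteristic
prime to `M`.

* `fullField k M ζ ⊆ k((z))`: generated by the `j(z^(d M))`, `d ∣ M`, and all `ratio v w v' w'`
  with `v, w, v', w' ≠ 0`  (function field of `X(M)`; contains the `z ↦ z^M` image of the
  function field of `X₀(M)` by definition).
* `gamma1FieldC k M ζ ⊆ k((q))`: generated by the `j(q^d)`, `d ∣ M`, and all
  `ratio1 b c b' c'`, `b, c, b', c' ≠ 0`, built from `e1_b(q) = e_(0,b)(z)`  (function field of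
  `X₁(M)`, `μ_M`-model: the cusp `∞` carries the level structure `ζ_M ∈ Tate(q)`, as for classical
  `q`-expansions on `Γ₁(M)`).
* `gamma1Field M ⊆ ℚ((q))`: the rational form, `{f | f ⊗ 1 ∈ gamma1FieldC ℚ(ζ_M) M ζ_M}`.
  `J₁(M) := Pic0 ℚ̄ (laurentBaseChange ℚ̄ (gamma1Field M))` then carries the Prelude's `G_ℚ`-action.
-/
import Mathlib
import Fermat.Prelude.Def_ModularCurve_JqCoeff
import Fermat.Prelude.Def_ModularCurve_LaurentCoeff
import Fermat.Prelude.Def_ModularCurve_X0ModL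

set_option autoImplicit false
set_option linter.unusedSectionVars false

noncomputable section

open ModularCurve

namespace Fermat.Agent.S48x.Model

/-- The index set `(ℤ/M)²` of the `M`-division points; `SL₂(ℤ/M)` acts on the right on rows. -/
abbrev Vec (M : ℕ) : Type := ZMod M × ZMod M

section Series

variable {R : Type*} [Field R] (M : ℕ) [NeZero M]

/-- The coefficient of `z^m` in `e_v`. -/
def eCoeff (ζ : R) (v : Vec M) (m : ℕ) : R :=
  if m = 0 then (if v.1 = 0 then ζ ^ v.2.val / (1 - ζ ^ v.2.val) ^ 2 else 0)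
  else ∑ x ∈ m.divisorsAntidiagonal,
    (x.1 : R) * ((if ((x.2 : ℕ) : ZMod M) = v.1 then ζ ^ (v.2.val * x.1) else 0) +
      (if ((x.2 : ℕ) : ZMod M) = -v.1 then ζ ^ ((-v.2).val * x.1) else 0))

/-- `e_v` as a power series in `z = q^(1/M)`. -/
def ePow (ζ : R) (v : Vec M) : PowerSeries R := PowerSeries.mk (eCoeff M ζ v)

/-- `e_v` as a Laurent series in `z = q^(1/M)`. -/
def eSeries (ζ : R) (v : Vec M) : LaurentSeries R := HahnSeries.ofPowerSeries ℤ R (ePow M ζ v)

/-- The modular function `(e_v - e_w) / (e_v' - e_w')` of level `M`, in the variable `z`. -/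
def ratio (ζ : R) (v w v' w' : Vec M) : LaurentSeries R :=
  (eSeries M ζ v - eSeries M ζ w) / (eSeries M ζ v' - eSeries M ζ w')

/-- The coefficient of `q^n` in `e1_b(q) = e_(0,b)(z)`, `q = z^M`. -/
def e1Coeff (ζ : R) (b : ZMod M) (n : ℕ) : R :=
  if n = 0 then ζ ^ b.val / (1 - ζ ^ b.val) ^ 2
  else ∑ x ∈ n.divisorsAntidiagonal, (x.1 : R) * (ζ ^ (b.val * x.1) + ζ ^ ((-b).val * x.1))

/-- `e1_b` as a power series in `q`. -/
def e1Pow (ζ : R) (b : ZMod M) : PowerSeries R := PowerSeries.mk (e1Coeff M ζ b)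

/-- `e1_b` as a Laurent series in `q`: `ζ^b/(1-ζ^b)² + ∑_n (∑_{k ∣ n} k (ζ^(bk) + ζ^(-bk))) q^n`. -/
def e1Series (ζ : R) (b : ZMod M) : LaurentSeries R := HahnSeries.ofPowerSeries ℤ R (e1Pow M ζ b)

/-- The modular function `(e1_b - e1_c) / (e1_b' - e1_c')` on `X₁(M)`, in the variable `q`. -/
def ratio1 (ζ : R) (b c b' c' : ZMod M) : LaurentSeries R :=
  (e1Series M ζ b - e1Series M ζ c) / (e1Series M ζ b' - e1Series M ζ c')

/-! ### The fields -/

/-- Generators of the function field of `X(M)` over `k`, inside `k((z))`. -/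
def fullGens (ζ : R) : Set (LaurentSeries R) :=
  {x | ∃ (d : ℕ) (_ : NeZero d), d ∣ M ∧ x = qExpand R (d * M) (jqModC R)} ∪
  {x | ∃ v w v' w' : Vec M, v ≠ 0 ∧ w ≠ 0 ∧ v' ≠ 0 ∧ w' ≠ 0 ∧ x = ratio M ζ v w v' w'}

/-- The function field of `X(M)` over `k`, inside `k((z))`, `z = q^(1/M)`. -/
def fullField (ζ : R) : IntermediateField R (LaurentSeries R) :=
  IntermediateField.adjoin R (fullGens M ζ)

/-- Generators of the function field of `X₁(M)` over `k`, inside `k((q))`. -/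
def gamma1Gens (ζ : R) : Set (LaurentSeries R) :=
  {x | ∃ (d : ℕ) (_ : NeZero d), d ∣ M ∧ x = qExpand R d (jqModC R)} ∪
  {x | ∃ b c b' c' : ZMod M, b ≠ 0 ∧ c ≠ 0 ∧ b' ≠ 0 ∧ c' ≠ 0 ∧ x = ratio1 M ζ b c b' c'}

/-- The function field of `X₁(M)` over `k` (`μ_M`-model), inside `k((q))`. -/
def gamma1FieldC (ζ : R) : IntermediateField R (LaurentSeries R) :=
  IntermediateField.adjoin R (gamma1Gens M ζ)

variable {M}

theorem jqd_mem_fullField (ζ : R) {d : ℕ} [NeZero d] (hd : d ∣ M) :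
    qExpand R (d * M) (jqModC R) ∈ fullField M ζ :=
  IntermediateField.subset_adjoin R _ (Or.inl ⟨d, inferInstance, hd, rfl⟩)

theorem ratio_mem_fullField (ζ : R) {v w v' w' : Vec M} (hv : v ≠ 0) (hw : w ≠ 0) (hv' : v' ≠ 0)
    (hw' : w' ≠ 0) : ratio M ζ v w v' w' ∈ fullField M ζ :=
  IntermediateField.subset_adjoin R _ (Or.inr ⟨v, w, v', w', hv, hw, hv', hw', rfl⟩)

theorem jqd_mem_gamma1FieldC (ζ : R) {d : ℕ} [NeZero d] (hd : d ∣ M) :
    qExpand R d (jqModC R) ∈ gamma1FieldC M ζ :=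
  IntermediateField.subset_adjoin R _ (Or.inl ⟨d, inferInstance, hd, rfl⟩)

theorem jq_mem_gamma1FieldC (ζ : R) : jqModC R ∈ gamma1FieldC M ζ := by
  have h := jqd_mem_gamma1FieldC (M := M) ζ (one_dvd M)
  rwa [qExpand_one_apply] at h

theorem ratio1_mem_gamma1FieldC (ζ : R) {b c b' c' : ZMod M} (hb : b ≠ 0) (hc : c ≠ 0)
    (hb' : b' ≠ 0) (hc' : c' ≠ 0) : ratio1 M ζ b c b' c' ∈ gamma1FieldC M ζ :=
  IntermediateField.subset_adjoin R _ (Or.inr ⟨b, c, b', c', hb, hc, hb', hc', rfl⟩)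

end Series

/-! ### Functoriality in the coefficient field -/

section Map

variable {R S : Type*} [Field R] [Field S] {M : ℕ} [NeZero M]

theorem map_eCoeff (φ : R →+* S) (ζ : R) (v : Vec M) (m : ℕ) :
    φ (eCoeff M ζ v m) = eCoeff M (φ ζ) v m := by
  unfold eCoeff
  split_ifs with h1 h2
  · simp [map_div₀]
  · simp
  · rw [map_sum]
    refine Finset.sum_congr rfl fun x _ => ?_
    rw [map_mul, map_add, map_natCast]
    congr 2
    · split_ifs <;> simp
    · split_ifs <;> simp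

theorem map_e1Coeff (φ : R →+* S) (ζ : R) (b : ZMod M) (n : ℕ) :
    φ (e1Coeff M ζ b n) = e1Coeff M (φ ζ) b n := by
  unfold e1Coeff
  split_ifs with h1
  · simp [map_div₀]
  · rw [map_sum]
    refine Finset.sum_congr rfl fun x _ => ?_
    simp

theorem coeffMap_eSeries (φ : R →+* S) (ζ : R) (v : Vec M) :
    coeffMap φ (eSeries M ζ v) = eSeries M (φ ζ) v := by
  rw [eSeries, coeffMap_ofPowerSeries, eSeries]
  congr 1
  ext m
  rw [PowerSeries.coeff_map, ePow, ePow, PowerSeries.coeff_mk, PowerSeries.coeff_mk, map_eCoeff]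

theorem coeffMap_e1Series (φ : R →+* S) (ζ : R) (b : ZMod M) :
    coeffMap φ (e1Series M ζ b) = e1Series M (φ ζ) b := by
  rw [e1Series, coeffMap_ofPowerSeries, e1Series]
  congr 1
  ext m
  rw [PowerSeries.coeff_map, e1Pow, e1Pow, PowerSeries.coeff_mk, PowerSeries.coeff_mk,
    map_e1Coeff]

theorem coeffMap_ratio (φ : R →+* S) (ζ : R) (v w v' w' : Vec M) :
    coeffMap φ (ratio M ζ v w v' w') = ratio M (φ ζ) v w v' w' := by
  rw [ratio, map_div₀, map_sub, map_sub, coeffMap_eSeries, coeffMap_eSeries, coeffMap_eSeries,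
    coeffMap_eSeries, ratio]

theorem coeffMap_ratio1 (φ : R →+* S) (ζ : R) (b c b' c' : ZMod M) :
    coeffMap φ (ratio1 M ζ b c b' c') = ratio1 M (φ ζ) b c b' c' := by
  rw [ratio1, map_div₀, map_sub, map_sub, coeffMap_e1Series, coeffMap_e1Series,
    coeffMap_e1Series, coeffMap_e1Series, ratio1]

end Map

end Fermat.Agent.S48x.Model
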