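/-
P-S48, block G1 (helper88): the rational form `gamma1Field M ⊆ ℚ((q))` of the function field of
`X₁(M)` and its base changes.

`gamma1Field M = {f ∈ ℚ((q)) | f ⊗ 1 ∈ gamma1FieldC ℚ(ζ_M) M ζ_M}`.  It contains the function field
`modularFunctionFieldFull M` of `X₀(M)`.  For a field `L ⊇ ℚ` with a primitive `M`-th root of unity
`ζ`, `laurentBaseChange L (gamma1Field M) ≤ gamma1FieldC L M ζ` (`laurentBaseChange_gamma1Field_le`)
and equality holds given the Galois descent statement `DescentHyp M` (work package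
`Model/Descent.lean`).
-/
import Fermat.Agent.S48x.Model.Series
import Fermat.Agent.S24.EmbedAbs

set_option autoImplicit false
set_option linter.unusedSectionVars false

noncomputable section

open ModularCurve

namespace Fermat.Agent.S48x.Model

variable (M : ℕ) [NeZero M]

instance neZeroCastRat : NeZero ((M : ℕ) : ℚ) := ⟨Nat.cast_ne_zero.mpr (NeZero.ne M)⟩

/-- The cyclotomic field `ℚ(ζ_M)`. -/
abbrev CycK : Type := CyclotomicField M ℚ

instance cycKIsCyclotomic : IsCyclotomicExtension {M} ℚ (CycK M) :=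
  CyclotomicField.isCyclotomicExtension M ℚ

/-- The chosen primitive `M`-th root of unity of `ℚ(ζ_M)`. -/
def zetaK : CycK M := IsCyclotomicExtension.zeta M ℚ (CycK M)

theorem zetaK_spec : IsPrimitiveRoot (zetaK M) M :=
  IsCyclotomicExtension.zeta_spec M ℚ (CycK M)

theorem coeffEmb_algebraMap (L : Type*) [Field L] [Algebra ℚ L] (c : ℚ) :
    coeffEmb L (algebraMap ℚ (LaurentSeries ℚ) c) =
      algebraMap L (LaurentSeries L) (algebraMap ℚ L c) := by
  rw [algebraMap_laurentSeries_eq_single, algebraMap_laurentSeries_eq_single, coeffEmb,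
    coeffMap_single]

/-- The function field of `X₁(M)` over `ℚ` (`μ_M`-model: modular functions on `Γ₁(M)` with
rational `q`-expansion at `∞`), as a subfield of `ℚ((q))`. -/
def gamma1Field : IntermediateField ℚ (LaurentSeries ℚ) :=
  Subfield.toIntermediateField
    ((gamma1FieldC M (zetaK M)).toSubfield.comap (coeffEmb (CycK M))) (fun c => by
      show coeffEmb (CycK M) (algebraMap ℚ (LaurentSeries ℚ) c) ∈ gamma1FieldC M (zetaK M)
      rw [coeffEmb_algebraMap]
      exact (gamma1FieldC M (zetaK M)).algebraMap_mem _)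

variable {M}

theorem mem_gamma1Field_iff {f : LaurentSeries ℚ} :
    f ∈ gamma1Field M ↔ coeffEmb (CycK M) f ∈ gamma1FieldC M (zetaK M) := Iff.rfl

theorem coeffEmb_qExpand_jq (L : Type*) [Field L] [Algebra ℚ L] (d : ℕ) [NeZero d] :
    coeffEmb L (qExpand ℚ d jq) = qExpand L d (jqModC L) := by
  rw [coeffEmb, coeffMap_qExpand, ← jqModC_rat, coeffMap_jqModC]

theorem jqd_mem_gamma1Field {d : ℕ} [NeZero d] (hd : d ∣ M) :
    qExpand ℚ d jq ∈ gamma1Field M := by
  rw [mem_gamma1Field_iff, coeffEmb_qExpand_jq]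
  exact jqd_mem_gamma1FieldC _ hd

/-- The function field of `X₀(M)` is contained in the function field of `X₁(M)`. -/
theorem modularFunctionFieldFull_le_gamma1Field :
    modularFunctionFieldFull M ≤ gamma1Field M := by
  rw [modularFunctionFieldFull, IntermediateField.adjoin_le_iff]
  rintro x ⟨d, hd0, hd, rfl⟩
  exact jqd_mem_gamma1Field hd

/-! ### Base change to a field with a primitive `M`-th root of unity -/

section BaseChange

variable {L : Type*} [Field L] [Algebra ℚ L]

theorem aeval_minpoly_powerBasis_gen {ζ : L} (hζ : IsPrimitiveRoot ζ M) :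
    Polynomial.aeval ζ (minpoly ℚ ((zetaK_spec M).powerBasis ℚ).gen) = 0 := by
  rw [IsPrimitiveRoot.powerBasis_gen, ← Polynomial.cyclotomic_eq_minpoly_rat (zetaK_spec M)
    (NeZero.pos M), Polynomial.aeval_def, Polynomial.eval₂_eq_eval_map,
    Polynomial.map_cyclotomic]
  exact hζ.isRoot_cyclotomic (NeZero.pos M)

/-- The embedding `ℚ(ζ_M) → L` sending `ζ_M` to a given primitive `M`-th root of unity. -/
def cycEmb {ζ : L} (hζ : IsPrimitiveRoot ζ M) : CycK M →ₐ[ℚ] L :=
  ((zetaK_spec M).powerBasis ℚ).lift ζ (aeval_minpoly_powerBasis_gen hζ)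

theorem cycEmb_zetaK {ζ : L} (hζ : IsPrimitiveRoot ζ M) : cycEmb hζ (zetaK M) = ζ := by
  have h := ((zetaK_spec M).powerBasis ℚ).lift_gen ζ (aeval_minpoly_powerBasis_gen hζ)
  have hg : ((zetaK_spec M).powerBasis ℚ).gen = zetaK M := IsPrimitiveRoot.powerBasis_gen _ _
  unfold cycEmb
  exact (congrArg _ hg.symm).trans h

theorem coeffMap_cycEmb_coeffEmb {ζ : L} (hζ : IsPrimitiveRoot ζ M) (f : LaurentSeries ℚ) :
    coeffMap (cycEmb hζ : CycK M →+* L) (coeffEmb (CycK M) f) = coeffEmb L f := by
  rw [coeffEmb, coeffMap_coeffMap]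
  exact coeffMap_congr (RingHom.ext fun c => (cycEmb hζ).commutes c) f

/-- `coeffMap` along `ℚ(ζ_M) → L` maps `gamma1FieldC ℚ(ζ_M)` into `gamma1FieldC L`. -/
theorem coeffMap_mem_gamma1FieldC {ζ : L} (hζ : IsPrimitiveRoot ζ M) {x : LaurentSeries (CycK M)}
    (hx : x ∈ gamma1FieldC M (zetaK M)) :
    coeffMap (cycEmb hζ : CycK M →+* L) x ∈ gamma1FieldC M ζ := by
  refine Fermat.Agent.S24.EmbedAbs.mem_subfield_of_mem_adjoin (K := CycK M)
    ((gamma1FieldC M ζ).toSubfield.comap (coeffMap (cycEmb hζ : CycK M →+* L)))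
    (gamma1Gens M (zetaK M)) ?_ ?_ hx
  · intro c
    show coeffMap _ (algebraMap (CycK M) (LaurentSeries (CycK M)) c) ∈ gamma1FieldC M ζ
    rw [algebraMap_laurentSeries_eq_single, coeffMap_single, ← algebraMap_laurentSeries_eq_single]
    exact (gamma1FieldC M ζ).algebraMap_mem _
  · rintro g (⟨d, hd0, hd, rfl⟩ | ⟨b, c, b', c', hb, hc, hb', hc', rfl⟩)
    · show coeffMap _ (qExpand (CycK M) d (jqModC (CycK M))) ∈ gamma1FieldC M ζ
      rw [coeffMap_qExpand, coeffMap_jqModC]
      exact jqd_mem_gamma1FieldC _ hd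
    · show coeffMap _ (ratio1 M (zetaK M) b c b' c') ∈ gamma1FieldC M ζ
      rw [coeffMap_ratio1]
      have : (cycEmb hζ : CycK M →+* L) (zetaK M) = ζ := cycEmb_zetaK hζ
      rw [this]
      exact ratio1_mem_gamma1FieldC _ hb hc hb' hc'

/-- The easy inclusion: the base change of the rational form is contained in the field generated
by the `j(q^d)` and the `ratio1`. -/
theorem laurentBaseChange_gamma1Field_le {ζ : L} (hζ : IsPrimitiveRoot ζ M) :
    laurentBaseChange L (gamma1Field M) ≤ gamma1FieldC M ζ := by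
  rw [laurentBaseChange, IntermediateField.adjoin_le_iff]
  rintro x ⟨f, hf, rfl⟩
  rw [← coeffMap_cycEmb_coeffEmb hζ]
  exact coeffMap_mem_gamma1FieldC hζ hf

/-- **Galois descent statement** (work package `Model/Descent.lean`): every generator `ratio1` over
`ℚ(ζ_M)` is a `ℚ(ζ_M)`-linear combination of elements of the rational form. -/
def DescentHyp (M : ℕ) [NeZero M] : Prop :=
  ∀ b c b' c' : ZMod M, ∃ (n : ℕ) (coef : Fin n → CycK M) (g : Fin n → LaurentSeries ℚ),
    (∀ i, g i ∈ gamma1Field M) ∧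
    ratio1 M (zetaK M) b c b' c' = ∑ i, HahnSeries.C (coef i) * coeffEmb (CycK M) (g i)

/-- **(GEN)** given the descent statement, the base change of the rational form to a field with a
primitive `M`-th root of unity is generated by the `j(q^d)` and the `ratio1`. -/
theorem laurentBaseChange_gamma1Field (hD : DescentHyp M) {ζ : L} (hζ : IsPrimitiveRoot ζ M) :
    laurentBaseChange L (gamma1Field M) = gamma1FieldC M ζ := by
  refine le_antisymm (laurentBaseChange_gamma1Field_le hζ) ?_
  rw [gamma1FieldC, IntermediateField.adjoin_le_iff]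
  rintro g (⟨d, hd0, hd, rfl⟩ | ⟨b, c, b', c', hb, hc, hb', hc', rfl⟩)
  · rw [← coeffEmb_qExpand_jq]
    exact coeffEmb_mem_laurentBaseChange L (jqd_mem_gamma1Field hd)
  · obtain ⟨n, coef, g, hg, h⟩ := hD b c b' c'
    have h2 := congrArg (coeffMap (cycEmb hζ : CycK M →+* L)) h
    rw [coeffMap_ratio1] at h2
    have hz : (cycEmb hζ : CycK M →+* L) (zetaK M) = ζ := cycEmb_zetaK hζ
    rw [hz, map_sum] at h2
    show ratio1 M ζ b c b' c' ∈ laurentBaseChange L (gamma1Field M)
    rw [h2]
    refine sum_mem fun i _ => ?_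
    rw [map_mul, coeffMap_cycEmb_coeffEmb]
    refine mul_mem ?_ (coeffEmb_mem_laurentBaseChange L (hg i))
    rw [HahnSeries.C_apply, coeffMap_single, ← algebraMap_laurentSeries_eq_single]
    exact (laurentBaseChange L (gamma1Field M)).algebraMap_mem _

end BaseChange

end Fermat.Agent.S48x.Model
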