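import Mathlib
import Fermat.Prelude.Def_ModularCurve_LaurentCoeff

/-!
# P-S48, MODEL: Galois descent for coefficient fields of Laurent series (Lemma GEN)

`K / ℚ` finite Galois, `F` an intermediate field of `K((q)) / K` stable under the coefficientwise
action of `Gal(K/ℚ)`.  Then `F` is generated over `K` by the rational series it contains:
`laurentBaseChange K (comapRat K F) = F`, and for every extension `L / K`
`laurentBaseChange L (comapRat K F) = L (coeffMap (K → L) '' F)`.
For `F = K(S)` with `S` stable: `laurentBaseChange L (comapRat K (K(S))) = L (coeffMap (K → L) '' S)`.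

This is the lemma that lets one define the rational form
`gamma1Field M := comapRat K (gamma1FieldL K M ζ)` (`K = ℚ(ζ_M)`) of the `Γ₁(M)`-function field
so that the Prelude machinery (`laurentBaseChange`, `arithmeticGalois`, `Pic0`) applies verbatim.
-/

set_option autoImplicit false
set_option linter.unusedSectionVars false

open ModularCurve

noncomputable section

namespace Fermat.Agent.S48x.Model.Descent

section Maps

variable {K L : Type*} [Field K] [Field L]

theorem coeffMap_algebraMap' (φ : K →+* L) (c : K) :
    coeffMap φ (algebraMap K (LaurentSeries K) c) = algebraMap L (LaurentSeries L) (φ c) := by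
  rw [algebraMap_laurentSeries_eq_single, algebraMap_laurentSeries_eq_single, coeffMap_single]

/-- a coefficient map sends `K(S)` into `L(T)` as soon as it sends `S` into `L(T)`. -/
theorem coeffMap_mem_adjoin (φ : K →+* L) {S : Set (LaurentSeries K)} {T : Set (LaurentSeries L)}
    (h : ∀ s ∈ S, coeffMap φ s ∈ IntermediateField.adjoin L T) {x : LaurentSeries K}
    (hx : x ∈ IntermediateField.adjoin K S) : coeffMap φ x ∈ IntermediateField.adjoin L T := by
  have hle : (IntermediateField.adjoin K S).toSubfield
      ≤ (IntermediateField.adjoin L T).toSubfield.comap (coeffMap φ) := by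
    rw [IntermediateField.adjoin, Subfield.closure_le]
    rintro y (⟨c, rfl⟩ | hy)
    · show coeffMap φ _ ∈ IntermediateField.adjoin L T
      rw [coeffMap_algebraMap']
      exact IntermediateField.algebraMap_mem _ _
    · exact h y hy
  exact hle hx

theorem adjoin_coeffMap_image_adjoin (φ : K →+* L) (S : Set (LaurentSeries K)) :
    IntermediateField.adjoin L
        (coeffMap φ '' ((IntermediateField.adjoin K S : IntermediateField K (LaurentSeries K)) :
          Set (LaurentSeries K)))
      = IntermediateField.adjoin L (coeffMap φ '' S) := by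
  refine le_antisymm ?_ (IntermediateField.adjoin.mono L _ _
    (Set.image_mono (IntermediateField.subset_adjoin K S)))
  rw [IntermediateField.adjoin_le_iff]
  rintro _ ⟨x, hx, rfl⟩
  exact coeffMap_mem_adjoin φ
    (fun s hs => IntermediateField.subset_adjoin L _ (Set.mem_image_of_mem _ hs)) hx

end Maps

section Defs

variable (K : Type*) [Field K] [Algebra ℚ K]

/-- the rational Laurent series whose image in `K((q))` lies in `F`. -/
def comapRat (F : IntermediateField K (LaurentSeries K)) :
    IntermediateField ℚ (LaurentSeries ℚ) :=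
  (F.toSubfield.comap (coeffEmb K)).toIntermediateField (fun r => by
    rw [Subfield.mem_comap]
    have h : coeffEmb K (algebraMap ℚ (LaurentSeries ℚ) r)
        = algebraMap K (LaurentSeries K) (algebraMap ℚ K r) := by
      rw [algebraMap_laurentSeries_eq_single, algebraMap_laurentSeries_eq_single, coeffEmb,
        coeffMap_single]
    rw [h]
    exact F.algebraMap_mem _)

variable {K}

theorem mem_comapRat {F : IntermediateField K (LaurentSeries K)} {f : LaurentSeries ℚ} :
    f ∈ comapRat K F ↔ coeffEmb K f ∈ F := Iff.rfl

theorem comapRat_mono {F F' : IntermediateField K (LaurentSeries K)} (h : F ≤ F') :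
    comapRat K F ≤ comapRat K F' := fun _ hf => h hf

theorem laurentBaseChange_comapRat_le (F : IntermediateField K (LaurentSeries K)) :
    laurentBaseChange K (comapRat K F) ≤ F := by
  rw [laurentBaseChange, IntermediateField.adjoin_le_iff]
  rintro _ ⟨f, hf, rfl⟩
  exact hf

end Defs

section Descent

variable {K : Type*} [Field K] [Algebra ℚ K]

/-- coefficientwise trace pairing: the rational series with coefficients `trace (c * x_k)`. -/
def traceSeries (c : K) (x : LaurentSeries K) : LaurentSeries ℚ :=
  x.map ((Algebra.trace ℚ K).comp (LinearMap.mulLeft ℚ c))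

@[simp]
theorem traceSeries_coeff (c : K) (x : LaurentSeries K) (k : ℤ) :
    (traceSeries c x).coeff k = Algebra.trace ℚ K (c * x.coeff k) := rfl

theorem algebraMap_mul_coeff (c : K) (x : LaurentSeries K) (k : ℤ) :
    (algebraMap K (LaurentSeries K) c * x).coeff k = c * x.coeff k := by
  rw [algebraMap_laurentSeries_eq_single, HahnSeries.coeff_single_zero_mul]

variable [FiniteDimensional ℚ K] [IsGalois ℚ K]

theorem coeffEmb_traceSeries (c : K) (x : LaurentSeries K) :
    coeffEmb K (traceSeries c x)
      = ∑ σ : K ≃ₐ[ℚ] K, coeffMap (σ : K →+* K) (algebraMap K (LaurentSeries K) c * x) := by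
  ext k
  rw [coeffEmb_coeff, traceSeries_coeff, trace_eq_sum_automorphisms, HahnSeries.coeff_sum]
  refine Finset.sum_congr rfl fun σ _ => ?_
  rw [coeffMap_coeff, algebraMap_mul_coeff]
  rfl

variable {F : IntermediateField K (LaurentSeries K)}

theorem traceSeries_mem_comapRat
    (hF : ∀ σ : K ≃ₐ[ℚ] K, ∀ x ∈ F, coeffMap (σ : K →+* K) x ∈ F) (c : K)
    {x : LaurentSeries K} (hx : x ∈ F) : traceSeries c x ∈ comapRat K F := by
  rw [mem_comapRat, coeffEmb_traceSeries]
  exact sum_mem fun σ _ => hF σ _ (mul_mem (F.algebraMap_mem c) hx)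

/-- **coefficientwise Galois descent**: every series is the combination of its trace series
against a dual basis. -/
theorem eq_sum_dualBasis_mul_coeffEmb_traceSeries (x : LaurentSeries K) :
    x = ∑ i, algebraMap K (LaurentSeries K)
          ((Algebra.traceForm ℚ K).dualBasis (traceForm_nondegenerate ℚ K)
            (Module.finBasis ℚ K) i)
        * coeffEmb K (traceSeries (Module.finBasis ℚ K i) x) := by
  set b := Module.finBasis ℚ K
  set b' := (Algebra.traceForm ℚ K).dualBasis (traceForm_nondegenerate ℚ K) b
  ext k
  rw [HahnSeries.coeff_sum]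
  simp_rw [algebraMap_mul_coeff, coeffEmb_coeff, traceSeries_coeff]
  conv_lhs => rw [← b'.sum_repr (x.coeff k)]
  refine Finset.sum_congr rfl fun i _ => ?_
  rw [LinearMap.BilinForm.dualBasis_repr_apply, Algebra.traceForm_apply, Algebra.smul_def,
    mul_comm (b i), mul_comm]

/-- **Lemma GEN, level `K`**: a Galois-stable intermediate field of `K((q))` is generated over
`K` by its rational series. -/
theorem laurentBaseChange_comapRat
    (hF : ∀ σ : K ≃ₐ[ℚ] K, ∀ x ∈ F, coeffMap (σ : K →+* K) x ∈ F) :
    laurentBaseChange K (comapRat K F) = F := by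
  refine le_antisymm (laurentBaseChange_comapRat_le F) fun x hx => ?_
  rw [eq_sum_dualBasis_mul_coeffEmb_traceSeries x]
  exact sum_mem fun i _ => mul_mem (IntermediateField.algebraMap_mem _ _)
    (coeffEmb_mem_laurentBaseChange K (traceSeries_mem_comapRat hF _ hx))

section Tower

variable (L : Type*) [Field L] [Algebra ℚ L] [Algebra K L] [IsScalarTower ℚ K L]

theorem coeffMap_coeffEmb_of_tower (f : LaurentSeries ℚ) :
    coeffMap (algebraMap K L) (coeffEmb K f) = coeffEmb L f := by
  rw [coeffEmb, coeffEmb, coeffMap_coeffMap]
  exact coeffMap_congr (IsScalarTower.algebraMap_eq ℚ K L).symm f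

/-- **Lemma GEN over an extension `L / K`**. -/
theorem laurentBaseChange_comapRat_of_tower
    (hF : ∀ σ : K ≃ₐ[ℚ] K, ∀ x ∈ F, coeffMap (σ : K →+* K) x ∈ F) :
    laurentBaseChange L (comapRat K F)
      = IntermediateField.adjoin L (coeffMap (algebraMap K L) '' (F : Set (LaurentSeries K))) := by
  refine le_antisymm ?_ ?_
  · rw [laurentBaseChange, IntermediateField.adjoin_le_iff]
    rintro _ ⟨f, hf, rfl⟩
    rw [← coeffMap_coeffEmb_of_tower (K := K) L f]
    exact IntermediateField.subset_adjoin L _ (Set.mem_image_of_mem _ hf)
  · rw [IntermediateField.adjoin_le_iff]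
    rintro _ ⟨x, hx, rfl⟩
    rw [eq_sum_dualBasis_mul_coeffEmb_traceSeries x, map_sum]
    refine sum_mem fun i _ => ?_
    rw [map_mul, coeffMap_algebraMap', coeffMap_coeffEmb_of_tower]
    exact mul_mem (IntermediateField.algebraMap_mem _ _)
      (coeffEmb_mem_laurentBaseChange L (traceSeries_mem_comapRat hF _ hx))

/-- **Lemma GEN, generator form**: if the generating set `S` of `F = K(S)` is mapped into `K(S)`
by every coefficientwise automorphism, then `L ⊗ (rational form of K(S)) = L(S_L)`. -/
theorem laurentBaseChange_comapRat_adjoin (S : Set (LaurentSeries K))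
    (hS : ∀ σ : K ≃ₐ[ℚ] K, ∀ s ∈ S,
      coeffMap (σ : K →+* K) s ∈ IntermediateField.adjoin K S) :
    laurentBaseChange L (comapRat K (IntermediateField.adjoin K S))
      = IntermediateField.adjoin L (coeffMap (algebraMap K L) '' S) := by
  rw [laurentBaseChange_comapRat_of_tower L
    (fun σ x hx => coeffMap_mem_adjoin (σ : K →+* K) (hS σ) hx), adjoin_coeffMap_image_adjoin]

end Tower

end Descent

end Fermat.Agent.S48x.Model.Descent
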