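/-
P-S48, block G1 MODEL, work package WP-M1 (helper77): the Galois descent statement for the
generators `ratio1` of the function field of `X₁(M)`, and the UNCONDITIONAL form of (GEN):

  `laurentBaseChange L (gamma1Field M) = gamma1FieldC M ζ`   for every primitive `M`-th root `ζ ∈ L`.

* `e1Coeff_pow`, `e1Series_pow`, `ratio1_pow`: replacing `ζ` by `ζ ^ t` is `b ↦ t • b` on indices
  (the `e1`-half of `eSeries_pow`).
* `coeffMap_mem_gamma1Gens`, `coeffMap_mem_gamma1FieldC_of_algEquiv`: `gamma1FieldC ℚ(ζ_M) M ζ_M` is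
  stable under the coefficientwise action of `Gal(ℚ(ζ_M)/ℚ)`.
* `DescentHypNZ M`, `descentHypNZ`: the descent statement at NONZERO indices.  (`Field.DescentHyp`
  quantifies over all indices, including degenerate ones where `ratio1` is not a modular function;
  only nonzero indices are used in the proof of (GEN).)
* `laurentBaseChange_gamma1Field_eq`: (GEN), unconditional.
-/
import Fermat.Agent.S48x.Model.Field
import Fermat.Agent.S48x.Model.Descent

set_option autoImplicit false
set_option linter.unusedSectionVars false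
set_option linter.style.haveILetI false

noncomputable section

open ModularCurve

namespace Fermat.Agent.S48x.Model

/-! ### `ζ ↦ ζ ^ t` on the series `e1_b` -/

section Pow

variable {R : Type*} [Field R] {M : ℕ} [NeZero M]

/-- Powers of an `M`-th root of unity only depend on the exponent modulo `M`. -/
theorem pow_eq_pow_of_natCast_eq {ζ : R} (hζ : ζ ^ M = 1) {a b : ℕ}
    (h : (a : ZMod M) = (b : ZMod M)) : ζ ^ a = ζ ^ b := by
  rw [pow_eq_pow_mod a hζ, pow_eq_pow_mod b hζ]
  congr 1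
  exact (ZMod.natCast_eq_natCast_iff' a b M).mp h

theorem pow_pow_val_mul {ζ : R} (hζ : ζ ^ M = 1) (t : ℕ) (c : ZMod M) (j : ℕ) :
    (ζ ^ t) ^ (c.val * j) = ζ ^ (((t : ZMod M) * c).val * j) := by
  rw [← pow_mul]
  apply pow_eq_pow_of_natCast_eq hζ
  push_cast
  rw [ZMod.natCast_zmod_val, ZMod.natCast_zmod_val]
  ring

theorem e1Coeff_pow {ζ : R} (hζ : ζ ^ M = 1) (t : ℕ) (b : ZMod M) (n : ℕ) :
    e1Coeff M (ζ ^ t) b n = e1Coeff M ζ ((t : ZMod M) * b) n := by
  unfold e1Coeff
  split_ifs with h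
  · have h1 := pow_pow_val_mul hζ t b 1
    simp only [mul_one] at h1
    rw [h1]
  · refine Finset.sum_congr rfl fun x _ => ?_
    rw [pow_pow_val_mul hζ t b x.1, pow_pow_val_mul hζ t (-b) x.1, mul_neg]

/-- `e1_b` for the root of unity `ζ ^ t` is `e1_(t b)` for `ζ`. -/
theorem e1Series_pow {ζ : R} (hζ : ζ ^ M = 1) (t : ℕ) (b : ZMod M) :
    e1Series M (ζ ^ t) b = e1Series M ζ ((t : ZMod M) * b) := by
  unfold e1Series e1Pow
  congr 1
  ext n
  rw [PowerSeries.coeff_mk, PowerSeries.coeff_mk]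
  exact e1Coeff_pow hζ t b n

theorem ratio1_pow {ζ : R} (hζ : ζ ^ M = 1) (t : ℕ) (b c b' c' : ZMod M) :
    ratio1 M (ζ ^ t) b c b' c' =
      ratio1 M ζ ((t : ZMod M) * b) ((t : ZMod M) * c) ((t : ZMod M) * b') ((t : ZMod M) * c') := by
  unfold ratio1
  rw [e1Series_pow hζ, e1Series_pow hζ, e1Series_pow hζ, e1Series_pow hζ]

end Pow

/-! ### Galois stability of `gamma1FieldC ℚ(ζ_M) M ζ_M` -/

section Galois

variable {M : ℕ} [NeZero M]

/-- An automorphism of `ℚ(ζ_M)` raises `ζ_M` to a power prime to `M`. -/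
theorem exists_pow_eq_of_algEquiv (σ : CycK M ≃ₐ[ℚ] CycK M) :
    ∃ t : ℕ, IsUnit (t : ZMod M) ∧ σ (zetaK M) = zetaK M ^ t := by
  have hζ := zetaK_spec M
  have hσ : IsPrimitiveRoot (σ (zetaK M)) M := hζ.map_of_injective σ.injective
  obtain ⟨t, -, ht⟩ := hζ.eq_pow_of_pow_eq_one hσ.pow_eq_one
  refine ⟨t, ?_, ht.symm⟩
  rw [← ht] at hσ
  exact (ZMod.isUnit_iff_coprime t M).mpr ((hζ.pow_iff_coprime (NeZero.pos M) t).mp hσ)

/-- The coefficientwise Galois action permutes the generators of `gamma1FieldC`. -/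
theorem coeffMap_mem_gamma1Gens (σ : CycK M ≃ₐ[ℚ] CycK M) {s : LaurentSeries (CycK M)}
    (hs : s ∈ gamma1Gens M (zetaK M)) :
    coeffMap (σ : CycK M →+* CycK M) s ∈ gamma1Gens M (zetaK M) := by
  obtain ⟨t, htu, ht⟩ := exists_pow_eq_of_algEquiv σ
  rcases hs with ⟨d, hd0, hd, rfl⟩ | ⟨b, c, b', c', hb, hc, hb', hc', rfl⟩
  · refine Or.inl ⟨d, hd0, hd, ?_⟩
    rw [coeffMap_qExpand, coeffMap_jqModC]
  · refine Or.inr ⟨(t : ZMod M) * b, (t : ZMod M) * c, (t : ZMod M) * b', (t : ZMod M) * c',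
      ?_, ?_, ?_, ?_, ?_⟩
    · exact fun h => hb (htu.mul_right_eq_zero.mp h)
    · exact fun h => hc (htu.mul_right_eq_zero.mp h)
    · exact fun h => hb' (htu.mul_right_eq_zero.mp h)
    · exact fun h => hc' (htu.mul_right_eq_zero.mp h)
    · rw [coeffMap_ratio1]
      have h1 : (σ : CycK M →+* CycK M) (zetaK M) = zetaK M ^ t := ht
      rw [h1, ratio1_pow (zetaK_spec M).pow_eq_one]

/-- `gamma1FieldC ℚ(ζ_M) M ζ_M` is stable under the coefficientwise action of `Gal(ℚ(ζ_M)/ℚ)`. -/
theorem coeffMap_mem_gamma1FieldC_of_algEquiv (σ : CycK M ≃ₐ[ℚ] CycK M)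
    {x : LaurentSeries (CycK M)} (hx : x ∈ gamma1FieldC M (zetaK M)) :
    coeffMap (σ : CycK M →+* CycK M) x ∈ gamma1FieldC M (zetaK M) :=
  Descent.coeffMap_mem_adjoin (σ : CycK M →+* CycK M)
    (fun _ hs => IntermediateField.subset_adjoin _ _ (coeffMap_mem_gamma1Gens σ hs)) hx

instance cycK_finiteDimensional : FiniteDimensional ℚ (CycK M) :=
  IsCyclotomicExtension.finiteDimensional {M} ℚ (CycK M)

instance cycK_isGalois : IsGalois ℚ (CycK M) :=
  IsCyclotomicExtension.isGalois {M} ℚ (CycK M)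

/-- The rational form is the `comapRat` of helper83's abstract descent. -/
theorem gamma1Field_eq_comapRat :
    gamma1Field M = Descent.comapRat (CycK M) (gamma1FieldC M (zetaK M)) := by
  ext f
  exact Iff.rfl

/-- Trace series of elements of `gamma1FieldC ℚ(ζ_M)` lie in the rational form. -/
theorem traceSeries_mem_gamma1Field (a : CycK M) {x : LaurentSeries (CycK M)}
    (hx : x ∈ gamma1FieldC M (zetaK M)) : Descent.traceSeries a x ∈ gamma1Field M := by
  rw [gamma1Field_eq_comapRat]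
  exact Descent.traceSeries_mem_comapRat
    (fun σ _ hy => coeffMap_mem_gamma1FieldC_of_algEquiv σ hy) a hx

/-- **(GEN) over `ℚ(ζ_M)`**: the rational form generates `gamma1FieldC ℚ(ζ_M) M ζ_M`. -/
theorem laurentBaseChange_gamma1Field_cycK :
    laurentBaseChange (CycK M) (gamma1Field M) = gamma1FieldC M (zetaK M) := by
  rw [gamma1Field_eq_comapRat]
  exact Descent.laurentBaseChange_comapRat
    (fun σ _ hy => coeffMap_mem_gamma1FieldC_of_algEquiv σ hy)

/-- Every element of `gamma1FieldC ℚ(ζ_M) M ζ_M` is an explicit `ℚ(ζ_M)`-combination of rational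
series of the rational form. -/
theorem exists_sum_C_mul_coeffEmb {x : LaurentSeries (CycK M)}
    (hx : x ∈ gamma1FieldC M (zetaK M)) :
    ∃ (n : ℕ) (coef : Fin n → CycK M) (g : Fin n → LaurentSeries ℚ),
      (∀ i, g i ∈ gamma1Field M) ∧
        x = ∑ i, HahnSeries.C (coef i) * coeffEmb (CycK M) (g i) := by
  refine ⟨Module.finrank ℚ (CycK M),
    fun i => (Algebra.traceForm ℚ (CycK M)).dualBasis (traceForm_nondegenerate ℚ (CycK M))
      (Module.finBasis ℚ (CycK M)) i,
    fun i => Descent.traceSeries (Module.finBasis ℚ (CycK M) i) x,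
    fun i => traceSeries_mem_gamma1Field _ hx, ?_⟩
  have h := Descent.eq_sum_dualBasis_mul_coeffEmb_traceSeries x
  simp only [algebraMap_laurentSeries_eq_single, ← HahnSeries.C_apply] at h
  exact h

/-- The Galois descent statement at nonzero indices (the only ones used for (GEN)). -/
def DescentHypNZ (M : ℕ) [NeZero M] : Prop :=
  ∀ b c b' c' : ZMod M, b ≠ 0 → c ≠ 0 → b' ≠ 0 → c' ≠ 0 →
    ∃ (n : ℕ) (coef : Fin n → CycK M) (g : Fin n → LaurentSeries ℚ),
      (∀ i, g i ∈ gamma1Field M) ∧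
      ratio1 M (zetaK M) b c b' c' = ∑ i, HahnSeries.C (coef i) * coeffEmb (CycK M) (g i)

/-- **WP-M1**: the descent statement holds. -/
theorem descentHypNZ : DescentHypNZ M := fun _ _ _ _ hb hc hb' hc' =>
  exists_sum_C_mul_coeffEmb (ratio1_mem_gamma1FieldC _ hb hc hb' hc')

/-- `Field.DescentHyp` implies the nonzero-index form. -/
theorem descentHypNZ_of_descentHyp (h : DescentHyp M) : DescentHypNZ M :=
  fun b c b' c' _ _ _ _ => h b c b' c'

/-- **(GEN), unconditional**: the base change of the rational form `gamma1Field M` to a field with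
a primitive `M`-th root of unity `ζ` is the field generated by the `j(q^d)`, `d ∣ M`, and the
`ratio1 M ζ b c b' c'` at nonzero indices. -/
theorem laurentBaseChange_gamma1Field_eq {L : Type*} [Field L] [Algebra ℚ L] {ζ : L}
    (hζ : IsPrimitiveRoot ζ M) :
    laurentBaseChange L (gamma1Field M) = gamma1FieldC M ζ := by
  refine le_antisymm (laurentBaseChange_gamma1Field_le hζ) ?_
  rw [gamma1FieldC, IntermediateField.adjoin_le_iff]
  rintro g (⟨d, hd0, hd, rfl⟩ | ⟨b, c, b', c', hb, hc, hb', hc', rfl⟩)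
  · rw [← coeffEmb_qExpand_jq]
    exact coeffEmb_mem_laurentBaseChange L (jqd_mem_gamma1Field hd)
  · obtain ⟨n, coef, g, hg, h⟩ := descentHypNZ (M := M) b c b' c' hb hc hb' hc'
    have h2 := congrArg (coeffMap (cycEmb hζ : CycK M →+* L)) h
    rw [coeffMap_ratio1] at h2
    have hz : (cycEmb hζ : CycK M →+* L) (zetaK M) = ζ := cycEmb_zetaK hζ
    rw [hz, map_sum] at h2
    show ratio1 M ζ b c b' c' ∈ laurentBaseChange L (gamma1Field M)
    rw [h2]
    refine sum_mem fun i _ => ?_
    rw [map_mul, coeffMap_cycEmb_coeffEmb]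
    refine mul_mem ?_ (coeffEmb_mem_laurentBaseChange L (hg i))
    rw [HahnSeries.C_apply, coeffMap_single, ← algebraMap_laurentSeries_eq_single]
    exact (laurentBaseChange L (gamma1Field M)).algebraMap_mem _

/-- Membership in the base change of the rational form, in terms of generators. -/
theorem ratio1_mem_laurentBaseChange {L : Type*} [Field L] [Algebra ℚ L] {ζ : L}
    (hζ : IsPrimitiveRoot ζ M) {b c b' c' : ZMod M} (hb : b ≠ 0) (hc : c ≠ 0) (hb' : b' ≠ 0)
    (hc' : c' ≠ 0) : ratio1 M ζ b c b' c' ∈ laurentBaseChange L (gamma1Field M) := by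
  rw [laurentBaseChange_gamma1Field_eq hζ]
  exact ratio1_mem_gamma1FieldC ζ hb hc hb' hc'

end Galois

end Fermat.Agent.S48x.Model
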