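import Mathlib
import Fermat.Agent.S48x.Model.Series

/-!
# P-S48, block G1, the MODEL: the formal exact-stabiliser lemma for `X₁(M)` (helper68)

For `d ∈ (ℤ/M)ˣ` the substitution `b ↦ d b` on the indices of the generators
`ratio1 b c b' c' = (e1_b - e1_c)/(e1_b' - e1_c')` of the function field of `X₁(M)` fixes all the
generators only if `d = ± 1`.  This is the `stab` field of the analytic `EmbData` for `± Γ₁(M)`:
an element of `Γ₀(M)` with lower right entry `d` acts on `ratio1` through `b ↦ d b`.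

Only the coefficients of `q⁰` and `q¹` are used:
`e1_b = x_b + y_b q + ⋯`, `y_b = ζ^b + ζ^(-b)`, `x_b = 1/(y_b - 2)`.
-/

set_option autoImplicit false
set_option linter.unusedSectionVars false

open Finset

namespace Fermat.Agent.S48x.Model

section Roots

variable {R : Type*} [Field R] {M : ℕ} [NeZero M] {ζ : R}

/-- `ζ^b` for `b : ℤ/M`. -/
def zpw (ζ : R) (b : ZMod M) : R := ζ ^ b.val

theorem zpw_zero (ζ : R) : zpw ζ (0 : ZMod M) = 1 := by
  simp [zpw]

theorem zpw_add (hζ : IsPrimitiveRoot ζ M) (b c : ZMod M) :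
    zpw ζ (b + c) = zpw ζ b * zpw ζ c := by
  unfold zpw
  rw [ZMod.val_add, ← pow_add, ← pow_eq_pow_mod _ hζ.pow_eq_one]

theorem zpw_ne_zero (hζ : IsPrimitiveRoot ζ M) (b : ZMod M) : zpw ζ b ≠ 0 :=
  pow_ne_zero _ (hζ.ne_zero (NeZero.ne M))

theorem zpw_neg (hζ : IsPrimitiveRoot ζ M) (b : ZMod M) : zpw ζ (-b) = (zpw ζ b)⁻¹ := by
  have h : zpw ζ (-b) * zpw ζ b = 1 := by
    rw [← zpw_add hζ, neg_add_cancel, zpw_zero]
  exact eq_inv_of_mul_eq_one_left h

theorem zpw_injective (hζ : IsPrimitiveRoot ζ M) : Function.Injective (zpw ζ : ZMod M → R) := by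
  intro b c h
  exact ZMod.val_injective M (hζ.pow_inj (ZMod.val_lt b) (ZMod.val_lt c) h)

theorem zpw_eq_one_iff (hζ : IsPrimitiveRoot ζ M) (b : ZMod M) : zpw ζ b = 1 ↔ b = 0 := by
  rw [← zpw_zero (M := M) ζ]
  exact (zpw_injective hζ).eq_iff

/-- `t_b = ζ^b + ζ^(-b) - 2`. -/
def tv (ζ : R) (b : ZMod M) : R := zpw ζ b + zpw ζ (-b) - 2

theorem tv_zero (ζ : R) : tv ζ (0 : ZMod M) = 0 := by
  unfold tv
  rw [neg_zero, zpw_zero]
  ring

theorem tv_eq (hζ : IsPrimitiveRoot ζ M) (b : ZMod M) :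
    tv ζ b = (1 - zpw ζ b) ^ 2 / zpw ζ b := by
  unfold tv
  rw [zpw_neg hζ]
  have := zpw_ne_zero hζ b
  field_simp
  ring

theorem tv_ne_zero (hζ : IsPrimitiveRoot ζ M) {b : ZMod M} (hb : b ≠ 0) : tv ζ b ≠ 0 := by
  rw [tv_eq hζ]
  have h1 : 1 - zpw ζ b ≠ 0 := by
    intro h
    exact hb ((zpw_eq_one_iff hζ b).mp (sub_eq_zero.mp h).symm)
  exact div_ne_zero (pow_ne_zero 2 h1) (zpw_ne_zero hζ b)

theorem tv_eq_tv_iff (hζ : IsPrimitiveRoot ζ M) (b c : ZMod M) :
    tv ζ b = tv ζ c ↔ b = c ∨ b = -c := by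
  have hb := zpw_ne_zero hζ b
  have hc := zpw_ne_zero hζ c
  have key : tv ζ b - tv ζ c = (zpw ζ b - zpw ζ c) * (zpw ζ b * zpw ζ c - 1)
      / (zpw ζ b * zpw ζ c) := by
    unfold tv
    rw [zpw_neg hζ, zpw_neg hζ]
    field_simp
    ring
  constructor
  · intro h
    have h0 : (zpw ζ b - zpw ζ c) * (zpw ζ b * zpw ζ c - 1) / (zpw ζ b * zpw ζ c) = 0 := by
      rw [← key, h, sub_self]
    rw [div_eq_zero_iff] at h0
    rcases h0 with h0 | h0
    · rcases mul_eq_zero.mp h0 with h1 | h1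
      · exact Or.inl (zpw_injective hζ (sub_eq_zero.mp h1))
      · right
        have h2 : zpw ζ (b + c) = 1 := by rw [zpw_add hζ]; exact sub_eq_zero.mp h1
        exact eq_neg_of_add_eq_zero_left ((zpw_eq_one_iff hζ _).mp h2)
    · exact absurd h0 (mul_ne_zero hb hc)
  · rintro (rfl | rfl)
    · rfl
    · unfold tv
      rw [neg_neg]
      ring

/-- the sum of the `t_b` is `-2M`. -/
theorem sum_tv (hζ : IsPrimitiveRoot ζ M) (hM : 1 < M) : ∑ b : ZMod M, tv ζ b = -(2 * (M : R)) := by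
  have h1 : ∑ b : ZMod M, zpw ζ b = 0 := by
    obtain ⟨n, rfl⟩ : ∃ n, M = n + 1 := ⟨M - 1, by omega⟩
    have := Fin.sum_univ_eq_sum_range (fun i => ζ ^ i) (n + 1)
    rw [hζ.geom_sum_eq_zero hM] at this
    exact this
  have h2 : ∑ b : ZMod M, zpw ζ (-b) = 0 := by
    have := Equiv.sum_comp (Equiv.neg (ZMod M)) (fun b => zpw ζ b)
    simp only [Equiv.neg_apply] at this
    rw [this]
    exact h1
  unfold tv
  rw [Finset.sum_sub_distrib, Finset.sum_add_distrib, h1, h2, Finset.sum_const, Finset.card_univ,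
    ZMod.card]
  simp [mul_comm]

end Roots

section Coeffs

variable {R : Type*} [Field R] {M : ℕ} [NeZero M] {ζ : R}

theorem coeff_zero_e1Pow (ζ : R) (b : ZMod M) :
    PowerSeries.coeff 0 (e1Pow M ζ b) = zpw ζ b / (1 - zpw ζ b) ^ 2 := by
  simp [e1Pow, e1Coeff, zpw]

theorem coeff_one_e1Pow (ζ : R) (b : ZMod M) :
    PowerSeries.coeff 1 (e1Pow M ζ b) = tv ζ b + 2 := by
  simp [e1Pow, e1Coeff, zpw, tv, Nat.divisorsAntidiagonal_one]

/-- `x_b t_b = 1`. -/
theorem coeff_zero_e1Pow_mul_tv (hζ : IsPrimitiveRoot ζ M) {b : ZMod M} (hb : b ≠ 0) :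
    PowerSeries.coeff 0 (e1Pow M ζ b) * tv ζ b = 1 := by
  rw [coeff_zero_e1Pow, tv_eq hζ]
  have h1 : 1 - zpw ζ b ≠ 0 := by
    intro h
    exact hb ((zpw_eq_one_iff hζ b).mp (sub_eq_zero.mp h).symm)
  have h2 := zpw_ne_zero hζ b
  field_simp

theorem coeff_zero_e1Pow_eq_inv (hζ : IsPrimitiveRoot ζ M) {b : ZMod M} (hb : b ≠ 0) :
    PowerSeries.coeff 0 (e1Pow M ζ b) = (tv ζ b)⁻¹ :=
  eq_inv_of_mul_eq_one_left (coeff_zero_e1Pow_mul_tv hζ hb)

theorem coeff_zero_e1Pow_injOn (hζ : IsPrimitiveRoot ζ M) {b c : ZMod M} (hb : b ≠ 0)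
    (hc : c ≠ 0) (h : PowerSeries.coeff 0 (e1Pow M ζ b) = PowerSeries.coeff 0 (e1Pow M ζ c)) :
    b = c ∨ b = -c := by
  rw [coeff_zero_e1Pow_eq_inv hζ hb, coeff_zero_e1Pow_eq_inv hζ hc] at h
  exact (tv_eq_tv_iff hζ b c).mp (inv_injective h)

theorem coeff_one_mul (f g : PowerSeries R) :
    PowerSeries.coeff 1 (f * g) = PowerSeries.coeff 0 f * PowerSeries.coeff 1 g
      + PowerSeries.coeff 1 f * PowerSeries.coeff 0 g := by
  rw [PowerSeries.coeff_mul]
  have : Finset.HasAntidiagonal.antidiagonal 1 = {((0 : ℕ), (1 : ℕ)), (1, 0)} := by decide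
  rw [this, Finset.sum_insert (by decide), Finset.sum_singleton]

end Coeffs

section Small

variable {M : ℕ} [NeZero M]

theorem natCast_ne_zero_of_lt {n : ℕ} (h0 : 0 < n) (hn : n < M) : (n : ZMod M) ≠ 0 := by
  intro h
  rw [ZMod.natCast_eq_zero_iff] at h
  exact absurd (Nat.le_of_dvd h0 h) (by omega)

/-- for `1 ≤ i < j` with `i + j < M`, the classes of `i` and `j` are different up to sign. -/
theorem natCast_ne_of_lt {i j : ℕ} (hi : 0 < i) (hij : i < j) (hM : i + j < M) :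
    (i : ZMod M) ≠ (j : ZMod M) ∧ (i : ZMod M) ≠ -(j : ZMod M) := by
  constructor
  · intro h
    have h1 : ((j - i : ℕ) : ZMod M) = 0 := by
      rw [Nat.cast_sub hij.le, h, sub_self]
    exact natCast_ne_zero_of_lt (by omega) (by omega) h1
  · intro h
    have h1 : ((i + j : ℕ) : ZMod M) = 0 := by
      rw [Nat.cast_add, h, neg_add_cancel]
    exact natCast_ne_zero_of_lt (by omega) hM h1

end Small

section Main

open Polynomial in
/-- a cubic vanishing at four distinct points is zero. -/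
theorem cubic_vanish {R : Type*} [Field R] (a b c d : R) (x : Fin 4 → R)
    (hx : Function.Injective x) (h : ∀ i, a * x i ^ 3 + b * x i ^ 2 + c * x i + d = 0) :
    a = 0 ∧ b = 0 ∧ c = 0 ∧ d = 0 := by
  classical
  have hp : (Cubic.toPoly ⟨a, b, c, d⟩ : R[X]) = 0 := by
    apply Polynomial.eq_zero_of_natDegree_lt_card_of_eval_eq_zero' _ (Finset.univ.image x)
    · intro y hy
      obtain ⟨i, -, rfl⟩ := Finset.mem_image.mp hy
      simp only [Cubic.toPoly, eval_add, eval_mul, eval_C, eval_pow, eval_X]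
      exact h i
    · rw [Finset.card_image_of_injective _ hx, Finset.card_univ, Fintype.card_fin]
      exact lt_of_le_of_lt Polynomial.natDegree_cubic_le (by norm_num)
  have := (Cubic.toPoly_eq_zero_iff _).mp hp
  simp only [Cubic.ext_iff] at this
  exact this

/-- the algebraic core: an affine substitution compatible with `x ↦ 1/x` at four points. -/
theorem core_of_relations {R : Type*} [Field R] (α β B0 B1 : R) (hα : α ≠ 0) (x : Fin 4 → R)
    (hx : Function.Injective x)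
    (h : ∀ i, (α * x i + B0) * (α + β * x i ^ 2 + B1 * x i) = x i) :
    β = 0 ∧ B0 = 0 ∧ B1 = 0 ∧ α ^ 2 = 1 := by
  obtain ⟨h3, h2, h1, h0⟩ := cubic_vanish (α * β) (α * B1 + B0 * β) (α ^ 2 + B0 * B1 - 1)
    (α * B0) x hx (fun i => by have := h i; linear_combination this)
  have hβ : β = 0 := (mul_eq_zero.mp h3).resolve_left hα
  have hB0 : B0 = 0 := (mul_eq_zero.mp h0).resolve_left hα
  have hB1 : B1 = 0 := by
    rw [hB0, zero_mul, add_zero] at h2
    exact (mul_eq_zero.mp h2).resolve_left hα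
  refine ⟨hβ, hB0, hB1, ?_⟩
  rw [hB0, zero_mul, add_zero] at h1
  exact sub_eq_zero.mp h1

variable {R : Type*} [Field R] {M : ℕ} [NeZero M] {ζ : R}

/-- the four test indices `1, 2, 3, 4`. -/
def testIdx (M : ℕ) (i : Fin 4) : ZMod M := ((i.val + 1 : ℕ) : ZMod M)

theorem testIdx_ne_zero (hM : 8 ≤ M) (i : Fin 4) : testIdx M i ≠ 0 :=
  natCast_ne_zero_of_lt (Nat.succ_pos _) (by have := i.isLt; omega)

theorem testIdx_ne (hM : 8 ≤ M) {i j : Fin 4} (hij : i ≠ j) :
    testIdx M i ≠ testIdx M j ∧ testIdx M i ≠ -testIdx M j := by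
  have hi := i.isLt
  have hj := j.isLt
  have hne : i.val ≠ j.val := fun h => hij (Fin.ext h)
  rcases Nat.lt_or_gt_of_ne hne with hlt | hlt
  · exact natCast_ne_of_lt (Nat.succ_pos _) (by omega) (by omega)
  · obtain ⟨h1, h2⟩ := natCast_ne_of_lt (M := M) (i := j.val + 1) (j := i.val + 1)
      (Nat.succ_pos _) (by omega) (by omega)
    refine ⟨fun h => h1 h.symm, fun h => h2 ?_⟩
    have : testIdx M j = -testIdx M i := by rw [h, neg_neg]
    exact this

theorem e1Pow_sub_ne_zero (hζ : IsPrimitiveRoot ζ M) {b c : ZMod M} (hb : b ≠ 0) (hc : c ≠ 0)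
    (h1 : b ≠ c) (h2 : b ≠ -c) : e1Pow M ζ b - e1Pow M ζ c ≠ 0 := by
  intro h
  have h0 : PowerSeries.coeff 0 (e1Pow M ζ b) = PowerSeries.coeff 0 (e1Pow M ζ c) := by
    have := congrArg (PowerSeries.coeff 0) h
    rw [map_sub, map_zero] at this
    exact sub_eq_zero.mp this
  rcases coeff_zero_e1Pow_injOn hζ hb hc h0 with h3 | h3
  · exact h1 h3
  · exact h2 h3

/-- `e1_b ≠ e1_c` for `b ≠ ± c`. -/
theorem e1Series_sub_ne_zero (hζ : IsPrimitiveRoot ζ M) {b c : ZMod M} (hb : b ≠ 0) (hc : c ≠ 0)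
    (h1 : b ≠ c) (h2 : b ≠ -c) : e1Series M ζ b - e1Series M ζ c ≠ 0 := by
  unfold e1Series
  rw [← map_sub]
  exact (map_ne_zero_iff _ HahnSeries.ofPowerSeries_injective).mpr
    (e1Pow_sub_ne_zero hζ hb hc h1 h2)

/-- the power series identity behind an equality of two `ratio1`'s. -/
theorem e1Pow_cross_of_ratio1_eq (hζ : IsPrimitiveRoot ζ M) {b c b' c' b₁ c₁ b₁' c₁' : ZMod M}
    (hb' : b' ≠ 0) (hc' : c' ≠ 0) (h1 : b' ≠ c') (h2 : b' ≠ -c')
    (hb₁' : b₁' ≠ 0) (hc₁' : c₁' ≠ 0) (h1₁ : b₁' ≠ c₁') (h2₁ : b₁' ≠ -c₁')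
    (h : ratio1 M ζ b₁ c₁ b₁' c₁' = ratio1 M ζ b c b' c') :
    (e1Pow M ζ b₁ - e1Pow M ζ c₁) * (e1Pow M ζ b' - e1Pow M ζ c')
      = (e1Pow M ζ b - e1Pow M ζ c) * (e1Pow M ζ b₁' - e1Pow M ζ c₁') := by
  unfold ratio1 at h
  rw [div_eq_div_iff (e1Series_sub_ne_zero hζ hb₁' hc₁' h1₁ h2₁)
    (e1Series_sub_ne_zero hζ hb' hc' h1 h2)] at h
  apply HahnSeries.ofPowerSeries_injective (Γ := ℤ)
  simpa only [e1Series, map_sub, map_mul] using h

theorem coeff_zero_mul' (f g : PowerSeries R) :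
    PowerSeries.coeff 0 (f * g) = PowerSeries.coeff 0 f * PowerSeries.coeff 0 g := by
  simp

/-- **Exact stabiliser, formal form.**  If the substitution `b ↦ d b` fixes all the generators
`ratio1 b c b' c'` of the function field of `X₁(M)`, then `d = ± 1`. -/
theorem unit_eq_one_or_neg_one_of_ratio1_eq (hM : 8 ≤ M) (hζ : IsPrimitiveRoot ζ M)
    (d : (ZMod M)ˣ)
    (h : ∀ b c b' c' : ZMod M, b ≠ 0 → c ≠ 0 → b' ≠ 0 → c' ≠ 0 →
      ratio1 M ζ (d * b) (d * c) (d * b') (d * c') = ratio1 M ζ b c b' c') :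
    d = 1 ∨ d = -1 := by
  -- the substitution preserves `≠ 0` and `≠ ±`
  have hd0 : ∀ b : ZMod M, b ≠ 0 → (d : ZMod M) * b ≠ 0 := by
    intro b hb h0
    exact hb ((Units.mul_right_eq_zero d).mp h0)
  have hdinj : ∀ b c : ZMod M, (d : ZMod M) * b = d * c → b = c := by
    intro b c hbc
    exact (Units.mul_right_inj d).mp hbc
  set n : Fin 4 → ZMod M := testIdx M with hn
  have hn0 : ∀ i, n i ≠ 0 := testIdx_ne_zero hM
  have hnne : ∀ {i j : Fin 4}, i ≠ j → n i ≠ n j ∧ n i ≠ -n j := fun hij => testIdx_ne hM hij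
  have h01 : (0 : Fin 4) ≠ 1 := by decide
  -- coefficient functions
  set X : ZMod M → R := fun b => PowerSeries.coeff 0 (e1Pow M ζ b) with hX
  set t : ZMod M → R := fun b => tv ζ b with ht
  have hXt : ∀ b : ZMod M, b ≠ 0 → X b * t b = 1 := fun b hb => coeff_zero_e1Pow_mul_tv hζ hb
  have hY : ∀ b : ZMod M, PowerSeries.coeff 1 (e1Pow M ζ b) = t b + 2 := fun b =>
    coeff_one_e1Pow ζ b
  -- the cross-multiplied identities
  have hcross : ∀ b c : ZMod M, b ≠ 0 → c ≠ 0 →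
      (e1Pow M ζ (d * b) - e1Pow M ζ (d * c)) * (e1Pow M ζ (n 0) - e1Pow M ζ (n 1))
        = (e1Pow M ζ b - e1Pow M ζ c) * (e1Pow M ζ (d * n 0) - e1Pow M ζ (d * n 1)) := by
    intro b c hb hc
    refine e1Pow_cross_of_ratio1_eq hζ (hn0 0) (hn0 1) (hnne h01).1 (hnne h01).2
      (hd0 _ (hn0 0)) (hd0 _ (hn0 1)) (fun h' => (hnne h01).1 (hdinj _ _ h')) ?_
      (h b c (n 0) (n 1) hb hc (hn0 0) (hn0 1))
    intro h'
    rw [← mul_neg] at h'
    exact (hnne h01).2 (hdinj _ _ h')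
  set δ : R := X (n 0) - X (n 1) with hδ
  set δ' : R := X (d * n 0) - X (d * n 1) with hδ'
  set η : R := t (n 0) - t (n 1) with hη
  set η' : R := t (d * n 0) - t (d * n 1) with hη'
  have hδ0 : δ ≠ 0 := by
    intro h0
    rcases coeff_zero_e1Pow_injOn hζ (hn0 0) (hn0 1) (sub_eq_zero.mp h0) with h3 | h3
    · exact (hnne h01).1 h3
    · exact (hnne h01).2 h3
  have hδ'0 : δ' ≠ 0 := by
    intro h0
    rcases coeff_zero_e1Pow_injOn hζ (hd0 _ (hn0 0)) (hd0 _ (hn0 1)) (sub_eq_zero.mp h0)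
      with h3 | h3
    · exact (hnne h01).1 (hdinj _ _ h3)
    · rw [← mul_neg] at h3
      exact (hnne h01).2 (hdinj _ _ h3)
  have E0 : ∀ b c : ZMod M, b ≠ 0 → c ≠ 0 →
      (X (d * b) - X (d * c)) * δ = (X b - X c) * δ' := by
    intro b c hb hc
    have := congrArg (PowerSeries.coeff 0) (hcross b c hb hc)
    simpa only [coeff_zero_mul', map_sub] using this
  have E1 : ∀ b c : ZMod M, b ≠ 0 → c ≠ 0 →
      (X (d * b) - X (d * c)) * η + (t (d * b) - t (d * c)) * δ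
        = (X b - X c) * η' + (t b - t c) * δ' := by
    intro b c hb hc
    have := congrArg (PowerSeries.coeff 1) (hcross b c hb hc)
    simp only [coeff_one_mul, map_sub, hY] at this
    simp only [hX, hδ, hδ', hη, hη']
    linear_combination this
  -- the affine relations
  obtain ⟨α, hα⟩ : ∃ α : R, α = δ' / δ := ⟨_, rfl⟩
  have hα0 : α ≠ 0 := by rw [hα]; exact div_ne_zero hδ'0 hδ0
  have hαδ : α * δ = δ' := by rw [hα]; exact div_mul_cancel₀ _ hδ0
  obtain ⟨β, hβ⟩ : ∃ β : R, β = (η' - α * η) / δ := ⟨_, rfl⟩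
  have hβδ : β * δ = η' - α * η := by rw [hβ]; exact div_mul_cancel₀ _ hδ0
  have A0 : ∀ b c : ZMod M, b ≠ 0 → c ≠ 0 → X (d * b) - X (d * c) = α * (X b - X c) := by
    intro b c hb hc
    apply mul_right_cancel₀ hδ0
    rw [E0 b c hb hc]
    linear_combination -(X b - X c) * hαδ
  have A1 : ∀ b c : ZMod M, b ≠ 0 → c ≠ 0 →
      t (d * b) - t (d * c) = α * (t b - t c) + β * (X b - X c) := by
    intro b c hb hc
    apply mul_right_cancel₀ hδ0
    have e1 := E1 b c hb hc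
    have e0 := A0 b c hb hc
    linear_combination e1 - η * e0 - (t b - t c) * hαδ - (X b - X c) * hβδ
  obtain ⟨B0, hB0⟩ : ∃ B0 : R, B0 = X (d * n 0) - α * X (n 0) := ⟨_, rfl⟩
  obtain ⟨B1, hB1⟩ : ∃ B1 : R, B1 = t (d * n 0) - α * t (n 0) - β * X (n 0) := ⟨_, rfl⟩
  have RX : ∀ b : ZMod M, b ≠ 0 → X (d * b) = α * X b + B0 := by
    intro b hb
    have := A0 b (n 0) hb (hn0 0)
    linear_combination this - hB0
  have Rt : ∀ b : ZMod M, b ≠ 0 → t (d * b) = α * t b + β * X b + B1 := by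
    intro b hb
    have := A1 b (n 0) hb (hn0 0)
    linear_combination this - hB1
  -- the cubic
  have hxinj : Function.Injective fun i => X (n i) := by
    intro i j hij
    by_contra hne
    rcases coeff_zero_e1Pow_injOn hζ (hn0 i) (hn0 j) hij with h3 | h3
    · exact (hnne hne).1 h3
    · exact (hnne hne).2 h3
  have hcubic : ∀ i, (α * X (n i) + B0) * (α + β * X (n i) ^ 2 + B1 * X (n i)) = X (n i) := by
    intro i
    have e1 := hXt (n i) (hn0 i)
    have e2 := hXt (d * n i) (hd0 _ (hn0 i))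
    rw [RX _ (hn0 i), Rt _ (hn0 i)] at e2
    linear_combination X (n i) * e2 - (α * X (n i) + B0) * α * e1
  obtain ⟨hβ0, hB00, hB10, hα2⟩ := core_of_relations α β B0 B1 hα0 (fun i => X (n i)) hxinj hcubic
  have Rt' : ∀ b : ZMod M, t (d * b) = α * t b := by
    intro b
    by_cases hb : b = 0
    · subst hb
      simp only [ht, mul_zero, tv_zero]
    · rw [Rt b hb, hβ0, hB10]
      ring
  -- `α = 1`
  have hα1 : α = 1 := by
    have hcases : (α - 1) * (α + 1) = 0 := by linear_combination hα2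
    rcases mul_eq_zero.mp hcases with h1 | h1
    · exact sub_eq_zero.mp h1
    · have hαm : α = -1 := eq_neg_of_add_eq_zero_left h1
      have hsum : ∑ b : ZMod M, t ((d : ZMod M) * b) = ∑ b : ZMod M, t b :=
        Equiv.sum_comp (Units.mulLeft d) t
      have hsum2 : ∑ b : ZMod M, t ((d : ZMod M) * b) = -∑ b : ZMod M, t b := by
        rw [← Finset.sum_neg_distrib]
        refine Finset.sum_congr rfl fun b _ => ?_
        rw [Rt' b, hαm]
        ring
      have hT := sum_tv hζ (by omega : 1 < M)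
      have h4M : (4 : R) * (M : R) = 0 := by
        have h5 : ∑ b : ZMod M, t b = -∑ b : ZMod M, t b := hsum.symm.trans hsum2
        simp only [ht] at h5
        rw [hT] at h5
        linear_combination -h5
      have hMne : (M : R) ≠ 0 := (hζ.neZero').ne
      have h4 : (4 : R) = 0 := (mul_eq_zero.mp h4M).resolve_right hMne
      have h2 : (2 : R) = 0 := by
        have : (2 : R) * 2 = 0 := by linear_combination h4
        exact mul_self_eq_zero.mp this
      rw [hαm]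
      linear_combination -h2
  -- conclusion
  have hfin := Rt' 1
  rw [hα1, one_mul, mul_one] at hfin
  rcases (tv_eq_tv_iff hζ (d : ZMod M) 1).mp hfin with h1 | h1
  · exact Or.inl (Units.ext h1)
  · right
    apply Units.ext
    rw [h1, Units.val_neg, Units.val_one]

end Main

end Fermat.Agent.S48x.Model
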