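/-
P-S48 (G1 MODEL), formal-series lemma layer, part 1: coefficient-level arithmetic of the
Weber–Tate series

  `e_(a,b)(z) = c₀(a,b) + ∑_{m ≥ 1} (∑_{k ∣ m} k ([m/k ≡ a] χ(b k) + [m/k ≡ -a] χ(-b k))) z^m`,

`(a, b) ∈ (ℤ/M)²`, `χ` an additive character of `ℤ/M` (`χ(t) = ζ^t`).  Pure finite sums:
symmetry `e_(-v) = e_v`, the twist `z ↦ ζ z` (`(a,b) ↦ (a,a+b)`), Galois (`b ↦ t b`), the trace
identity `∑_b e_(a,b)(z) = M² X_a(z^M)`, and the lowest coefficients.
-/
import Mathlib

set_option autoImplicit false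
set_option linter.unusedSectionVars false

open Finset

namespace Fermat.Agent.S48x.Model.AC

section Coeff

variable {R : Type*} [CommRing R] {M : ℕ} [NeZero M]

/-- The coefficient of `z^m` (`m ≥ 1`) of the Weber–Tate series `e_(a,b)` attached to the additive
character `χ` of `ℤ/M`. -/
def eCoeff (χ : AddChar (ZMod M) R) (a b : ZMod M) (m : ℕ) : R :=
  ∑ k ∈ m.divisors, (k : R) *
    ((if ((m / k : ℕ) : ZMod M) = a then χ (b * k) else 0) +
      (if ((m / k : ℕ) : ZMod M) = -a then χ (-(b * k)) else 0))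

/-- The coefficient of `q^n` of the integer series
`X_a(q) = ∑_n (∑_{k ∣ n} k ([n/k ≡ a] + [n/k ≡ -a])) q^n`. -/
def xCoeff (a : ZMod M) (n : ℕ) : ℕ :=
  ∑ k ∈ n.divisors, k *
    ((if ((n / k : ℕ) : ZMod M) = a then 1 else 0) +
      (if ((n / k : ℕ) : ZMod M) = -a then 1 else 0))

@[simp] theorem eCoeff_zero_right (χ : AddChar (ZMod M) R) (a b : ZMod M) :
    eCoeff χ a b 0 = 0 := by
  simp [eCoeff]

@[simp] theorem xCoeff_zero_right (a : ZMod M) : xCoeff a 0 = 0 := by
  simp [xCoeff]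

/-- `e_(-v) = e_v`, coefficientwise. -/
theorem eCoeff_neg (χ : AddChar (ZMod M) R) (a b : ZMod M) (m : ℕ) :
    eCoeff χ (-a) (-b) m = eCoeff χ a b m := by
  unfold eCoeff
  refine Finset.sum_congr rfl fun k _ => ?_
  rw [neg_neg, neg_mul, neg_neg, add_comm]

theorem xCoeff_neg (a : ZMod M) (n : ℕ) : xCoeff (-a) n = xCoeff a n := by
  unfold xCoeff
  refine Finset.sum_congr rfl fun k _ => ?_
  rw [neg_neg, add_comm]

/-- The substitution `z ↦ ζ z` (`T`-action): `χ(m) · e_(a,b)[m] = e_(a,a+b)[m]`. -/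
theorem eCoeff_twist (χ : AddChar (ZMod M) R) (a b : ZMod M) (m : ℕ) :
    χ (m : ZMod M) * eCoeff χ a b m = eCoeff χ a (a + b) m := by
  unfold eCoeff
  rw [Finset.mul_sum]
  refine Finset.sum_congr rfl fun k hk => ?_
  have hkm : k ∣ m := (Nat.mem_divisors.mp hk).1
  have hm : (m : ZMod M) = (k : ZMod M) * ((m / k : ℕ) : ZMod M) := by
    rw [← Nat.cast_mul, Nat.mul_div_cancel' hkm]
  have h1 : (if ((m / k : ℕ) : ZMod M) = a then χ (m : ZMod M) * χ (b * k) else 0) =
      (if ((m / k : ℕ) : ZMod M) = a then χ ((a + b) * k) else 0) := by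
    split_ifs with h
    · rw [← AddChar.map_add_eq_mul, hm, h]
      congr 1
      ring
    · rfl
  have h2 : (if ((m / k : ℕ) : ZMod M) = -a then χ (m : ZMod M) * χ (-(b * k)) else 0) =
      (if ((m / k : ℕ) : ZMod M) = -a then χ (-((a + b) * k)) else 0) := by
    split_ifs with h
    · rw [← AddChar.map_add_eq_mul, hm, h]
      congr 1
      ring
    · rfl
  rw [← h1, ← h2]
  split_ifs <;> ring

/-- Galois action / change of the root of unity: replacing `χ` by `χ(t ·)` replaces `b` by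
`t b`. -/
theorem eCoeff_mulShift (χ : AddChar (ZMod M) R) (t a b : ZMod M) (m : ℕ) :
    eCoeff (AddChar.mulShift χ t) a b m = eCoeff χ a (t * b) m := by
  unfold eCoeff
  refine Finset.sum_congr rfl fun k _ => ?_
  rw [AddChar.mulShift_apply, AddChar.mulShift_apply, mul_neg, mul_assoc]

/-- Ring homomorphisms act coefficientwise. -/
theorem map_eCoeff {R' : Type*} [CommRing R'] (σ : R →+* R') (χ : AddChar (ZMod M) R)
    (a b : ZMod M) (m : ℕ) :
    σ (eCoeff χ a b m) = eCoeff ((σ : R →* R').compAddChar χ) a b m := by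
  unfold eCoeff
  rw [map_sum]
  refine Finset.sum_congr rfl fun k _ => ?_
  rw [map_mul, map_natCast, map_add]
  congr 2
  · split_ifs
    · rfl
    · exact map_zero σ
  · split_ifs
    · rfl
    · exact map_zero σ

/-- `eCoeff` lies in any subring containing the values of `χ`. -/
theorem eCoeff_mem {S : Type*} [SetLike S R] [SubringClass S R] (s : S)
    (χ : AddChar (ZMod M) R) (hχ : ∀ t, χ t ∈ s) (a b : ZMod M) (m : ℕ) :
    eCoeff χ a b m ∈ s := by
  unfold eCoeff
  refine sum_mem fun k _ => mul_mem (natCast_mem s k) (add_mem ?_ ?_)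
  · split_ifs
    · exact hχ _
    · exact zero_mem s
  · split_ifs
    · exact hχ _
    · exact zero_mem s

/-! ### The trace identity `∑_b e_(a,b)(z) = M² X_a(z^M)` -/

/-- divisors of `M n` divisible by `M` are `M ·` divisors of `n`. -/
theorem sum_divisors_mul_of_dvd {β : Type*} [AddCommMonoid β] (n : ℕ) (f : ℕ → β) :
    ∑ k ∈ (M * n).divisors, (if M ∣ k then f k else 0) = ∑ k ∈ n.divisors, f (M * k) := by
  have hM : 0 < M := NeZero.pos M
  rcases Nat.eq_zero_or_pos n with rfl | hn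
  · simp
  rw [← Finset.sum_filter]
  symm
  refine Finset.sum_nbij' (fun k => M * k) (fun k => k / M) ?_ ?_ ?_ ?_ ?_
  · intro k hk
    rw [Finset.mem_filter, Nat.mem_divisors]
    have hkn := (Nat.mem_divisors.mp hk).1
    exact ⟨⟨Nat.mul_dvd_mul_left M hkn, Nat.mul_ne_zero hM.ne' hn.ne'⟩, dvd_mul_right M k⟩
  · intro k hk
    rw [Finset.mem_filter, Nat.mem_divisors] at hk
    obtain ⟨⟨hk1, -⟩, c, rfl⟩ := hk
    rw [Nat.mul_div_cancel_left c hM, Nat.mem_divisors]
    exact ⟨(Nat.mul_dvd_mul_iff_left hM).mp hk1, hn.ne'⟩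
  · intro k _
    exact Nat.mul_div_cancel_left k hM
  · intro k hk
    rw [Finset.mem_filter] at hk
    exact Nat.mul_div_cancel' hk.2
  · intro k _
    rfl

/-- **Trace identity**, coefficientwise: for a primitive character `χ` (values in a domain),
`∑_b e_(a,b)[m] = M² X_a[m / M]` if `M ∣ m`, and `0` otherwise. -/
theorem sum_eCoeff [IsDomain R] {χ : AddChar (ZMod M) R} (hχ : χ.IsPrimitive) (a : ZMod M)
    (m : ℕ) :
    ∑ b : ZMod M, eCoeff χ a b m =
      if M ∣ m then (M : R) ^ 2 * (xCoeff a (m / M) : R) else 0 := by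
  classical
  have hsum : ∀ k : ℕ, ∑ b : ZMod M, χ (b * k) = if M ∣ k then (M : R) else 0 := by
    intro k
    rw [AddChar.sum_mulShift (k : ZMod M) hχ, ZMod.card]
    by_cases hk : M ∣ k
    · rw [if_pos hk, if_pos ((ZMod.natCast_eq_zero_iff k M).mpr hk)]
    · rw [if_neg hk, if_neg (fun h => hk ((ZMod.natCast_eq_zero_iff k M).mp h)), Nat.cast_zero]
  have hsum' : ∀ k : ℕ, ∑ b : ZMod M, χ (-(b * k)) = if M ∣ k then (M : R) else 0 := by
    intro k
    have h := AddChar.sum_mulShift (-(k : ZMod M)) hχ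
    simp only [mul_neg] at h
    rw [h, ZMod.card]
    by_cases hk : M ∣ k
    · rw [if_pos hk, if_pos (neg_eq_zero.mpr ((ZMod.natCast_eq_zero_iff k M).mpr hk))]
    · rw [if_neg hk, if_neg (fun h => hk ((ZMod.natCast_eq_zero_iff k M).mp (neg_eq_zero.mp h))),
        Nat.cast_zero]
  unfold eCoeff
  rw [Finset.sum_comm]
  have h1 : ∀ k ∈ m.divisors, ∑ b : ZMod M, (k : R) *
      ((if ((m / k : ℕ) : ZMod M) = a then χ (b * k) else 0) +
        (if ((m / k : ℕ) : ZMod M) = -a then χ (-(b * k)) else 0)) =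
      if M ∣ k then (k : R) * ((M : R) * (((if ((m / k : ℕ) : ZMod M) = a then 1 else 0) +
        (if ((m / k : ℕ) : ZMod M) = -a then 1 else 0) : ℕ) : R)) else 0 := by
    intro k _
    rw [← Finset.mul_sum, Finset.sum_add_distrib]
    have e1 : ∑ b : ZMod M, (if ((m / k : ℕ) : ZMod M) = a then χ (b * k) else 0) =
        if ((m / k : ℕ) : ZMod M) = a then (if M ∣ k then (M : R) else 0) else 0 := by
      split_ifs with h1 h2
      · rw [hsum, if_pos h2]
      · rw [hsum, if_neg h2]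
      · exact Finset.sum_const_zero
    have e2 : ∑ b : ZMod M, (if ((m / k : ℕ) : ZMod M) = -a then χ (-(b * k)) else 0) =
        if ((m / k : ℕ) : ZMod M) = -a then (if M ∣ k then (M : R) else 0) else 0 := by
      split_ifs with h1 h2
      · rw [hsum', if_pos h2]
      · rw [hsum', if_neg h2]
      · exact Finset.sum_const_zero
    rw [e1, e2]
    split_ifs <;> push_cast <;> ring
  rw [Finset.sum_congr rfl h1]
  split_ifs with hMm
  · obtain ⟨n, rfl⟩ := hMm
    rw [sum_divisors_mul_of_dvd n (fun k => (k : R) * ((M : R) *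
      (((if (((M * n) / k : ℕ) : ZMod M) = a then 1 else 0) +
        (if (((M * n) / k : ℕ) : ZMod M) = -a then 1 else 0) : ℕ) : R)))]
    rw [Nat.mul_div_cancel_left n (NeZero.pos M), xCoeff, Nat.cast_sum, Finset.mul_sum]
    refine Finset.sum_congr rfl fun k hk => ?_
    have hk0 : 0 < k := Nat.pos_of_mem_divisors hk
    have hdiv : M * n / (M * k) = n / k := Nat.mul_div_mul_left n k (NeZero.pos M)
    rw [hdiv]
    push_cast
    ring
  · refine Finset.sum_eq_zero fun k hk => ?_
    rw [if_neg]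
    intro hMk
    exact hMm (hMk.trans (Nat.mem_divisors.mp hk).1)

end Coeff

end Fermat.Agent.S48x.Model.AC
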