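/-
P-S48 (G1 MODEL), formal-series lemma layer, part 2: lowest coefficients of the Weber–Tate series
`e_(a,b)` and pairwise distinctness `e_v ≠ e_w` for `v ≠ ±w` over ANY field in which the
character `χ` is faithful (i.e. `ζ` is a primitive `M`-th root of unity; in particular in every
characteristic prime to `M`): the leading coefficient of `e_v - e_w` is a product of units
`ζ^s`, `(1 - ζ^t)^{±1}` (`t ≠ 0`).
-/
import Mathlib
import Fermat.Agent.S48x.Model.ECoeff

set_option autoImplicit false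
set_option linter.unusedSectionVars false

open Finset

namespace Fermat.Agent.S48x.Model.AC

/-! ### `|a| = min(a, M - a)` -/

section Absv

variable {M : ℕ} [NeZero M]

/-- `min(a, M - a)` for a residue class `a` mod `M`. -/
def absv (a : ZMod M) : ℕ := min a.val (M - a.val)

theorem absv_zero : absv (0 : ZMod M) = 0 := by simp [absv]

theorem absv_eq_zero {a : ZMod M} : absv a = 0 ↔ a = 0 := by
  have h := ZMod.val_lt a
  rw [absv, ← ZMod.val_eq_zero]
  omega

theorem absv_neg (a : ZMod M) : absv (-a) = absv a := by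
  by_cases h : a = 0
  · rw [h, neg_zero]
  · have h1 := ZMod.val_lt a
    have h2 : a.val ≠ 0 := fun h' => h ((ZMod.val_eq_zero a).mp h')
    rw [absv, absv, ZMod.neg_val, if_neg h]
    omega

theorem two_mul_absv_le (a : ZMod M) : 2 * absv a ≤ M := by
  have h := ZMod.val_lt a
  rw [absv]
  omega

/-- a natural number congruent to `±a` is at least `absv a`. -/
theorem absv_le_of_cast_eq {a : ZMod M} {n : ℕ} (h : (n : ZMod M) = a ∨ (n : ZMod M) = -a) :
    absv a ≤ n := by
  have key : ∀ {c : ZMod M}, (n : ZMod M) = c → c.val ≤ n := by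
    intro c hc
    rw [← hc, ZMod.val_natCast]
    exact Nat.mod_le n M
  rcases h with h | h
  · exact (min_le_left _ _).trans (key h)
  · rw [← absv_neg]
    exact (min_le_left _ _).trans (key h)

theorem natCast_absv_eq_iff {a : ZMod M} : ((absv a : ℕ) : ZMod M) = a ↔ a.val ≤ M - a.val := by
  have h := ZMod.val_lt a
  constructor
  · intro h1
    by_contra h2
    have h2' : M - a.val < a.val := not_le.mp h2
    have h3 : absv a = M - a.val := by rw [absv]; omega
    rw [h3, Nat.cast_sub h.le, ZMod.natCast_self, ZMod.natCast_zmod_val, zero_sub] at h1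
    have h4 := congrArg ZMod.val h1
    have ha : a ≠ 0 := by
      rintro rfl
      simp at h2'
    rw [ZMod.neg_val, if_neg ha] at h4
    omega
  · intro h1
    have h3 : absv a = a.val := by rw [absv]; omega
    rw [h3, ZMod.natCast_zmod_val]

theorem natCast_absv_eq_neg_iff {a : ZMod M} (ha : a ≠ 0) :
    ((absv a : ℕ) : ZMod M) = -a ↔ M - a.val ≤ a.val := by
  have h := ZMod.val_lt a
  have ha' : a.val ≠ 0 := fun h' => ha ((ZMod.val_eq_zero a).mp h')
  have := natCast_absv_eq_iff (a := -a)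
  rw [absv_neg, ZMod.neg_val, if_neg ha] at this
  rw [this]
  omega

theorem natCast_absv_eq_or (a : ZMod M) :
    ((absv a : ℕ) : ZMod M) = a ∨ ((absv a : ℕ) : ZMod M) = -a := by
  by_cases ha : a = 0
  · left; rw [ha, absv_zero, Nat.cast_zero]
  rcases le_total a.val (M - a.val) with h | h
  · exact Or.inl (natCast_absv_eq_iff.mpr h)
  · exact Or.inr ((natCast_absv_eq_neg_iff ha).mpr h)

/-- both congruences hold only for `2 |a| = M`. -/
theorem two_mul_absv_eq_of_both {a : ZMod M} (ha : a ≠ 0)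
    (h1 : ((absv a : ℕ) : ZMod M) = a) (h2 : ((absv a : ℕ) : ZMod M) = -a) :
    2 * absv a = M := by
  have h := ZMod.val_lt a
  have e1 := natCast_absv_eq_iff.mp h1
  have e2 := (natCast_absv_eq_neg_iff ha).mp h2
  rw [absv]
  omega

theorem eq_or_eq_neg_of_absv_eq {a c : ZMod M} (h : absv a = absv c) : c = a ∨ c = -a := by
  have ha := ZMod.val_lt a
  have hc := ZMod.val_lt c
  by_cases ha0 : a = 0
  · left
    rw [ha0, absv_zero] at h
    rw [ha0]
    exact absv_eq_zero.mp h.symm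
  have ha' : a.val ≠ 0 := fun h' => ha0 ((ZMod.val_eq_zero a).mp h')
  have h' : c.val = a.val ∨ c.val = M - a.val := by
    rw [absv, absv] at h
    omega
  rcases h' with h' | h'
  · exact Or.inl (ZMod.val_injective M h')
  · right
    apply ZMod.val_injective M
    rw [ZMod.neg_val, if_neg ha0, h']

end Absv

/-! ### The lowest coefficients -/

section Low

variable {R : Type*} [CommRing R] {M : ℕ} [NeZero M]

/-- below `absv a` all coefficients of `e_(a,b)` vanish. -/
theorem eCoeff_eq_zero_of_lt (χ : AddChar (ZMod M) R) {a : ZMod M} (b : ZMod M) {m : ℕ}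
    (hm : m < absv a) : eCoeff χ a b m = 0 := by
  unfold eCoeff
  refine Finset.sum_eq_zero fun k hk => ?_
  have hle : m / k ≤ m := Nat.div_le_self m k
  have h1 : ¬ ((m / k : ℕ) : ZMod M) = a := fun h =>
    absurd (absv_le_of_cast_eq (Or.inl h)) (by omega)
  have h2 : ¬ ((m / k : ℕ) : ZMod M) = -a := fun h =>
    absurd (absv_le_of_cast_eq (Or.inr h)) (by omega)
  rw [if_neg h1, if_neg h2, add_zero, mul_zero]

/-- the coefficient of `e_(a,b)` at `absv a`. -/
theorem eCoeff_absv (χ : AddChar (ZMod M) R) {a : ZMod M} (ha : a ≠ 0) (b : ZMod M) :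
    eCoeff χ a b (absv a) =
      (if ((absv a : ℕ) : ZMod M) = a then χ b else 0) +
        (if ((absv a : ℕ) : ZMod M) = -a then χ (-b) else 0) := by
  have hpos : 0 < absv a := Nat.pos_of_ne_zero (fun h => ha (absv_eq_zero.mp h))
  unfold eCoeff
  rw [Finset.sum_eq_single 1]
  · simp only [Nat.div_one, Nat.cast_one, one_mul, mul_one]
  · intro k hk hk1
    have hk0 : 0 < k := Nat.pos_of_mem_divisors hk
    have hlt : absv a / k < absv a := Nat.div_lt_self hpos (by omega)
    have h1 : ¬ ((absv a / k : ℕ) : ZMod M) = a := fun h =>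
      absurd (absv_le_of_cast_eq (Or.inl h)) (by omega)
    have h2 : ¬ ((absv a / k : ℕ) : ZMod M) = -a := fun h =>
      absurd (absv_le_of_cast_eq (Or.inr h)) (by omega)
    rw [if_neg h1, if_neg h2, add_zero, mul_zero]
  · intro h
    exact absurd (Nat.mem_divisors.mpr ⟨one_dvd _, hpos.ne'⟩) h

end Low

/-! ### Distinctness over a field -/

section Field

variable {K : Type*} [Field K] {M : ℕ} [NeZero M]

/-- the constant term of `e_(0,b)`: `ζ^b / (1 - ζ^b)²`. -/
noncomputable def c0 (χ : AddChar (ZMod M) K) (b : ZMod M) : K := χ b / (1 - χ b) ^ 2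

theorem addChar_ne_zero (χ : AddChar (ZMod M) K) (t : ZMod M) : χ t ≠ 0 := by
  intro h
  have h1 : χ t * χ (-t) = 1 := by
    rw [← AddChar.map_add_eq_mul, add_neg_cancel, AddChar.map_zero_eq_one]
  rw [h, zero_mul] at h1
  exact zero_ne_one h1

theorem addChar_inj {χ : AddChar (ZMod M) K} (hχ : ∀ t, χ t = 1 → t = 0) {s t : ZMod M}
    (h : χ s = χ t) : s = t := by
  have h1 : χ (s - t) = 1 := by
    rw [sub_eq_add_neg, AddChar.map_add_eq_mul, AddChar.map_neg_eq_inv, h,
      mul_inv_cancel₀ (addChar_ne_zero χ t)]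
  exact sub_eq_zero.mp (hχ _ h1)

theorem one_sub_addChar_ne_zero {χ : AddChar (ZMod M) K} (hχ : ∀ t, χ t = 1 → t = 0)
    {t : ZMod M} (ht : t ≠ 0) : 1 - χ t ≠ 0 :=
  fun h => ht (hχ t (by linear_combination -h))

theorem c0_neg (χ : AddChar (ZMod M) K) (b : ZMod M) : c0 χ (-b) = c0 χ b := by
  rw [c0, c0, AddChar.map_neg_eq_inv]
  have hx := addChar_ne_zero χ b
  by_cases hx1 : χ b = 1
  · rw [hx1, inv_one]
  have h1 : 1 - χ b ≠ 0 := fun h => hx1 (by linear_combination -h)
  have h2 : 1 - (χ b)⁻¹ ≠ 0 := by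
    intro h
    apply h1
    field_simp at h
    linear_combination -h
  have hxi : χ b * (χ b)⁻¹ = 1 := mul_inv_cancel₀ hx
  rw [div_eq_div_iff (pow_ne_zero 2 h2) (pow_ne_zero 2 h1)]
  linear_combination (-((χ b)⁻¹ - χ b)) * hxi

theorem c0_ne_zero (χ : AddChar (ZMod M) K) (hχ : ∀ t, χ t = 1 → t = 0) {b : ZMod M}
    (hb : b ≠ 0) : c0 χ b ≠ 0 :=
  div_ne_zero (addChar_ne_zero χ b) (pow_ne_zero 2 (one_sub_addChar_ne_zero hχ hb))

/-- `c₀(b) - c₀(d) = (ζ^b - ζ^d)(1 - ζ^(b+d)) / ((1 - ζ^b)² (1 - ζ^d)²)`. -/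
theorem c0_sub (χ : AddChar (ZMod M) K) (hχ : ∀ t, χ t = 1 → t = 0) {b d : ZMod M}
    (hb : b ≠ 0) (hd : d ≠ 0) :
    c0 χ b - c0 χ d =
      (χ b - χ d) * (1 - χ (b + d)) / ((1 - χ b) ^ 2 * (1 - χ d) ^ 2) := by
  have h1 : 1 - χ b ≠ 0 := one_sub_addChar_ne_zero hχ hb
  have h2 : 1 - χ d ≠ 0 := one_sub_addChar_ne_zero hχ hd
  rw [c0, c0, AddChar.map_add_eq_mul, div_sub_div _ _ (pow_ne_zero 2 h1) (pow_ne_zero 2 h2)]
  congr 1
  ring

theorem c0_ne (χ : AddChar (ZMod M) K) (hχ : ∀ t, χ t = 1 → t = 0) {b d : ZMod M}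
    (hb : b ≠ 0) (hd : d ≠ 0) (hbd : b ≠ d) (hbd' : b ≠ -d) : c0 χ b ≠ c0 χ d := by
  have h1 : 1 - χ b ≠ 0 := one_sub_addChar_ne_zero hχ hb
  have h2 : 1 - χ d ≠ 0 := one_sub_addChar_ne_zero hχ hd
  have h3 : χ b - χ d ≠ 0 := fun h => hbd (addChar_inj hχ (by linear_combination h))
  have h4 : 1 - χ (b + d) ≠ 0 :=
    one_sub_addChar_ne_zero hχ (fun h => hbd' (eq_neg_of_add_eq_zero_left h))
  intro h
  have h5 := c0_sub χ hχ hb hd
  rw [h, sub_self] at h5
  exact div_ne_zero (mul_ne_zero h3 h4) (mul_ne_zero (pow_ne_zero 2 h1) (pow_ne_zero 2 h2))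
    h5.symm

/-- All coefficients (`m ≥ 0`) of the Weber–Tate series `e_(a,b)`. -/
noncomputable def eFull (χ : AddChar (ZMod M) K) (a b : ZMod M) (m : ℕ) : K :=
  if m = 0 then (if a = 0 then c0 χ b else 0) else eCoeff χ a b m

theorem eFull_zero (χ : AddChar (ZMod M) K) (a b : ZMod M) :
    eFull χ a b 0 = if a = 0 then c0 χ b else 0 := by
  rw [eFull, if_pos rfl]

theorem eFull_of_pos (χ : AddChar (ZMod M) K) (a b : ZMod M) {m : ℕ} (hm : 0 < m) :
    eFull χ a b m = eCoeff χ a b m := by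
  rw [eFull, if_neg hm.ne']

/-- `e_(-v) = e_v`. -/
theorem eFull_neg (χ : AddChar (ZMod M) K) (a b : ZMod M) (m : ℕ) :
    eFull χ (-a) (-b) m = eFull χ a b m := by
  unfold eFull
  rw [eCoeff_neg, c0_neg χ]
  simp only [neg_eq_zero]

/-- below `absv a` the series `e_(a,b)` vanishes. -/
theorem eFull_eq_zero_of_lt (χ : AddChar (ZMod M) K) {a : ZMod M} (b : ZMod M) {m : ℕ}
    (hm : m < absv a) : eFull χ a b m = 0 := by
  rcases Nat.eq_zero_or_pos m with rfl | hpos
  · have ha : a ≠ 0 := fun h => by rw [h, absv_zero] at hm; exact lt_irrefl _ hm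
    rw [eFull_zero, if_neg ha]
  · rw [eFull_of_pos χ a b hpos, eCoeff_eq_zero_of_lt χ b hm]

/-- if `|a| < |c|` the series `e_(a,b)` and `e_(c,d)` differ at `z^|a|`. -/
theorem eFull_ne_of_absv_lt (χ : AddChar (ZMod M) K) (hχ : ∀ t, χ t = 1 → t = 0)
    {a b c : ZMod M} (d : ZMod M) (hv : ¬ (a = 0 ∧ b = 0)) (h : absv a < absv c) :
    eFull χ a b (absv a) ≠ eFull χ c d (absv a) := by
  rw [eFull_eq_zero_of_lt χ d h]
  by_cases ha : a = 0
  · have hb : b ≠ 0 := fun hb => hv ⟨ha, hb⟩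
    rw [ha, absv_zero, eFull_zero, if_pos rfl]
    exact c0_ne_zero χ hχ hb
  · have hpos : 0 < absv a := Nat.pos_of_ne_zero (fun h => ha (absv_eq_zero.mp h))
    rw [eFull_of_pos χ a b hpos, eCoeff_absv χ ha]
    have hc := two_mul_absv_le c
    by_cases h1 : ((absv a : ℕ) : ZMod M) = a
    · by_cases h2 : ((absv a : ℕ) : ZMod M) = -a
      · have := two_mul_absv_eq_of_both ha h1 h2
        omega
      · rw [if_pos h1, if_neg h2, add_zero]
        exact addChar_ne_zero χ b
    · have h2 : ((absv a : ℕ) : ZMod M) = -a := (natCast_absv_eq_or a).resolve_left h1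
      rw [if_neg h1, if_pos h2, zero_add]
      exact addChar_ne_zero χ (-b)

/-- same first coordinate: `e_(a,b)` and `e_(a,d)` differ at `z^|a|`. -/
theorem eFull_ne_of_eq (χ : AddChar (ZMod M) K) (hχ : ∀ t, χ t = 1 → t = 0)
    {a b d : ZMod M} (hv : ¬ (a = 0 ∧ b = 0)) (hw : ¬ (a = 0 ∧ d = 0)) (hbd : b ≠ d)
    (hbd' : a = -a → b ≠ -d) :
    eFull χ a b (absv a) ≠ eFull χ a d (absv a) := by
  by_cases ha : a = 0
  · have hb : b ≠ 0 := fun hb => hv ⟨ha, hb⟩
    have hd : d ≠ 0 := fun hd => hw ⟨ha, hd⟩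
    rw [ha, absv_zero, eFull_zero, eFull_zero, if_pos rfl, if_pos rfl]
    exact c0_ne χ hχ hb hd hbd (hbd' (by rw [ha, neg_zero]))
  · have hpos : 0 < absv a := Nat.pos_of_ne_zero (fun h => ha (absv_eq_zero.mp h))
    rw [eFull_of_pos χ a b hpos, eFull_of_pos χ a d hpos, eCoeff_absv χ ha, eCoeff_absv χ ha]
    by_cases h1 : ((absv a : ℕ) : ZMod M) = a
    · by_cases h2 : ((absv a : ℕ) : ZMod M) = -a
      · rw [if_pos h1, if_pos h2, if_pos h1, if_pos h2]
        have haa : a = -a := h1.symm.trans h2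
        have hbd'' := hbd' haa
        have hx := addChar_ne_zero χ b
        have hy := addChar_ne_zero χ d
        have h3 : χ b - χ d ≠ 0 := fun h => hbd (addChar_inj hχ (by linear_combination h))
        have h4 : χ b * χ d - 1 ≠ 0 := by
          intro h
          have : χ (b + d) = 1 := by rw [AddChar.map_add_eq_mul]; linear_combination h
          exact hbd'' (eq_neg_of_add_eq_zero_left (hχ _ this))
        rw [AddChar.map_neg_eq_inv, AddChar.map_neg_eq_inv]
        intro h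
        have hxi : χ b * (χ b)⁻¹ = 1 := mul_inv_cancel₀ hx
        have hyi : χ d * (χ d)⁻¹ = 1 := mul_inv_cancel₀ hy
        have : (χ b - χ d) * (χ b * χ d - 1) = 0 := by
          linear_combination (χ b * χ d) * h - (χ d) * hxi + (χ b) * hyi
        exact mul_ne_zero h3 h4 this
      · rw [if_pos h1, if_neg h2, if_pos h1, if_neg h2, add_zero, add_zero]
        exact fun h => hbd (addChar_inj hχ h)
    · have h2 : ((absv a : ℕ) : ZMod M) = -a := (natCast_absv_eq_or a).resolve_left h1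
      rw [if_neg h1, if_pos h2, if_neg h1, if_pos h2, zero_add, zero_add]
      exact fun h => hbd (neg_injective (addChar_inj hχ h))

/-- **Distinctness**: for `v = (a,b)`, `w = (c,d)` nonzero with `v ≠ ±w`, the series `e_v` and
`e_w` differ; the first difference is at `z^n`, `n = min |a| |c|`, and both series vanish below
`n`. -/
theorem exists_eFull_ne (χ : AddChar (ZMod M) K) (hχ : ∀ t, χ t = 1 → t = 0)
    {a b c d : ZMod M} (hv : ¬ (a = 0 ∧ b = 0)) (hw : ¬ (c = 0 ∧ d = 0))
    (hne : ¬ (a = c ∧ b = d)) (hne' : ¬ (a = -c ∧ b = -d)) :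
    (∀ m < min (absv a) (absv c), eFull χ a b m = 0 ∧ eFull χ c d m = 0) ∧
      eFull χ a b (min (absv a) (absv c)) ≠ eFull χ c d (min (absv a) (absv c)) := by
  refine ⟨fun m hm => ⟨eFull_eq_zero_of_lt χ b (lt_of_lt_of_le hm (min_le_left _ _)),
    eFull_eq_zero_of_lt χ d (lt_of_lt_of_le hm (min_le_right _ _))⟩, ?_⟩
  rcases lt_trichotomy (absv a) (absv c) with h | h | h
  · rw [min_eq_left h.le]
    exact eFull_ne_of_absv_lt χ hχ d hv h
  · rw [h, min_self, ← h]
    rcases eq_or_eq_neg_of_absv_eq h with hc | hc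
    · subst hc
      refine eFull_ne_of_eq χ hχ hv hw (fun hbd => hne ⟨rfl, hbd⟩) (fun haa hbd => ?_)
      exact hne' ⟨haa, hbd⟩
    · subst hc
      have hw' : ¬ (a = 0 ∧ -d = 0) := fun hh => hw ⟨neg_eq_zero.mpr hh.1, neg_eq_zero.mp hh.2⟩
      have key := eFull_ne_of_eq χ hχ (d := -d) hv hw'
        (fun hbd => hne' ⟨(neg_neg a).symm, hbd⟩)
        (fun haa hbd => hne ⟨haa, by rw [hbd, neg_neg]⟩)
      rwa [← eFull_neg χ a (-d), neg_neg] at key
  · rw [min_eq_right h.le]
    exact (eFull_ne_of_absv_lt χ hχ b hw h).symm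

end Field

end Fermat.Agent.S48x.Model.AC
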