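import Fermat.Agent.S48x.Model.Series
import Fermat.Agent.S28.Basic

/-!
P-S48, MODEL, WP-M2 (helper67): formal identities for the division series `e_v`.

For `ζ` with `ζ ^ M = 1`:

* `eSeries_neg`     : `e_{-v} = e_v`;
* `twist_eSeries`   : `e_(a,b)(ζ z) = e_(a,a+b)(z)`  (`S28.twist`, the substitution `z ↦ ζ z`);
* `eSeries_pow`     : `e_(a,b)` for the root of unity `ζ ^ t` is `e_(a,t b)` for `ζ`
  (the `e1`-versions `e1Series_pow`, `ratio1_pow` are in `Model/DescentHyp.lean`, helper77);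
* `qExpand_e1Series`: `e1_b(z^M) = e_(0,b)(z)`  (no hypothesis on `ζ`);
* the induced identities for `ratio`, `ratio1`, and
  `qExpand_mem_fullField` : `qExpand M` maps `gamma1FieldC M ζ` into `fullField M ζ`.
-/

set_option autoImplicit false
set_option linter.unusedSectionVars false

noncomputable section

open ModularCurve

namespace Fermat.Agent.S48x.Model.Identities

open Fermat.Agent.S48x.Model

variable {R : Type*} [Field R] {M : ℕ} [NeZero M]

/-! ### Powers of a root of unity indexed by `ZMod M` -/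

theorem pow_eq_pow_of_natCast_eq {ζ : R} (hζ : ζ ^ M = 1) {m n : ℕ}
    (h : (m : ZMod M) = (n : ZMod M)) : ζ ^ m = ζ ^ n := by
  rw [pow_eq_pow_mod m hζ, pow_eq_pow_mod n hζ]
  congr 1
  exact (ZMod.natCast_eq_natCast_iff' m n M).mp h

theorem pow_val_eq_pow {ζ : R} (hζ : ζ ^ M = 1) (c : ZMod M) {n : ℕ} (h : c = (n : ZMod M)) :
    ζ ^ c.val = ζ ^ n := by
  apply pow_eq_pow_of_natCast_eq hζ
  rw [ZMod.natCast_zmod_val, h]

theorem pow_val_mul_pow_val_neg {ζ : R} (hζ : ζ ^ M = 1) (c : ZMod M) :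
    ζ ^ c.val * ζ ^ (-c).val = 1 := by
  rw [← pow_add, ← pow_zero ζ]
  apply pow_eq_pow_of_natCast_eq hζ
  push_cast
  rw [ZMod.natCast_zmod_val, ZMod.natCast_zmod_val, add_neg_cancel]

/-! ### `e_{-v} = e_v` -/

theorem eCoeff_neg {ζ : R} (hζ : ζ ^ M = 1) (v : Vec M) (m : ℕ) :
    eCoeff M ζ (-v) m = eCoeff M ζ v m := by
  unfold eCoeff
  by_cases hm : m = 0
  · rw [if_pos hm, if_pos hm]
    have h1 : (-v).1 = 0 ↔ v.1 = 0 := by
      rw [Prod.fst_neg, neg_eq_zero]
    by_cases hv : v.1 = 0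
    · rw [if_pos hv, if_pos (h1.mpr hv), Prod.snd_neg]
      set u := ζ ^ v.2.val with hu
      set u' := ζ ^ (-v.2).val with hu'
      have huu : u * u' = 1 := pow_val_mul_pow_val_neg hζ v.2
      have hu0 : u ≠ 0 := left_ne_zero_of_mul_eq_one huu
      have hu'eq : u' = u⁻¹ := eq_inv_of_mul_eq_one_right huu
      rw [hu'eq]
      by_cases h1u : 1 - u = 0
      · have : u = 1 := (sub_eq_zero.mp h1u).symm
        rw [this]
        simp
      · have h2 : (1 : R) - u⁻¹ ≠ 0 := by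
          intro h
          apply h1u
          have : u⁻¹ = 1 := (sub_eq_zero.mp h).symm
          rw [inv_eq_one] at this
          rw [this, sub_self]
        rw [div_eq_div_iff (pow_ne_zero 2 h2) (pow_ne_zero 2 h1u)]
        have huw : u * u⁻¹ = 1 := mul_inv_cancel₀ hu0
        linear_combination (u - u⁻¹) * huw
    · rw [if_neg hv, if_neg (fun h => hv (h1.mp h))]
  · rw [if_neg hm, if_neg hm]
    refine Finset.sum_congr rfl fun x _ => ?_
    rw [Prod.fst_neg, Prod.snd_neg, neg_neg, neg_neg, add_comm]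

theorem eSeries_neg {ζ : R} (hζ : ζ ^ M = 1) (v : Vec M) :
    eSeries M ζ (-v) = eSeries M ζ v := by
  unfold eSeries ePow
  congr 1
  ext m
  rw [PowerSeries.coeff_mk, PowerSeries.coeff_mk, eCoeff_neg hζ]

theorem ratio_neg_left {ζ : R} (hζ : ζ ^ M = 1) (v w v' w' : Vec M) :
    ratio M ζ (-v) w v' w' = ratio M ζ v w v' w' := by
  unfold ratio
  rw [eSeries_neg hζ]

/-! ### the twist `z ↦ ζ z` -/

theorem eCoeff_twist {ζ : R} (hζ : ζ ^ M = 1) (a b : ZMod M) (m : ℕ) :
    ζ ^ m * eCoeff M ζ (a, b) m = eCoeff M ζ (a, a + b) m := by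
  unfold eCoeff
  by_cases hm : m = 0
  · rw [if_pos hm, if_pos hm, hm, pow_zero, one_mul]
    show (if a = 0 then ζ ^ b.val / (1 - ζ ^ b.val) ^ 2 else 0)
      = (if a = 0 then ζ ^ (a + b).val / (1 - ζ ^ (a + b).val) ^ 2 else 0)
    by_cases ha : a = 0
    · rw [if_pos ha, if_pos ha, ha, zero_add]
    · rw [if_neg ha, if_neg ha]
  · rw [if_neg hm, if_neg hm, Finset.mul_sum]
    refine Finset.sum_congr rfl fun x hx => ?_
    have hxm : x.1 * x.2 = m := (Nat.mem_divisorsAntidiagonal.mp hx).1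
    show ζ ^ m * ((x.1 : R) * ((if ((x.2 : ℕ) : ZMod M) = a then ζ ^ (b.val * x.1) else 0) +
        (if ((x.2 : ℕ) : ZMod M) = -a then ζ ^ ((-b).val * x.1) else 0)))
      = (x.1 : R) * ((if ((x.2 : ℕ) : ZMod M) = a then ζ ^ ((a + b).val * x.1) else 0) +
        (if ((x.2 : ℕ) : ZMod M) = -a then ζ ^ ((-(a + b)).val * x.1) else 0))
    have e1 : ((x.2 : ℕ) : ZMod M) = a → ζ ^ m * ζ ^ (b.val * x.1) = ζ ^ ((a + b).val * x.1) := by
      intro h
      rw [← pow_add]
      apply pow_eq_pow_of_natCast_eq hζ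
      rw [← hxm]
      push_cast
      rw [ZMod.natCast_zmod_val, ZMod.natCast_zmod_val, h]
      ring
    have e2 : ((x.2 : ℕ) : ZMod M) = -a →
        ζ ^ m * ζ ^ ((-b).val * x.1) = ζ ^ ((-(a + b)).val * x.1) := by
      intro h
      rw [← pow_add]
      apply pow_eq_pow_of_natCast_eq hζ
      rw [← hxm]
      push_cast
      rw [ZMod.natCast_zmod_val, ZMod.natCast_zmod_val, h]
      ring
    by_cases h1 : ((x.2 : ℕ) : ZMod M) = a <;> by_cases h2 : ((x.2 : ℕ) : ZMod M) = -a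
    · rw [if_pos h1, if_pos h2, if_pos h1, if_pos h2, ← e1 h1, ← e2 h2]; ring
    · rw [if_pos h1, if_neg h2, if_pos h1, if_neg h2, ← e1 h1]; ring
    · rw [if_neg h1, if_pos h2, if_neg h1, if_pos h2, ← e2 h2]; ring
    · rw [if_neg h1, if_neg h2, if_neg h1, if_neg h2]; ring

/-- the twist of (the Laurent series of) a power series. -/
theorem twist_ofPowerSeries (ζ : Rˣ) (p : PowerSeries R) :
    Fermat.Agent.S28.twist ζ (HahnSeries.ofPowerSeries ℤ R p)
      = HahnSeries.ofPowerSeries ℤ R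
          (PowerSeries.mk fun m => (ζ : R) ^ m * PowerSeries.coeff m p) := by
  ext k
  rw [Fermat.Agent.S28.twist_coeff]
  rcases le_or_gt 0 k with hk | hk
  · lift k to ℕ using hk
    rw [HahnSeries.ofPowerSeries_apply_coeff, HahnSeries.ofPowerSeries_apply_coeff,
      PowerSeries.coeff_mk, zpow_natCast, Units.val_pow_eq_pow_val]
  · rw [ofPowerSeries_coeff_of_neg _ hk, ofPowerSeries_coeff_of_neg _ hk, mul_zero]

/-- **`z ↦ ζ z` is `(a, b) ↦ (a, a + b)`**. -/
theorem twist_eSeries (ζ : Rˣ) (hζ : ζ ^ M = 1) (a b : ZMod M) :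
    Fermat.Agent.S28.twist ζ (eSeries M (ζ : R) (a, b)) = eSeries M (ζ : R) (a, a + b) := by
  have hζ' : (ζ : R) ^ M = 1 := by
    rw [← Units.val_pow_eq_pow_val, hζ, Units.val_one]
  unfold eSeries
  rw [twist_ofPowerSeries]
  congr 1
  ext m
  rw [PowerSeries.coeff_mk, ePow, ePow, PowerSeries.coeff_mk, PowerSeries.coeff_mk,
    eCoeff_twist hζ']

theorem twist_ratio (ζ : Rˣ) (hζ : ζ ^ M = 1) (v w v' w' : Vec M) :
    Fermat.Agent.S28.twist ζ (ratio M (ζ : R) v w v' w')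
      = ratio M (ζ : R) (v.1, v.1 + v.2) (w.1, w.1 + w.2) (v'.1, v'.1 + v'.2)
          (w'.1, w'.1 + w'.2) := by
  unfold ratio
  rw [map_div₀, map_sub, map_sub]
  rw [show v = (v.1, v.2) from rfl, show w = (w.1, w.2) from rfl, show v' = (v'.1, v'.2) from rfl,
    show w' = (w'.1, w'.2) from rfl]
  rw [twist_eSeries ζ hζ, twist_eSeries ζ hζ, twist_eSeries ζ hζ, twist_eSeries ζ hζ]

/-! ### change of the root of unity `ζ ↦ ζ ^ t` -/

theorem eCoeff_pow {ζ : R} (hζ : ζ ^ M = 1) (t : ℕ) (a b : ZMod M) (m : ℕ) :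
    eCoeff M (ζ ^ t) (a, b) m = eCoeff M ζ (a, (t : ZMod M) * b) m := by
  have key : ∀ (c : ZMod M) (j : ℕ), (ζ ^ t) ^ (c.val * j) = ζ ^ (((t : ZMod M) * c).val * j) := by
    intro c j
    rw [← pow_mul]
    apply pow_eq_pow_of_natCast_eq hζ
    push_cast
    rw [ZMod.natCast_zmod_val, ZMod.natCast_zmod_val]
    ring
  unfold eCoeff
  by_cases hm : m = 0
  · rw [if_pos hm, if_pos hm]
    show (if a = 0 then (ζ ^ t) ^ b.val / (1 - (ζ ^ t) ^ b.val) ^ 2 else 0)
      = (if a = 0 then ζ ^ ((t : ZMod M) * b).val / (1 - ζ ^ ((t : ZMod M) * b).val) ^ 2 else 0)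
    have h1 : (ζ ^ t) ^ b.val = ζ ^ ((t : ZMod M) * b).val := by
      have := key b 1
      rwa [mul_one, mul_one] at this
    rw [h1]
  · rw [if_neg hm, if_neg hm]
    refine Finset.sum_congr rfl fun x _ => ?_
    show (x.1 : R) * ((if ((x.2 : ℕ) : ZMod M) = a then (ζ ^ t) ^ (b.val * x.1) else 0) +
        (if ((x.2 : ℕ) : ZMod M) = -a then (ζ ^ t) ^ ((-b).val * x.1) else 0))
      = (x.1 : R) * ((if ((x.2 : ℕ) : ZMod M) = a then ζ ^ (((t : ZMod M) * b).val * x.1) else 0) +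
        (if ((x.2 : ℕ) : ZMod M) = -a then ζ ^ ((-((t : ZMod M) * b)).val * x.1) else 0))
    rw [key b x.1, key (-b) x.1, mul_neg]

/-- **`ζ ↦ ζ ^ t` is `(a, b) ↦ (a, t b)`**. -/
theorem eSeries_pow {ζ : R} (hζ : ζ ^ M = 1) (t : ℕ) (a b : ZMod M) :
    eSeries M (ζ ^ t) (a, b) = eSeries M ζ (a, (t : ZMod M) * b) := by
  unfold eSeries ePow
  congr 1
  ext m
  rw [PowerSeries.coeff_mk, PowerSeries.coeff_mk, eCoeff_pow hζ]

theorem ratio_pow {ζ : R} (hζ : ζ ^ M = 1) (t : ℕ) (v w v' w' : Vec M) :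
    ratio M (ζ ^ t) v w v' w'
      = ratio M ζ (v.1, (t : ZMod M) * v.2) (w.1, (t : ZMod M) * w.2)
          (v'.1, (t : ZMod M) * v'.2) (w'.1, (t : ZMod M) * w'.2) := by
  unfold ratio
  rw [show v = (v.1, v.2) from rfl, show w = (w.1, w.2) from rfl, show v' = (v'.1, v'.2) from rfl,
    show w' = (w'.1, w'.2) from rfl]
  rw [eSeries_pow hζ, eSeries_pow hζ, eSeries_pow hζ, eSeries_pow hζ]

/-! ### `e1_b (z^M) = e_(0,b) (z)` -/

/-- `qExpand` of (the Laurent series of) a power series. -/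
theorem qExpand_ofPowerSeries (N : ℕ) [NeZero N] (p : PowerSeries R) :
    qExpand R N (HahnSeries.ofPowerSeries ℤ R p)
      = HahnSeries.ofPowerSeries ℤ R
          (PowerSeries.mk fun m => if N ∣ m then PowerSeries.coeff (m / N) p else 0) := by
  ext k
  rcases le_or_gt 0 k with hk | hk
  · lift k to ℕ using hk
    rw [HahnSeries.ofPowerSeries_apply_coeff, PowerSeries.coeff_mk]
    by_cases hd : N ∣ k
    · rw [if_pos hd]
      obtain ⟨j, rfl⟩ := hd
      rw [Nat.mul_div_cancel_left j (Nat.pos_of_ne_zero (NeZero.ne N))]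
      have : ((N * j : ℕ) : ℤ) = (N : ℤ) * (j : ℤ) := by push_cast; ring
      rw [this, qExpand_coeff_mul, HahnSeries.ofPowerSeries_apply_coeff]
    · rw [if_neg hd]
      apply qExpand_coeff_of_not_dvd
      intro h
      exact hd (Int.natCast_dvd_natCast.mp h)
  · rw [ofPowerSeries_coeff_of_neg _ hk]
    by_cases hd : (N : ℤ) ∣ k
    · obtain ⟨j, rfl⟩ := hd
      rw [qExpand_coeff_mul]
      have hj : j < 0 := by
        by_contra hj
        have hj' : 0 ≤ j := not_lt.mp hj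
        have : (0 : ℤ) ≤ (N : ℤ) * j := mul_nonneg (Int.natCast_nonneg N) hj'
        omega
      exact ofPowerSeries_coeff_of_neg _ hj
    · exact qExpand_coeff_of_not_dvd N _ hd

theorem eCoeff_zero_fst (ζ : R) (b : ZMod M) (m : ℕ) :
    eCoeff M ζ ((0 : ZMod M), b) m = if M ∣ m then e1Coeff M ζ b (m / M) else 0 := by
  have hMpos : 0 < M := Nat.pos_of_ne_zero (NeZero.ne M)
  unfold eCoeff e1Coeff
  by_cases hm : m = 0
  · subst hm
    rw [if_pos rfl, if_pos (dvd_zero M), Nat.zero_div, if_pos rfl, if_pos rfl]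
  · rw [if_neg hm]
    show (∑ x ∈ m.divisorsAntidiagonal,
        (x.1 : R) * ((if ((x.2 : ℕ) : ZMod M) = 0 then ζ ^ (b.val * x.1) else 0) +
          (if ((x.2 : ℕ) : ZMod M) = -0 then ζ ^ ((-b).val * x.1) else 0))) = _
    have hterm : ∀ x : ℕ × ℕ,
        (x.1 : R) * ((if ((x.2 : ℕ) : ZMod M) = 0 then ζ ^ (b.val * x.1) else 0) +
          (if ((x.2 : ℕ) : ZMod M) = -0 then ζ ^ ((-b).val * x.1) else 0))
        = if M ∣ x.2 then (x.1 : R) * (ζ ^ (b.val * x.1) + ζ ^ ((-b).val * x.1)) else 0 := by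
      intro x
      by_cases h : M ∣ x.2
      · have h' : ((x.2 : ℕ) : ZMod M) = 0 := (ZMod.natCast_eq_zero_iff _ _).mpr h
        have h'' : ((x.2 : ℕ) : ZMod M) = -0 := by rw [neg_zero]; exact h'
        rw [if_pos h, if_pos h', if_pos h'']
      · have h' : ¬ ((x.2 : ℕ) : ZMod M) = 0 := fun h0 => h ((ZMod.natCast_eq_zero_iff _ _).mp h0)
        have h'' : ¬ ((x.2 : ℕ) : ZMod M) = -0 := by rw [neg_zero]; exact h'
        rw [if_neg h, if_neg h', if_neg h'', add_zero, mul_zero]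
    rw [Finset.sum_congr rfl fun x _ => hterm x]
    by_cases hd : M ∣ m
    · rw [if_pos hd]
      obtain ⟨n, rfl⟩ := hd
      have hn : n ≠ 0 := by
        rintro rfl
        exact hm (mul_zero M)
      rw [Nat.mul_div_cancel_left n hMpos, if_neg hn, ← Finset.sum_filter]
      -- reindex along `y ↦ (y.1, M * y.2)`
      symm
      apply Finset.sum_bij (fun (y : ℕ × ℕ) _ => ((y.1, M * y.2) : ℕ × ℕ))
      · intro y hy
        rw [Nat.mem_divisorsAntidiagonal] at hy
        rw [Finset.mem_filter, Nat.mem_divisorsAntidiagonal]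
        refine ⟨⟨?_, hm⟩, dvd_mul_right M y.2⟩
        show y.1 * (M * y.2) = M * n
        rw [← hy.1]; ring
      · intro y _ y' _ h
        have h1 : y.1 = y'.1 := (Prod.mk.inj h).1
        have h2 : M * y.2 = M * y'.2 := (Prod.mk.inj h).2
        exact Prod.ext h1 (Nat.eq_of_mul_eq_mul_left hMpos h2)
      · intro x hx
        rw [Finset.mem_filter, Nat.mem_divisorsAntidiagonal] at hx
        obtain ⟨⟨hx1, _⟩, j, hj⟩ := hx
        refine ⟨(x.1, j), ?_, ?_⟩
        · rw [Nat.mem_divisorsAntidiagonal]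
          refine ⟨?_, hn⟩
          show x.1 * j = n
          apply Nat.eq_of_mul_eq_mul_left hMpos
          rw [← hx1, hj]; ring
        · exact Prod.ext rfl hj.symm
      · intro y _
        rfl
    · rw [if_neg hd]
      apply Finset.sum_eq_zero
      intro x hx
      rw [Nat.mem_divisorsAntidiagonal] at hx
      rw [if_neg]
      intro h
      exact hd (hx.1 ▸ Dvd.dvd.mul_left h x.1)

/-- **`e1_b (z^M) = e_(0,b) (z)`**. -/
theorem qExpand_e1Series (ζ : R) (b : ZMod M) :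
    qExpand R M (e1Series M ζ b) = eSeries M ζ ((0 : ZMod M), b) := by
  unfold e1Series eSeries
  rw [qExpand_ofPowerSeries]
  congr 1
  ext m
  rw [PowerSeries.coeff_mk, ePow, PowerSeries.coeff_mk, eCoeff_zero_fst, e1Pow]
  by_cases hd : M ∣ m
  · rw [if_pos hd, if_pos hd, PowerSeries.coeff_mk]
  · rw [if_neg hd, if_neg hd]

theorem qExpand_ratio1 (ζ : R) (b c b' c' : ZMod M) :
    qExpand R M (ratio1 M ζ b c b' c')
      = ratio M ζ ((0 : ZMod M), b) ((0 : ZMod M), c) ((0 : ZMod M), b') ((0 : ZMod M), c') := by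
  unfold ratio1 ratio
  rw [map_div₀, map_sub, map_sub, qExpand_e1Series, qExpand_e1Series, qExpand_e1Series,
    qExpand_e1Series]

/-- `e1_b = e1_{-b}`. -/
theorem e1Series_neg {ζ : R} (hζ : ζ ^ M = 1) (b : ZMod M) :
    e1Series M ζ (-b) = e1Series M ζ b := by
  apply qExpand_injective (R := R) M
  rw [qExpand_e1Series, qExpand_e1Series]
  have : (((0 : ZMod M), -b) : Vec M) = -(((0 : ZMod M), b) : Vec M) := by
    ext <;> simp
  rw [this, eSeries_neg hζ]

/-! ### `qExpand M : gamma1FieldC M ζ → fullField M ζ` -/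

theorem zero_pair_ne_zero {b : ZMod M} (hb : b ≠ 0) : (((0 : ZMod M), b) : Vec M) ≠ 0 := by
  intro h
  exact hb (congrArg Prod.snd h)

/-- **`qExpand M` maps the function field of `X₁(M)` (variable `q`) into the function field of
`X(M)` (variable `z = q^(1/M)`)**. -/
theorem qExpand_mem_fullField (ζ : R) {f : LaurentSeries R} (hf : f ∈ gamma1FieldC M ζ) :
    qExpand R M f ∈ fullField M ζ := by
  have hle : (gamma1FieldC M ζ).map (qExpandAlgHomC R M) ≤ fullField M ζ := by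
    rw [gamma1FieldC, IntermediateField.adjoin_map, IntermediateField.adjoin_le_iff]
    rintro _ ⟨x, hx, rfl⟩
    rw [qExpandAlgHomC_apply]
    rcases hx with ⟨d, hd0, hd, rfl⟩ | ⟨b, c, b', c', hb, hc, hb', hc', rfl⟩
    · rw [SetLike.mem_coe, qExpand_qExpand, qExpand_congr (mul_comm M d)]
      exact jqd_mem_fullField ζ hd
    · rw [SetLike.mem_coe, qExpand_ratio1]
      exact ratio_mem_fullField ζ (zero_pair_ne_zero hb) (zero_pair_ne_zero hc)
        (zero_pair_ne_zero hb') (zero_pair_ne_zero hc')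
  exact hle ⟨f, hf, rfl⟩

end Fermat.Agent.S48x.Model.Identities
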