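import Fermat.Agent.S48x.Model.Series
import Fermat.Agent.S48x.Model.Identities
import Fermat.Agent.S48x.Model.ECoeff
import Fermat.Agent.S48x.Model.ELead

/-!
P-S48, MODEL, WP-M3 items L0-L2 (helper67): the LEADING TERMS of the differences `e_v - e_w`.

`ζ` a primitive `M`-th root of unity in a field `R`, `v = (a, b)`, `w = (c, d)` in `(ℤ/M)²`,
both nonzero, `v ≠ ± w`.  With `|a| = AC.absv a = min (a.val) (M - a.val)` (helper69,
`Model/ELead.lean`; this is item L0) and `n = min |a| |c|`: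

* `eCoeff_eq_eFull`     : (bridge) `eCoeff M ζ (a, b) m = AC.eFull (zmodChar M hζ) a b m`;
* `eSeries_coeff_natCast`, `eSeries_coeff_of_neg` : the coefficients of `eSeries`;
* `eSeries_sub_coeff_of_lt` : the coefficients of `e_v - e_w` vanish below `z^n`;
* `eSeries_sub_coeff_ne_zero` : the coefficient of `z^n` in `e_v - e_w` is nonzero;
* `eSeries_sub_ne_zero`, `eSeries_ne` : `e_v ≠ e_w`;
* `order_eSeries_sub`   : (L1) `order (e_v - e_w) = n`;
* `order_eSeries_sub_nonneg`, `order_eSeries_sub_le` : `0 ≤ order ≤ M / 2`;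
* `leadingCoeff_eSeries_sub` : the leading coefficient is `eCoeff v n - eCoeff w n`;
* `coeff_zero_eSeries_sub_of_fst_eq_zero` : (L2)(i) for `v = (0, b)`, `w = (0, c)` the coefficient of
  `z^0` is `ζ^b/(1-ζ^b)² - ζ^c/(1-ζ^c)²`
  `= (ζ^b - ζ^c)(1 - ζ^(b+c)) / ((1-ζ^b)² (1-ζ^c)²)` (`coeff_zero_eSeries_sub_eq`);
* `coeff_one_eSeries_sub_of_fst_eq_one` : (L2)(ii) for `v = (1, b)`, `w = (1, c)`, `3 ≤ M`, the
  coefficient of `z^1` is `ζ^b - ζ^c`;
* `ratio_ne_zero`, `order_ratio` : the ratios are nonzero, of order `n(v,w) - n(v',w')`.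
-/

set_option autoImplicit false
set_option linter.unusedSectionVars false

noncomputable section

open ModularCurve

namespace Fermat.Agent.S48x.Model.Leading

open Fermat.Agent.S48x.Model

variable {R : Type*} [Field R] {M : ℕ} [NeZero M]

/-! ### The bridge to the additive-character formalism -/

/-- the additive character `t ↦ ζ^t` attached to a primitive root of unity is faithful. -/
theorem zmodChar_faithful {ζ : R} (hζ : IsPrimitiveRoot ζ M) (t : ZMod M)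
    (ht : AddChar.zmodChar M hζ.pow_eq_one t = 1) : t = 0 := by
  rw [AddChar.zmodChar_apply, ← pow_zero ζ] at ht
  exact (ZMod.val_eq_zero t).mp (hζ.pow_inj (ZMod.val_lt t) (NeZero.pos _) ht)

theorem zmodChar_mul_natCast {ζ : R} (hζ : ζ ^ M = 1) (b : ZMod M) (k : ℕ) :
    AddChar.zmodChar M hζ (b * k) = ζ ^ (b.val * k) := by
  rw [AddChar.zmodChar_apply]
  apply Identities.pow_val_eq_pow hζ
  push_cast
  rw [ZMod.natCast_zmod_val]

theorem zmodChar_neg_mul_natCast {ζ : R} (hζ : ζ ^ M = 1) (b : ZMod M) (k : ℕ) :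
    AddChar.zmodChar M hζ (-(b * k)) = ζ ^ ((-b).val * k) := by
  rw [← neg_mul, zmodChar_mul_natCast]

/-- **Bridge**: the coefficients of `Model/Series.lean` are those of `Model/ELead.lean` for the
additive character `t ↦ ζ^t`. -/
theorem eCoeff_eq_eFull {ζ : R} (hζ : ζ ^ M = 1) (a b : ZMod M) (m : ℕ) :
    eCoeff M ζ (a, b) m = AC.eFull (AddChar.zmodChar M hζ) a b m := by
  unfold eCoeff AC.eFull
  by_cases hm : m = 0
  · rw [if_pos hm, if_pos hm]
    rfl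
  · rw [if_neg hm, if_neg hm, AC.eCoeff]
    rw [Nat.sum_divisorsAntidiagonal (n := m) (f := fun i j : ℕ =>
      (i : R) * ((if ((j : ℕ) : ZMod M) = a then ζ ^ (b.val * i) else 0) +
        (if ((j : ℕ) : ZMod M) = -a then ζ ^ ((-b).val * i) else 0)))]
    refine Finset.sum_congr rfl fun k _ => ?_
    rw [zmodChar_mul_natCast, zmodChar_neg_mul_natCast]

theorem eCoeff_eq_eFull' {ζ : R} (hζ : ζ ^ M = 1) (v : Vec M) (m : ℕ) :
    eCoeff M ζ v m = AC.eFull (AddChar.zmodChar M hζ) v.1 v.2 m :=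
  eCoeff_eq_eFull hζ v.1 v.2 m

/-! ### Coefficients of `eSeries` -/

theorem eSeries_coeff_natCast (ζ : R) (v : Vec M) (m : ℕ) :
    (eSeries M ζ v).coeff (m : ℤ) = eCoeff M ζ v m := by
  rw [eSeries, HahnSeries.ofPowerSeries_apply_coeff, ePow, PowerSeries.coeff_mk]

theorem eSeries_coeff_of_neg (ζ : R) (v : Vec M) {k : ℤ} (hk : k < 0) :
    (eSeries M ζ v).coeff k = 0 := by
  rw [eSeries]
  exact ofPowerSeries_coeff_of_neg _ hk

theorem eSeries_coeff_zero (ζ : R) (v : Vec M) :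
    (eSeries M ζ v).coeff 0 = eCoeff M ζ v 0 := by
  have h := eSeries_coeff_natCast ζ v 0
  rwa [Nat.cast_zero] at h

theorem eSeries_coeff_one (ζ : R) (v : Vec M) :
    (eSeries M ζ v).coeff 1 = eCoeff M ζ v 1 := by
  have h := eSeries_coeff_natCast ζ v 1
  rwa [Nat.cast_one] at h

/-! ### L1: the order of `e_v - e_w` -/

/-- the exponent of the leading term of `e_v - e_w`: `min |a| |c|`. -/
def lead (v w : Vec M) : ℕ := min (AC.absv v.1) (AC.absv w.1)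

theorem lead_comm (v w : Vec M) : lead v w = lead w v := min_comm _ _

theorem lead_le_left (v w : Vec M) : lead v w ≤ AC.absv v.1 := min_le_left _ _

theorem lead_le_right (v w : Vec M) : lead v w ≤ AC.absv w.1 := min_le_right _ _

theorem two_mul_lead_le (v w : Vec M) : 2 * lead v w ≤ M :=
  (Nat.mul_le_mul_left 2 (lead_le_left v w)).trans (AC.two_mul_absv_le v.1)

theorem lead_eq_zero_iff {v w : Vec M} : lead v w = 0 ↔ v.1 = 0 ∨ w.1 = 0 := by
  rw [lead, Nat.min_eq_zero_iff, AC.absv_eq_zero, AC.absv_eq_zero]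

theorem lead_neg_left (v w : Vec M) : lead (-v) w = lead v w := by
  rw [lead, lead, Prod.fst_neg, AC.absv_neg]

theorem lead_neg_right (v w : Vec M) : lead v (-w) = lead v w := by
  rw [lead, lead, Prod.fst_neg, AC.absv_neg]

/-- the hypotheses of `AC.exists_eFull_ne`, from `v, w ≠ 0`, `v ≠ ± w`. -/
theorem exists_eCoeff_ne {ζ : R} (hζ : IsPrimitiveRoot ζ M) {v w : Vec M} (hv : v ≠ 0)
    (hw : w ≠ 0) (hne : v ≠ w) (hne' : v ≠ -w) :
    (∀ m < lead v w, eCoeff M ζ v m = 0 ∧ eCoeff M ζ w m = 0) ∧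
      eCoeff M ζ v (lead v w) ≠ eCoeff M ζ w (lead v w) := by
  have h1 : ¬ (v.1 = 0 ∧ v.2 = 0) := fun h => hv (Prod.ext h.1 h.2)
  have h2 : ¬ (w.1 = 0 ∧ w.2 = 0) := fun h => hw (Prod.ext h.1 h.2)
  have h3 : ¬ (v.1 = w.1 ∧ v.2 = w.2) := fun h => hne (Prod.ext h.1 h.2)
  have h4 : ¬ (v.1 = -w.1 ∧ v.2 = -w.2) := fun h => hne' (Prod.ext h.1 h.2)
  have key := AC.exists_eFull_ne (AddChar.zmodChar M hζ.pow_eq_one) (zmodChar_faithful hζ)
    h1 h2 h3 h4
  simp only [← eCoeff_eq_eFull' hζ.pow_eq_one] at key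
  exact key

/-- below `z^(lead v w)` all coefficients of `e_v - e_w` vanish (no hypothesis on `v, w`). -/
theorem eSeries_sub_coeff_of_lt {ζ : R} (hζ : ζ ^ M = 1) (v w : Vec M) {k : ℤ}
    (hk : k < (lead v w : ℤ)) : (eSeries M ζ v - eSeries M ζ w).coeff k = 0 := by
  rw [HahnSeries.coeff_sub]
  rcases lt_or_ge k 0 with hneg | hnn
  · rw [eSeries_coeff_of_neg ζ v hneg, eSeries_coeff_of_neg ζ w hneg, sub_zero]
  · obtain ⟨m, rfl⟩ := Int.eq_ofNat_of_zero_le hnn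
    have hm : m < lead v w := by exact_mod_cast hk
    rw [eSeries_coeff_natCast, eSeries_coeff_natCast, eCoeff_eq_eFull' hζ, eCoeff_eq_eFull' hζ,
      AC.eFull_eq_zero_of_lt _ _ (lt_of_lt_of_le hm (lead_le_left v w)),
      AC.eFull_eq_zero_of_lt _ _ (lt_of_lt_of_le hm (lead_le_right v w)), sub_zero]

/-- the coefficient of `z^(lead v w)` in `e_v - e_w`. -/
theorem eSeries_sub_coeff_lead (ζ : R) (v w : Vec M) :
    (eSeries M ζ v - eSeries M ζ w).coeff (lead v w : ℤ) =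
      eCoeff M ζ v (lead v w) - eCoeff M ζ w (lead v w) := by
  rw [HahnSeries.coeff_sub, eSeries_coeff_natCast, eSeries_coeff_natCast]

/-- the coefficient of `z^(lead v w)` in `e_v - e_w` is nonzero. -/
theorem eSeries_sub_coeff_ne_zero {ζ : R} (hζ : IsPrimitiveRoot ζ M) {v w : Vec M} (hv : v ≠ 0)
    (hw : w ≠ 0) (hne : v ≠ w) (hne' : v ≠ -w) :
    (eSeries M ζ v - eSeries M ζ w).coeff (lead v w : ℤ) ≠ 0 := by
  rw [eSeries_sub_coeff_lead]
  exact sub_ne_zero.mpr (exists_eCoeff_ne hζ hv hw hne hne').2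

/-- **Distinctness**: `e_v - e_w ≠ 0` for `v, w ≠ 0`, `v ≠ ± w`. -/
theorem eSeries_sub_ne_zero {ζ : R} (hζ : IsPrimitiveRoot ζ M) {v w : Vec M} (hv : v ≠ 0)
    (hw : w ≠ 0) (hne : v ≠ w) (hne' : v ≠ -w) : eSeries M ζ v - eSeries M ζ w ≠ 0 := by
  intro h
  apply eSeries_sub_coeff_ne_zero hζ hv hw hne hne'
  rw [h, HahnSeries.coeff_zero]

theorem eSeries_ne {ζ : R} (hζ : IsPrimitiveRoot ζ M) {v w : Vec M} (hv : v ≠ 0)
    (hw : w ≠ 0) (hne : v ≠ w) (hne' : v ≠ -w) : eSeries M ζ v ≠ eSeries M ζ w :=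
  fun h => eSeries_sub_ne_zero hζ hv hw hne hne' (sub_eq_zero.mpr h)

/-- **L1**: `order (e_v - e_w) = min |a| |c|` for `v = (a, b)`, `w = (c, d)` nonzero, `v ≠ ± w`. -/
theorem order_eSeries_sub {ζ : R} (hζ : IsPrimitiveRoot ζ M) {v w : Vec M} (hv : v ≠ 0)
    (hw : w ≠ 0) (hne : v ≠ w) (hne' : v ≠ -w) :
    (eSeries M ζ v - eSeries M ζ w).order = (lead v w : ℤ) := by
  have h0 := eSeries_sub_ne_zero hζ hv hw hne hne'
  apply le_antisymm
  · exact HahnSeries.order_le_of_coeff_ne_zero (eSeries_sub_coeff_ne_zero hζ hv hw hne hne')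
  · by_contra hlt
    exact h0 (HahnSeries.coeff_order_eq_zero.mp
      (eSeries_sub_coeff_of_lt hζ.pow_eq_one v w (not_le.mp hlt)))

theorem order_eSeries_sub_nonneg {ζ : R} (hζ : IsPrimitiveRoot ζ M) {v w : Vec M} (hv : v ≠ 0)
    (hw : w ≠ 0) (hne : v ≠ w) (hne' : v ≠ -w) :
    0 ≤ (eSeries M ζ v - eSeries M ζ w).order := by
  rw [order_eSeries_sub hζ hv hw hne hne']
  exact Int.natCast_nonneg _

theorem two_mul_order_eSeries_sub_le {ζ : R} (hζ : IsPrimitiveRoot ζ M) {v w : Vec M}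
    (hv : v ≠ 0) (hw : w ≠ 0) (hne : v ≠ w) (hne' : v ≠ -w) :
    2 * (eSeries M ζ v - eSeries M ζ w).order ≤ (M : ℤ) := by
  rw [order_eSeries_sub hζ hv hw hne hne']
  exact_mod_cast two_mul_lead_le v w

/-- the leading coefficient of `e_v - e_w`. -/
theorem leadingCoeff_eSeries_sub {ζ : R} (hζ : IsPrimitiveRoot ζ M) {v w : Vec M} (hv : v ≠ 0)
    (hw : w ≠ 0) (hne : v ≠ w) (hne' : v ≠ -w) :
    (eSeries M ζ v - eSeries M ζ w).leadingCoeff =
      eCoeff M ζ v (lead v w) - eCoeff M ζ w (lead v w) := by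
  rw [HahnSeries.leadingCoeff_eq, order_eSeries_sub hζ hv hw hne hne', eSeries_sub_coeff_lead]

/-! ### L2: explicit leading coefficients -/

/-- the coefficient of `z^0` in `e_(0,b)`. -/
theorem eCoeff_zero_of_fst_eq_zero (ζ : R) (b : ZMod M) :
    eCoeff M ζ ((0 : ZMod M), b) 0 = ζ ^ b.val / (1 - ζ ^ b.val) ^ 2 := by
  rw [eCoeff, if_pos rfl, if_pos rfl]

/-- the coefficient of `z^0` in `e_(a,b)`, `a ≠ 0`. -/
theorem eCoeff_zero_of_fst_ne_zero (ζ : R) {v : Vec M} (hv : v.1 ≠ 0) :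
    eCoeff M ζ v 0 = 0 := by
  rw [eCoeff, if_pos rfl, if_neg hv]

/-- **L2 (i)**: the coefficient of `z^0` in `e_(0,b) - e_(0,c)`. -/
theorem coeff_zero_eSeries_sub_of_fst_eq_zero (ζ : R) (b c : ZMod M) :
    (eSeries M ζ ((0 : ZMod M), b) - eSeries M ζ ((0 : ZMod M), c)).coeff 0 =
      ζ ^ b.val / (1 - ζ ^ b.val) ^ 2 - ζ ^ c.val / (1 - ζ ^ c.val) ^ 2 := by
  rw [HahnSeries.coeff_sub, eSeries_coeff_zero, eSeries_coeff_zero, eCoeff_zero_of_fst_eq_zero,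
    eCoeff_zero_of_fst_eq_zero]

/-- **L2 (i)**, factored form:
`c₀(b) - c₀(c) = (ζ^b - ζ^c)(1 - ζ^(b+c)) / ((1 - ζ^b)² (1 - ζ^c)²)`. -/
theorem coeff_zero_eSeries_sub_eq {ζ : R} (hζ : IsPrimitiveRoot ζ M) {b c : ZMod M}
    (hb : b ≠ 0) (hc : c ≠ 0) :
    (eSeries M ζ ((0 : ZMod M), b) - eSeries M ζ ((0 : ZMod M), c)).coeff 0 =
      (ζ ^ b.val - ζ ^ c.val) * (1 - ζ ^ (b + c).val) /
        ((1 - ζ ^ b.val) ^ 2 * (1 - ζ ^ c.val) ^ 2) := by
  rw [coeff_zero_eSeries_sub_of_fst_eq_zero]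
  exact AC.c0_sub (AddChar.zmodChar M hζ.pow_eq_one) (zmodChar_faithful hζ) hb hc

/-- `1 - ζ^t ≠ 0` for `t ≠ 0`. -/
theorem one_sub_pow_val_ne_zero {ζ : R} (hζ : IsPrimitiveRoot ζ M) {t : ZMod M} (ht : t ≠ 0) :
    1 - ζ ^ t.val ≠ 0 :=
  AC.one_sub_addChar_ne_zero (χ := AddChar.zmodChar M hζ.pow_eq_one) (zmodChar_faithful hζ) ht

/-- `ζ^s ≠ ζ^t` for `s ≠ t`. -/
theorem pow_val_ne_pow_val {ζ : R} (hζ : IsPrimitiveRoot ζ M) {s t : ZMod M} (hst : s ≠ t) :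
    ζ ^ s.val ≠ ζ ^ t.val :=
  fun h => hst (AC.addChar_inj (χ := AddChar.zmodChar M hζ.pow_eq_one) (zmodChar_faithful hζ) h)

/-- the coefficient of `z^1` in `e_(1,b)`, `3 ≤ M`. -/
theorem eCoeff_one_of_fst_eq_one {ζ : R} (hζ : ζ ^ M = 1) (hM : 3 ≤ M) (b : ZMod M) :
    eCoeff M ζ ((1 : ZMod M), b) 1 = ζ ^ b.val := by
  have : Fact (1 < M) := ⟨by omega⟩
  have h1 : (1 : ZMod M) ≠ 0 := one_ne_zero
  have hval : (1 : ZMod M).val = 1 := ZMod.val_one M
  have habs : AC.absv (1 : ZMod M) = 1 := by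
    rw [AC.absv, hval]
    omega
  have hc1 : ((1 : ℕ) : ZMod M) = 1 := Nat.cast_one
  have hne : ¬ ((1 : ℕ) : ZMod M) = -1 := by
    rw [hc1]
    intro h
    have h2 := congrArg ZMod.val h
    rw [ZMod.neg_val, if_neg h1, hval] at h2
    omega
  have key := AC.eCoeff_absv (AddChar.zmodChar M hζ) h1 b
  rw [habs, if_pos hc1, if_neg hne, add_zero] at key
  rw [eCoeff_eq_eFull hζ, AC.eFull_of_pos _ _ _ Nat.one_pos, key, AddChar.zmodChar_apply]

/-- **L2 (ii)**: the coefficient of `z^1` in `e_(1,b) - e_(1,c)` is `ζ^b - ζ^c` (`3 ≤ M`). -/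
theorem coeff_one_eSeries_sub_of_fst_eq_one {ζ : R} (hζ : ζ ^ M = 1) (hM : 3 ≤ M)
    (b c : ZMod M) :
    (eSeries M ζ ((1 : ZMod M), b) - eSeries M ζ ((1 : ZMod M), c)).coeff 1 =
      ζ ^ b.val - ζ ^ c.val := by
  rw [HahnSeries.coeff_sub, eSeries_coeff_one, eSeries_coeff_one,
    eCoeff_one_of_fst_eq_one hζ hM, eCoeff_one_of_fst_eq_one hζ hM]

/-! ### The ratios -/

theorem ratio_ne_zero {ζ : R} (hζ : IsPrimitiveRoot ζ M) {v w v' w' : Vec M}
    (hv : v ≠ 0) (hw : w ≠ 0) (hne : v ≠ w) (hne' : v ≠ -w)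
    (hv' : v' ≠ 0) (hw' : w' ≠ 0) (hn : v' ≠ w') (hn' : v' ≠ -w') :
    ratio M ζ v w v' w' ≠ 0 :=
  div_ne_zero (eSeries_sub_ne_zero hζ hv hw hne hne') (eSeries_sub_ne_zero hζ hv' hw' hn hn')

/-- the order of a quotient of nonzero Laurent series. -/
theorem order_div_of_ne_zero {x y : LaurentSeries R} (hx : x ≠ 0) (hy : y ≠ 0) :
    (x / y).order = x.order - y.order := by
  have h := HahnSeries.order_mul (div_ne_zero hx hy) hy
  rw [div_mul_cancel₀ x hy] at h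
  rw [h, add_sub_cancel_right]

/-- the order of `ratio v w v' w'` is `min |a| |c| - min |a'| |c'|`. -/
theorem order_ratio {ζ : R} (hζ : IsPrimitiveRoot ζ M) {v w v' w' : Vec M}
    (hv : v ≠ 0) (hw : w ≠ 0) (hne : v ≠ w) (hne' : v ≠ -w)
    (hv' : v' ≠ 0) (hw' : w' ≠ 0) (hn : v' ≠ w') (hn' : v' ≠ -w') :
    (ratio M ζ v w v' w').order = (lead v w : ℤ) - (lead v' w' : ℤ) := by
  rw [ratio, order_div_of_ne_zero (eSeries_sub_ne_zero hζ hv hw hne hne')
    (eSeries_sub_ne_zero hζ hv' hw' hn hn'), order_eSeries_sub hζ hv hw hne hne',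
    order_eSeries_sub hζ hv' hw' hn hn']

/-- the leading coefficient of `ratio v w v' w'`. -/
theorem leadingCoeff_ratio {ζ : R} (hζ : IsPrimitiveRoot ζ M) {v w v' w' : Vec M}
    (hv : v ≠ 0) (hw : w ≠ 0) (hne : v ≠ w) (hne' : v ≠ -w)
    (hv' : v' ≠ 0) (hw' : w' ≠ 0) (hn : v' ≠ w') (hn' : v' ≠ -w') :
    (ratio M ζ v w v' w').leadingCoeff =
      (eCoeff M ζ v (lead v w) - eCoeff M ζ w (lead v w)) /
        (eCoeff M ζ v' (lead v' w') - eCoeff M ζ w' (lead v' w')) := by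
  have hy := eSeries_sub_ne_zero hζ hv' hw' hn hn'
  have h := HahnSeries.leadingCoeff_mul (ratio M ζ v w v' w') (eSeries M ζ v' - eSeries M ζ w')
  rw [ratio, div_mul_cancel₀ _ hy, leadingCoeff_eSeries_sub hζ hv hw hne hne',
    leadingCoeff_eSeries_sub hζ hv' hw' hn hn'] at h
  have hd : eCoeff M ζ v' (lead v' w') - eCoeff M ζ w' (lead v' w') ≠ 0 :=
    sub_ne_zero.mpr (exists_eCoeff_ne hζ hv' hw' hn hn').2
  rw [ratio, h, mul_div_cancel_right₀ _ hd]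

end Fermat.Agent.S48x.Model.Leading
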