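/-
P-S48, block G1, MODEL: full-level rigidity (RIG) of the division-value ratios.

If a matrix `g` over `ℤ/M` with a two-sided inverse satisfies
`ratio (v g) (w g) (v' g) (w' g) = ratio v w v' w'` for all nonzero `v, w, v', w'`, then `g = ±1`
(`M ≥ 5`, `ζ` a primitive `M`-th root of unity in a field).

The input about the series `e_v` is packaged in `OrderFacts` (to be provided by Model/Leading):
for `v, w ≠ 0`, `v ≠ ±w`: `e_v - e_w ≠ 0` and its order in `z` is `min |v.1| |w.1|`, where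
`|a| = AC.absv a = min a.val (M - a.val)`.
Everything else (the coefficients of `e_(1,b)` at `z⁰, z¹`, `e_(-v) = e_v`) is proved from the
definitions resp. taken from Model/Identities.
-/
import Mathlib
import Fermat.Agent.S48x.Model.Series
import Fermat.Agent.S48x.Model.ELead
import Fermat.Agent.S48x.Model.Identities

set_option autoImplicit false
set_option linter.unusedSectionVars false
set_option linter.unusedVariables false

noncomputable section

namespace Fermat.Agent.S48x.Model.Rigidity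

open Fermat.Agent.S48x.Model
open Fermat.Agent.S48x.Model.AC (absv absv_zero)

variable {R : Type*} [Field R] {M : ℕ} [NeZero M]

/-- Row vector times matrix on `(ℤ/M)²`: `(a, b) g = (a g₀₀ + b g₁₀, a g₀₁ + b g₁₁)`. -/
def vecAct (g : Matrix (Fin 2) (Fin 2) (ZMod M)) (v : Vec M) : Vec M :=
  (v.1 * g 0 0 + v.2 * g 1 0, v.1 * g 0 1 + v.2 * g 1 1)

@[simp] theorem vecAct_fst (g : Matrix (Fin 2) (Fin 2) (ZMod M)) (v : Vec M) :
    (vecAct g v).1 = v.1 * g 0 0 + v.2 * g 1 0 := rfl

@[simp] theorem vecAct_snd (g : Matrix (Fin 2) (Fin 2) (ZMod M)) (v : Vec M) :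
    (vecAct g v).2 = v.1 * g 0 1 + v.2 * g 1 1 := rfl

theorem vecAct_one (v : Vec M) : vecAct (1 : Matrix (Fin 2) (Fin 2) (ZMod M)) v = v := by
  ext <;> simp

theorem vecAct_mul (g h : Matrix (Fin 2) (Fin 2) (ZMod M)) (v : Vec M) :
    vecAct (g * h) v = vecAct h (vecAct g v) := by
  ext <;> simp [Matrix.mul_apply, Fin.sum_univ_two] <;> ring

theorem vecAct_neg (g : Matrix (Fin 2) (Fin 2) (ZMod M)) (v : Vec M) :
    vecAct g (-v) = -vecAct g v := by
  ext <;> simp <;> ring

theorem vecAct_neg_left (g : Matrix (Fin 2) (Fin 2) (ZMod M)) (v : Vec M) :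
    vecAct (-g) v = -vecAct g v := by
  ext <;> simp <;> ring

theorem vecAct_zero (g : Matrix (Fin 2) (Fin 2) (ZMod M)) : vecAct g (0 : Vec M) = 0 := by
  ext <;> simp

/-- `v, w ≠ 0` and `v ≠ ±w`. -/
def Good (v w : Vec M) : Prop := v ≠ 0 ∧ w ≠ 0 ∧ v ≠ w ∧ v ≠ -w

/-- The facts about the series `e_v` used by the rigidity argument. -/
structure OrderFacts (M : ℕ) [NeZero M] (ζ : R) : Prop where
  ne_zero : ∀ v w : Vec M, Good v w → eSeries M ζ v - eSeries M ζ w ≠ 0
  order : ∀ v w : Vec M, Good v w →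
    (eSeries M ζ v - eSeries M ζ w).order = ((min (absv v.1) (absv w.1) : ℕ) : ℤ)


/-! ### Elementary facts on `ZMod M` -/

theorem natCast_ne_zero_of_lt {n : ℕ} (h0 : 0 < n) (hn : n < M) : ((n : ℕ) : ZMod M) ≠ 0 := by
  intro h
  rw [ZMod.natCast_eq_zero_iff] at h
  exact absurd (Nat.le_of_dvd h0 h) (not_le.mpr hn)

theorem one_ne_zero' (hM : 5 ≤ M) : (1 : ZMod M) ≠ 0 := by
  have := natCast_ne_zero_of_lt (M := M) (n := 1) (by norm_num) (by omega)
  simpa using this

theorem two_ne_zero' (hM : 5 ≤ M) : (2 : ZMod M) ≠ 0 := by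
  have := natCast_ne_zero_of_lt (M := M) (n := 2) (by norm_num) (by omega)
  simpa using this

theorem three_ne_zero' (hM : 5 ≤ M) : (3 : ZMod M) ≠ 0 := by
  have := natCast_ne_zero_of_lt (M := M) (n := 3) (by norm_num) (by omega)
  simpa using this

theorem four_ne_zero' (hM : 5 ≤ M) : (4 : ZMod M) ≠ 0 := by
  have := natCast_ne_zero_of_lt (M := M) (n := 4) (by norm_num) (by omega)
  simpa using this

theorem absv_eq_zero_iff {a : ZMod M} : absv a = 0 ↔ a = 0 := AC.absv_eq_zero

theorem val_one_of_le (hM : 5 ≤ M) : (1 : ZMod M).val = 1 := by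
  rw [ZMod.val_one_eq_one_mod]
  exact Nat.mod_eq_of_lt (by omega)

theorem absv_one (hM : 5 ≤ M) : absv (1 : ZMod M) = 1 := by
  unfold AC.absv
  rw [val_one_of_le hM]
  omega

theorem eq_one_or_neg_one_of_absv (hM : 5 ≤ M) {a : ZMod M} (h : absv a = 1) :
    a = 1 ∨ a = -1 := by
  have hlt := ZMod.val_lt a
  unfold AC.absv at h
  have h' : a.val = 1 ∨ a.val = M - 1 := by omega
  rcases h' with h' | h'
  · left
    rw [← ZMod.natCast_zmod_val a, h']
    simp
  · right
    rw [← ZMod.natCast_zmod_val a, h', Nat.cast_sub (by omega)]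
    simp


/-! ### Powers of a primitive root indexed by `ZMod M` -/

theorem pow_val_add {ζ : R} (hζ : ζ ^ M = 1) (a b : ZMod M) :
    ζ ^ (a + b).val = ζ ^ a.val * ζ ^ b.val := by
  rw [ZMod.val_add, ← pow_eq_pow_mod _ hζ, pow_add]

theorem pow_val_injective {ζ : R} (hζ : IsPrimitiveRoot ζ M) {a b : ZMod M}
    (h : ζ ^ a.val = ζ ^ b.val) : a = b :=
  ZMod.val_injective M (hζ.pow_inj (ZMod.val_lt a) (ZMod.val_lt b) h)

theorem pow_val_eq_one_iff {ζ : R} (hζ : IsPrimitiveRoot ζ M) {a : ZMod M} :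
    ζ ^ a.val = 1 ↔ a = 0 := by
  constructor
  · intro h
    apply pow_val_injective hζ
    rw [h, ZMod.val_zero, pow_zero]
  · rintro rfl
    rw [ZMod.val_zero, pow_zero]

/-! ### The first two coefficients of `e_(1,b)` -/

theorem coeff_zero_eSeries_one (hM : 5 ≤ M) (ζ : R) (b : ZMod M) :
    (eSeries M ζ ((1, b) : Vec M)).coeff 0 = 0 := by
  have h : (eSeries M ζ ((1, b) : Vec M)).coeff ((0 : ℕ) : ℤ) = 0 := by
    rw [eSeries, HahnSeries.ofPowerSeries_apply_coeff, ePow, PowerSeries.coeff_mk, eCoeff]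
    simp [one_ne_zero' hM]
  simpa using h

theorem coeff_one_eSeries_one (hM : 5 ≤ M) (ζ : R) (b : ZMod M) :
    (eSeries M ζ ((1, b) : Vec M)).coeff 1 = ζ ^ b.val := by
  have h1 : (1 : ZMod M) ≠ -1 := by
    intro h
    have : (2 : ZMod M) = 0 := by
      have h2 : (1 : ZMod M) + 1 = 0 := by nth_rewrite 2 [h]; ring
      rw [← h2]; norm_num
    exact two_ne_zero' hM this
  have h : (eSeries M ζ ((1, b) : Vec M)).coeff ((1 : ℕ) : ℤ) = ζ ^ b.val := by
    rw [eSeries, HahnSeries.ofPowerSeries_apply_coeff, ePow, PowerSeries.coeff_mk, eCoeff]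
    simp [h1]
  simpa using h


/-! ### The action on good pairs -/

section Act

variable {g h : Matrix (Fin 2) (Fin 2) (ZMod M)}

theorem vecAct_cancel (hgh : g * h = 1) (v : Vec M) : vecAct h (vecAct g v) = v := by
  rw [← vecAct_mul, hgh, vecAct_one]

theorem vecAct_injective (hgh : g * h = 1) : Function.Injective (vecAct (M := M) g) := by
  intro a b hab
  have := congrArg (vecAct h) hab
  rwa [vecAct_cancel hgh, vecAct_cancel hgh] at this

theorem good_vecAct (hgh : g * h = 1) {v w : Vec M} (hvw : Good v w) :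
    Good (vecAct g v) (vecAct g w) := by
  obtain ⟨h1, h2, h3, h4⟩ := hvw
  refine ⟨fun h0 => h1 ?_, fun h0 => h2 ?_, fun h0 => h3 ?_, fun h0 => h4 ?_⟩
  · exact vecAct_injective hgh (h0.trans (vecAct_zero g).symm)
  · exact vecAct_injective hgh (h0.trans (vecAct_zero g).symm)
  · exact vecAct_injective hgh h0
  · exact vecAct_injective hgh (h0.trans (vecAct_neg g w).symm)

end Act

/-- The reference pair `((0,1), (0,2))` is good for `M ≥ 5`. -/
theorem good_ref (hM : 5 ≤ M) : Good ((0, 1) : Vec M) ((0, 2) : Vec M) := by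
  refine ⟨?_, ?_, ?_, ?_⟩
  · intro h
    exact one_ne_zero' hM (congrArg Prod.snd h)
  · intro h
    exact two_ne_zero' hM (congrArg Prod.snd h)
  · intro h
    have h2 : (1 : ZMod M) = 2 := congrArg Prod.snd h
    apply one_ne_zero' hM
    have : (2 : ZMod M) - 1 = 1 := by ring
    rw [← this, ← h2, sub_self]
  · intro h
    have h2 : (1 : ZMod M) = -2 := congrArg Prod.snd h
    apply three_ne_zero' hM
    have : (3 : ZMod M) = 1 + 2 := by ring
    rw [this, h2]; ring

/-- The pair `((0,1), (0,3))` is good for `M ≥ 5`. -/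
theorem good_ref3 (hM : 5 ≤ M) : Good ((0, 1) : Vec M) ((0, 3) : Vec M) := by
  refine ⟨?_, ?_, ?_, ?_⟩
  · intro h
    exact one_ne_zero' hM (congrArg Prod.snd h)
  · intro h
    exact three_ne_zero' hM (congrArg Prod.snd h)
  · intro h
    have h2 : (1 : ZMod M) = 3 := congrArg Prod.snd h
    apply two_ne_zero' hM
    have : (2 : ZMod M) = 3 - 1 := by ring
    rw [this, ← h2, sub_self]
  · intro h
    have h2 : (1 : ZMod M) = -3 := congrArg Prod.snd h
    apply four_ne_zero' hM
    have : (4 : ZMod M) = 1 + 3 := by ring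
    rw [this, h2]; ring

/-- The pair `((1,b), (1,c))`, `b ≠ c`, is good for `M ≥ 5`. -/
theorem good_one (hM : 5 ≤ M) {b c : ZMod M} (hbc : b ≠ c) :
    Good ((1, b) : Vec M) ((1, c) : Vec M) := by
  refine ⟨?_, ?_, ?_, ?_⟩
  · intro h
    exact one_ne_zero' hM (congrArg Prod.fst h)
  · intro h
    exact one_ne_zero' hM (congrArg Prod.fst h)
  · intro h
    exact hbc (congrArg Prod.snd h)
  · intro h
    have h2 : (1 : ZMod M) = -1 := congrArg Prod.fst h
    apply two_ne_zero' hM
    have : (2 : ZMod M) = 1 + 1 := by ring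
    rw [this]; nth_rewrite 2 [h2]; ring

/-! ### The cross-multiplied identity, orders and leading coefficients -/

section Main

variable {ζ : R} {g h : Matrix (Fin 2) (Fin 2) (ZMod M)}

/-- The hypothesis of (RIG): `g` fixes all the ratios. -/
def FixesRatios (ζ : R) (g : Matrix (Fin 2) (Fin 2) (ZMod M)) : Prop :=
  ∀ v w v' w' : Vec M, v ≠ 0 → w ≠ 0 → v' ≠ 0 → w' ≠ 0 →
    ratio M ζ (vecAct g v) (vecAct g w) (vecAct g v') (vecAct g w') = ratio M ζ v w v' w'

theorem cross (F : OrderFacts M ζ) (hgh : g * h = 1) (H : FixesRatios ζ g) {v w v' w' : Vec M}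
    (hvw : Good v w) (hvw' : Good v' w') :
    (eSeries M ζ (vecAct g v) - eSeries M ζ (vecAct g w)) * (eSeries M ζ v' - eSeries M ζ w') =
      (eSeries M ζ v - eSeries M ζ w) *
        (eSeries M ζ (vecAct g v') - eSeries M ζ (vecAct g w')) := by
  have := H v w v' w' hvw.1 hvw.2.1 hvw'.1 hvw'.2.1
  unfold ratio at this
  rwa [div_eq_div_iff (F.ne_zero _ _ (good_vecAct hgh hvw')) (F.ne_zero _ _ hvw')] at this

theorem order_add (F : OrderFacts M ζ) (hgh : g * h = 1) (H : FixesRatios ζ g) {v w v' w' : Vec M}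
    (hvw : Good v w) (hvw' : Good v' w') :
    min (absv (vecAct g v).1) (absv (vecAct g w).1) + min (absv v'.1) (absv w'.1) =
      min (absv v.1) (absv w.1) + min (absv (vecAct g v').1) (absv (vecAct g w').1) := by
  have hc := congrArg HahnSeries.order (cross F hgh H hvw hvw')
  rw [HahnSeries.order_mul (F.ne_zero _ _ (good_vecAct hgh hvw)) (F.ne_zero _ _ hvw'),
    HahnSeries.order_mul (F.ne_zero _ _ hvw) (F.ne_zero _ _ (good_vecAct hgh hvw')),
    F.order _ _ (good_vecAct hgh hvw), F.order _ _ hvw', F.order _ _ hvw,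
    F.order _ _ (good_vecAct hgh hvw')] at hc
  exact_mod_cast hc

theorem order_eq (F : OrderFacts M ζ) (hM : 5 ≤ M) (hgh : g * h = 1) (hhg : h * g = 1)
    (H : FixesRatios ζ g) {v w : Vec M} (hvw : Good v w) :
    min (absv (vecAct g v).1) (absv (vecAct g w).1) = min (absv v.1) (absv w.1) := by
  have h1 := order_add F hgh H hvw (good_ref hM)
  have h2 := order_add F hgh H (good_vecAct hhg (good_ref hM)) (good_ref hM)
  rw [vecAct_cancel hhg, vecAct_cancel hhg] at h2
  simp only [absv_zero, min_self, add_zero] at h1 h2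
  omega

theorem lead_mul (F : OrderFacts M ζ) (hgh : g * h = 1) (H : FixesRatios ζ g) {v w v' w' : Vec M}
    (hvw : Good v w) (hvw' : Good v' w') :
    (eSeries M ζ (vecAct g v) - eSeries M ζ (vecAct g w)).leadingCoeff *
        (eSeries M ζ v' - eSeries M ζ w').leadingCoeff =
      (eSeries M ζ v - eSeries M ζ w).leadingCoeff *
        (eSeries M ζ (vecAct g v') - eSeries M ζ (vecAct g w')).leadingCoeff := by
  have hc := congrArg HahnSeries.leadingCoeff (cross F hgh H hvw hvw')
  rwa [HahnSeries.leadingCoeff_mul, HahnSeries.leadingCoeff_mul] at hc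

/-- The leading coefficient of `e_(1,b) - e_(1,c)`, `b ≠ c`. -/
theorem lead_one (F : OrderFacts M ζ) (hM : 5 ≤ M) {b c : ZMod M} (hbc : b ≠ c) :
    (eSeries M ζ ((1, b) : Vec M) - eSeries M ζ ((1, c) : Vec M)).leadingCoeff =
      ζ ^ b.val - ζ ^ c.val := by
  rw [HahnSeries.leadingCoeff_eq, F.order _ _ (good_one hM hbc)]
  simp only [absv_one hM, min_self, Nat.cast_one, HahnSeries.coeff_sub]
  rw [coeff_one_eSeries_one hM, coeff_one_eSeries_one hM]


theorem g10_eq_zero (F : OrderFacts M ζ) (hM : 5 ≤ M) (hgh : g * h = 1) (hhg : h * g = 1)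
    (H : FixesRatios ζ g) : g 1 0 = 0 := by
  have h2 := order_eq F hM hgh hhg H (good_ref hM)
  have h3 := order_eq F hM hgh hhg H (good_ref3 hM)
  simp only [vecAct_fst, zero_mul, zero_add, absv_zero, min_self] at h2 h3
  by_contra hne
  have e2 : (2 : ZMod M) * g 1 0 = 0 := by
    rcases Nat.min_eq_zero_iff.mp h2 with h | h
    · rw [one_mul] at h; exact absurd (absv_eq_zero_iff.mp h) hne
    · exact absv_eq_zero_iff.mp h
  have e3 : (3 : ZMod M) * g 1 0 = 0 := by
    rcases Nat.min_eq_zero_iff.mp h3 with h | h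
    · rw [one_mul] at h; exact absurd (absv_eq_zero_iff.mp h) hne
    · exact absv_eq_zero_iff.mp h
  apply hne
  have : g 1 0 = 3 * g 1 0 - 2 * g 1 0 := by ring
  rw [this, e2, e3, sub_zero]

theorem g00_eq (F : OrderFacts M ζ) (hM : 5 ≤ M) (hgh : g * h = 1) (hhg : h * g = 1)
    (H : FixesRatios ζ g) : g 0 0 = 1 ∨ g 0 0 = -1 := by
  have h10 := g10_eq_zero F hM hgh hhg H
  have h1 := order_eq F hM hgh hhg H (good_one hM (b := 0) (c := 1) (one_ne_zero' hM).symm)
  simp only [vecAct_fst, h10, mul_zero, add_zero, one_mul, min_self, absv_one hM] at h1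
  exact eq_one_or_neg_one_of_absv hM h1

/-- Rigidity for `g` with first column `(1, 0)ᵀ`. -/
theorem eq_one_of_fixesRatios_aux (F : OrderFacts M ζ) (hζ : IsPrimitiveRoot ζ M) (hM : 5 ≤ M)
    (hgh : g * h = 1) (hhg : h * g = 1) (H : FixesRatios ζ g) (h00 : g 0 0 = 1)
    (h10 : g 1 0 = 0) : g = 1 := by
  have hζM : ζ ^ M = 1 := hζ.pow_eq_one
  have hζ1 : ζ - 1 ≠ 0 := by
    intro h0
    have : ζ = 1 := sub_eq_zero.mp h0
    have h1 : M = 1 := by
      have := hζ.eq_orderOf
      rw [‹ζ = 1›, orderOf_one] at this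
      exact this
    omega
  obtain ⟨t, ht⟩ : ∃ t, g 0 1 = t := ⟨_, rfl⟩
  obtain ⟨d, hd⟩ : ∃ d, g 1 1 = d := ⟨_, rfl⟩
  -- images
  have act1 : ∀ b : ZMod M, vecAct g ((1, b) : Vec M) = ((1, t + b * d) : Vec M) := by
    intro b
    ext <;> simp [h00, h10, ht, hd]
  have act0 : ∀ b : ZMod M, vecAct g ((0, b) : Vec M) = ((0, b * d) : Vec M) := by
    intro b
    ext <;> simp [h10, hd]
  have hinj := vecAct_injective (M := M) hgh
  -- leading coefficients of the reference pair and its image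
  set L0 := (eSeries M ζ ((0, 1) : Vec M) - eSeries M ζ ((0, 2) : Vec M)).leadingCoeff with hL0
  set L0g := (eSeries M ζ (vecAct g ((0, 1) : Vec M)) -
    eSeries M ζ (vecAct g ((0, 2) : Vec M))).leadingCoeff with hL0g
  have hL0ne : L0 ≠ 0 := HahnSeries.leadingCoeff_ne_zero.mpr (F.ne_zero _ _ (good_ref hM))
  have hL0gne : L0g ≠ 0 :=
    HahnSeries.leadingCoeff_ne_zero.mpr (F.ne_zero _ _ (good_vecAct hgh (good_ref hM)))
  -- the key relation for a pair (1,b), (1,c)
  have key : ∀ b c : ZMod M, b ≠ c →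
      (ζ ^ (t + b * d).val - ζ ^ (t + c * d).val) * L0 = (ζ ^ b.val - ζ ^ c.val) * L0g := by
    intro b c hbc
    have hne : t + b * d ≠ t + c * d := by
      intro he
      apply hbc
      have : vecAct g ((1, b) : Vec M) = vecAct g ((1, c) : Vec M) := by
        rw [act1, act1, he]
      exact congrArg Prod.snd (hinj this)
    have := lead_mul F hgh H (good_one hM hbc) (good_ref hM)
    rw [act1, act1, lead_one F hM hne, lead_one F hM hbc] at this
    exact this
  set x := ζ ^ d.val with hx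
  set τ := ζ ^ t.val with hτ
  have eq1 : (τ * x - τ) * L0 = (ζ - 1) * L0g := by
    have := key 1 0 (one_ne_zero' hM)
    rw [one_mul, zero_mul, add_zero, pow_val_add hζM, ZMod.val_zero, pow_zero,
      val_one_of_le hM, pow_one] at this
    exact this
  have h21 : (2 : ZMod M) = 1 + 1 := by ring
  have eq2 : (τ * (x * x) - τ) * L0 = (ζ * ζ - 1) * L0g := by
    have := key (1 + 1) 0 (by rw [← h21]; exact two_ne_zero' hM)
    rw [add_mul, one_mul, zero_mul, add_zero, pow_val_add hζM, pow_val_add hζM,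
      pow_val_add hζM, ZMod.val_zero, pow_zero, val_one_of_le hM, pow_one] at this
    exact this
  have hxζ : x = ζ := by
    have h0 : (ζ - 1) * L0g * (ζ - x) = 0 := by
      linear_combination (x + 1) * eq1 - eq2
    rcases mul_eq_zero.mp h0 with h0 | h0
    · exact absurd h0 (mul_ne_zero hζ1 hL0gne)
    · exact (sub_eq_zero.mp h0).symm
  have hd1 : d = 1 := by
    apply pow_val_injective hζ
    rw [val_one_of_le hM, pow_one]
    exact hxζ
  have hLeq : L0g = L0 := by
    rw [hL0g, act0, act0, hd1, mul_one, mul_one]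
  have hτ1 : τ = 1 := by
    rw [hLeq, hxζ] at eq1
    have h0 : (τ - 1) * ((ζ - 1) * L0) = 0 := by
      linear_combination eq1
    rcases mul_eq_zero.mp h0 with h0 | h0
    · exact sub_eq_zero.mp h0
    · exact absurd h0 (mul_ne_zero hζ1 hL0ne)
  have ht0 : t = 0 := (pow_val_eq_one_iff hζ).mp hτ1
  ext i j
  fin_cases i <;> fin_cases j
  · simpa using h00
  · simpa [ht] using ht0
  · simpa using h10
  · simpa [hd] using hd1

theorem fixesRatios_neg (hζM : ζ ^ M = 1) (H : FixesRatios ζ g) : FixesRatios ζ (-g) := by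
  intro v w v' w' hv hw hv' hw'
  rw [vecAct_neg_left, vecAct_neg_left, vecAct_neg_left, vecAct_neg_left]
  have := H v w v' w' hv hw hv' hw'
  unfold ratio at this ⊢
  rw [Identities.eSeries_neg hζM, Identities.eSeries_neg hζM, Identities.eSeries_neg hζM,
    Identities.eSeries_neg hζM]
  exact this

/-- **(RIG)**, hypothesis-style on the order facts: a matrix with two-sided inverse which fixes all
the ratios `ratio v w v' w'` (`v, w, v', w' ≠ 0`) is `±1`. -/
theorem eq_one_or_neg_one_of_fixesRatios (F : OrderFacts M ζ) (hζ : IsPrimitiveRoot ζ M)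
    (hM : 5 ≤ M) (hgh : g * h = 1) (hhg : h * g = 1) (H : FixesRatios ζ g) :
    g = 1 ∨ g = -1 := by
  have h10 := g10_eq_zero F hM hgh hhg H
  rcases g00_eq F hM hgh hhg H with h00 | h00
  · left
    exact eq_one_of_fixesRatios_aux F hζ hM hgh hhg H h00 h10
  · right
    have hgh' : (-g) * (-h) = 1 := by rw [neg_mul_neg, hgh]
    have hhg' : (-h) * (-g) = 1 := by rw [neg_mul_neg, hhg]
    have := eq_one_of_fixesRatios_aux F hζ hM hgh' hhg' (fixesRatios_neg hζ.pow_eq_one H)
      (by simp [h00]) (by simp [h10])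
    rw [← this, neg_neg]


/-- (RIG) for `GL₂(ℤ/M)`. -/
theorem GL_eq_one_or_neg_one_of_fixesRatios (F : OrderFacts M ζ) (hζ : IsPrimitiveRoot ζ M)
    (hM : 5 ≤ M) (g : GL (Fin 2) (ZMod M))
    (H : FixesRatios ζ (g : Matrix (Fin 2) (Fin 2) (ZMod M))) : g = 1 ∨ g = -1 := by
  have hgh : (g : Matrix (Fin 2) (Fin 2) (ZMod M)) * ((g⁻¹ : GL (Fin 2) (ZMod M)) :
      Matrix (Fin 2) (Fin 2) (ZMod M)) = 1 := by
    rw [← Units.val_mul, mul_inv_cancel, Units.val_one]
  have hhg : ((g⁻¹ : GL (Fin 2) (ZMod M)) : Matrix (Fin 2) (Fin 2) (ZMod M)) *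
      (g : Matrix (Fin 2) (Fin 2) (ZMod M)) = 1 := by
    rw [← Units.val_mul, inv_mul_cancel, Units.val_one]
  rcases eq_one_or_neg_one_of_fixesRatios F hζ hM hgh hhg H with h1 | h1
  · left
    exact Units.ext h1
  · right
    exact Units.ext (by rw [h1]; simp)

/-- (RIG) for `SL₂(ℤ/M)`. -/
theorem SL_eq_one_or_neg_one_of_fixesRatios (F : OrderFacts M ζ) (hζ : IsPrimitiveRoot ζ M)
    (hM : 5 ≤ M) (g : Matrix.SpecialLinearGroup (Fin 2) (ZMod M))
    (H : FixesRatios ζ (g : Matrix (Fin 2) (Fin 2) (ZMod M))) : g = 1 ∨ g = -1 := by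
  have hgh : (g : Matrix (Fin 2) (Fin 2) (ZMod M)) *
      ((g⁻¹ : Matrix.SpecialLinearGroup (Fin 2) (ZMod M)) :
        Matrix (Fin 2) (Fin 2) (ZMod M)) = 1 := by
    rw [← Matrix.SpecialLinearGroup.coe_mul, mul_inv_cancel, Matrix.SpecialLinearGroup.coe_one]
  have hhg : ((g⁻¹ : Matrix.SpecialLinearGroup (Fin 2) (ZMod M)) :
      Matrix (Fin 2) (Fin 2) (ZMod M)) * (g : Matrix (Fin 2) (Fin 2) (ZMod M)) = 1 := by
    rw [← Matrix.SpecialLinearGroup.coe_mul, inv_mul_cancel, Matrix.SpecialLinearGroup.coe_one]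
  rcases eq_one_or_neg_one_of_fixesRatios F hζ hM hgh hhg H with h1 | h1
  · left
    exact Subtype.ext h1
  · right
    exact Subtype.ext (by rw [h1]; simp)

end Main

end Fermat.Agent.S48x.Model.Rigidity
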