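/-
P-S48, block G1, MODEL: full-level rigidity (RIG), unconditional form.

`Model/Rigidity.lean` proves (RIG) from `OrderFacts`; `Model/Leading.lean` (helper67) proves the
order facts.  Here they are combined: for `M ≥ 5`, `ζ` a primitive `M`-th root of unity in a
field, a matrix over `ℤ/M` with two-sided inverse (an element of `GL₂(ℤ/M)`, of `SL₂(ℤ/M)`) which
fixes all the ratios `ratio v w v' w'`, `v, w, v', w' ≠ 0`, is `±1`.
-/
import Mathlib
import Fermat.Agent.S48x.Model.Rigidity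
import Fermat.Agent.S48x.Model.Leading

set_option autoImplicit false
set_option linter.unusedSectionVars false

noncomputable section

namespace Fermat.Agent.S48x.Model.Rigidity

open Fermat.Agent.S48x.Model

variable {R : Type*} [Field R] {M : ℕ} [NeZero M] {ζ : R}

/-- The order facts hold for a primitive `M`-th root of unity (helper67's `Model/Leading`). -/
theorem orderFacts (hζ : IsPrimitiveRoot ζ M) : OrderFacts M ζ where
  ne_zero _ _ h := Leading.eSeries_sub_ne_zero hζ h.1 h.2.1 h.2.2.1 h.2.2.2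
  order _ _ h := Leading.order_eSeries_sub hζ h.1 h.2.1 h.2.2.1 h.2.2.2

/-- **(RIG)** for matrices with a two-sided inverse. -/
theorem eq_one_or_neg_one_of_fixesRatios' (hζ : IsPrimitiveRoot ζ M) (hM : 5 ≤ M)
    {g h : Matrix (Fin 2) (Fin 2) (ZMod M)} (hgh : g * h = 1) (hhg : h * g = 1)
    (H : FixesRatios ζ g) : g = 1 ∨ g = -1 :=
  eq_one_or_neg_one_of_fixesRatios (orderFacts hζ) hζ hM hgh hhg H

/-- **(RIG)** for `GL₂(ℤ/M)`. -/
theorem GL_eq_one_or_neg_one_of_fixesRatios' (hζ : IsPrimitiveRoot ζ M) (hM : 5 ≤ M)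
    (g : GL (Fin 2) (ZMod M)) (H : FixesRatios ζ (g : Matrix (Fin 2) (Fin 2) (ZMod M))) :
    g = 1 ∨ g = -1 :=
  GL_eq_one_or_neg_one_of_fixesRatios (orderFacts hζ) hζ hM g H

/-- **(RIG)** for `SL₂(ℤ/M)`: the action of `SL₂(ℤ/M)/±1` on the ratios is faithful. -/
theorem SL_eq_one_or_neg_one_of_fixesRatios' (hζ : IsPrimitiveRoot ζ M) (hM : 5 ≤ M)
    (g : Matrix.SpecialLinearGroup (Fin 2) (ZMod M))
    (H : FixesRatios ζ (g : Matrix (Fin 2) (Fin 2) (ZMod M))) : g = 1 ∨ g = -1 :=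
  SL_eq_one_or_neg_one_of_fixesRatios (orderFacts hζ) hζ hM g H

/-- Conversely `±1` fixes all ratios (`e_(-v) = e_v`). -/
theorem fixesRatios_one (ζ : R) : FixesRatios (M := M) ζ 1 := by
  intro v w v' w' _ _ _ _
  rw [vecAct_one, vecAct_one, vecAct_one, vecAct_one]

theorem fixesRatios_neg_one (hζM : ζ ^ M = 1) : FixesRatios (M := M) ζ (-1) :=
  fixesRatios_neg hζM (fixesRatios_one ζ)

/-- The exact kernel: a matrix in `SL₂(ℤ/M)` fixes all the ratios iff it is `±1`. -/
theorem SL_fixesRatios_iff (hζ : IsPrimitiveRoot ζ M) (hM : 5 ≤ M)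
    (g : Matrix.SpecialLinearGroup (Fin 2) (ZMod M)) :
    FixesRatios ζ (g : Matrix (Fin 2) (Fin 2) (ZMod M)) ↔ g = 1 ∨ g = -1 := by
  constructor
  · exact SL_eq_one_or_neg_one_of_fixesRatios' hζ hM g
  · rintro (rfl | rfl)
    · simpa using fixesRatios_one (M := M) ζ
    · simpa using fixesRatios_neg_one (M := M) hζ.pow_eq_one

end Fermat.Agent.S48x.Model.Rigidity
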