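/-
P-S48 (G1 MODEL), formal-series lemma layer on top of `Model/Series.lean` and `Model/Identities.lean`
(WP-M3 of the model interface): the bridge from the series coefficients `eCoeff M ζ v m` to the
additive-character form `AC.eFull`, coefficient-ring membership, the trace identity, and the lowest
coefficients / pairwise distinctness `e_v ≠ e_w` (`v ≠ ±w`) over every field containing a primitive
`M`-th root of unity.
-/
import Mathlib
import Fermat.Agent.S48x.Model.Series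
import Fermat.Agent.S48x.Model.ELead
import Fermat.Agent.S48x.Model.Identities
import Fermat.Agent.S28.Basic

set_option autoImplicit false
set_option linter.unusedSectionVars false

noncomputable section

open ModularCurve

namespace Fermat.Agent.S48x.Model.SL

variable {R : Type*} [Field R] {M : ℕ} [NeZero M] {ζ : R}

/-! ### Bridge to the additive-character form -/

/-- `ζ^(b.val * k) = χ(b k)` for `χ = zmodChar ζ`. -/
theorem zmodChar_mul_natCast (hζ : ζ ^ M = 1) (b : ZMod M) (k : ℕ) :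
    AddChar.zmodChar M hζ (b * (k : ZMod M)) = ζ ^ (b.val * k) := by
  have h : b * (k : ZMod M) = ((b.val * k : ℕ) : ZMod M) := by
    rw [Nat.cast_mul, ZMod.natCast_zmod_val]
  rw [h, AddChar.zmodChar_apply']

/-- The coefficients of `e_v` in additive-character form. -/
theorem eCoeff_eq_eFull (hζ : ζ ^ M = 1) (v : Vec M) (m : ℕ) :
    eCoeff M ζ v m = AC.eFull (AddChar.zmodChar M hζ) v.1 v.2 m := by
  unfold eCoeff AC.eFull
  by_cases hm : m = 0
  · rw [if_pos hm, if_pos hm]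
    rfl
  · rw [if_neg hm, if_neg hm, AC.eCoeff,
      ← Nat.sum_divisorsAntidiagonal (fun k l => (k : R) *
        ((if ((l : ℕ) : ZMod M) = v.1 then AddChar.zmodChar M hζ (v.2 * k) else 0) +
          (if ((l : ℕ) : ZMod M) = -v.1 then AddChar.zmodChar M hζ (-(v.2 * k)) else 0)))]
    refine Finset.sum_congr rfl fun x _ => ?_
    rw [zmodChar_mul_natCast, ← neg_mul, zmodChar_mul_natCast]

/-- `zmodChar ζ` is faithful for a primitive root `ζ`. -/
theorem zmodChar_faithful (hζ : IsPrimitiveRoot ζ M) :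
    ∀ t : ZMod M, AddChar.zmodChar M hζ.pow_eq_one t = 1 → t = 0 := by
  intro t ht
  rw [AddChar.zmodChar_apply, hζ.pow_eq_one_iff_dvd] at ht
  have h := ZMod.val_lt t
  have h0 : t.val = 0 := Nat.eq_zero_of_dvd_of_lt ht h
  exact (ZMod.val_eq_zero t).mp h0

/-! ### Coefficients of the Laurent series -/

theorem eSeries_coeff_natCast (ζ : R) (v : Vec M) (m : ℕ) :
    (eSeries M ζ v).coeff (m : ℤ) = eCoeff M ζ v m := by
  rw [eSeries, HahnSeries.ofPowerSeries_apply_coeff, ePow, PowerSeries.coeff_mk]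

theorem eSeries_coeff_of_neg (ζ : R) (v : Vec M) {n : ℤ} (hn : n < 0) :
    (eSeries M ζ v).coeff n = 0 := by
  have h := PowerSeries.coeff_coe (ePow M ζ v) n
  rw [if_pos hn] at h
  exact h

theorem e1Series_coeff_natCast (ζ : R) (b : ZMod M) (m : ℕ) :
    (e1Series M ζ b).coeff (m : ℤ) = e1Coeff M ζ b m := by
  rw [e1Series, HahnSeries.ofPowerSeries_apply_coeff, e1Pow, PowerSeries.coeff_mk]

theorem e1Series_coeff_of_neg (ζ : R) (b : ZMod M) {n : ℤ} (hn : n < 0) :
    (e1Series M ζ b).coeff n = 0 := by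
  have h := PowerSeries.coeff_coe (e1Pow M ζ b) n
  rw [if_pos hn] at h
  exact h

theorem eSeries_ext {ζ ζ' : R} {v w : Vec M} (h : ∀ m, eCoeff M ζ v m = eCoeff M ζ' w m) :
    eSeries M ζ v = eSeries M ζ' w := by
  rw [eSeries, eSeries]
  congr 1
  ext m
  rw [ePow, ePow, PowerSeries.coeff_mk, PowerSeries.coeff_mk, h]

theorem e1Series_ext {ζ ζ' : R} {b c : ZMod M} (h : ∀ m, e1Coeff M ζ b m = e1Coeff M ζ' c m) :
    e1Series M ζ b = e1Series M ζ' c := by
  rw [e1Series, e1Series]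
  congr 1
  ext m
  rw [e1Pow, e1Pow, PowerSeries.coeff_mk, PowerSeries.coeff_mk, h]

/-! ### Integrality of the coefficients -/

/-- the coefficients of `e_v` lie in every subring containing `ζ` and `(1 - ζ^b)⁻¹` -/
theorem eCoeff_mem (hζ : ζ ^ M = 1) (S : Subring R) (hS : ζ ∈ S) (v : Vec M)
    (hv : v.1 = 0 → (1 - ζ ^ v.2.val)⁻¹ ∈ S) (m : ℕ) : eCoeff M ζ v m ∈ S := by
  rw [eCoeff_eq_eFull hζ]
  have hχ : ∀ t : ZMod M, AddChar.zmodChar M hζ t ∈ S := fun t => by
    rw [AddChar.zmodChar_apply]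
    exact pow_mem hS _
  rcases Nat.eq_zero_or_pos m with rfl | hm
  · rw [AC.eFull_zero]
    split_ifs with h
    · rw [AC.c0, div_eq_mul_inv, ← inv_pow]
      exact mul_mem (hχ _) (pow_mem (hv h) 2)
    · exact zero_mem S
  · rw [AC.eFull_of_pos _ _ _ hm]
    exact AC.eCoeff_mem S _ hχ _ _ _

/-! ### The trace identity -/

/-- the integer series `X_a(q) = ∑_n (∑_{k ∣ n} k ([n/k ≡ a] + [n/k ≡ -a])) q^n` over `R`. -/
def xSeries (R : Type*) [Field R] {M : ℕ} [NeZero M] (a : ZMod M) : LaurentSeries R :=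
  HahnSeries.ofPowerSeries ℤ R (PowerSeries.mk fun n => ((AC.xCoeff a n : ℕ) : R))

theorem sum_eCoeff (hζ : IsPrimitiveRoot ζ M) {a : ZMod M} (ha : a ≠ 0) (m : ℕ) :
    ∑ b : ZMod M, eCoeff M ζ (a, b) m =
      if M ∣ m then (M : R) ^ 2 * ((AC.xCoeff a (m / M) : ℕ) : R) else 0 := by
  have hprim := AddChar.zmodChar_primitive_of_primitive_root M hζ
  rcases Nat.eq_zero_or_pos m with rfl | hm
  · rw [if_pos (dvd_zero M), Nat.zero_div, AC.xCoeff_zero_right, Nat.cast_zero, mul_zero]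
    refine Finset.sum_eq_zero fun b _ => ?_
    rw [eCoeff, if_pos rfl, if_neg ha]
  · rw [← AC.sum_eCoeff hprim a m]
    refine Finset.sum_congr rfl fun b _ => ?_
    rw [eCoeff_eq_eFull hζ.pow_eq_one, AC.eFull_of_pos _ _ _ hm]

/-- **Trace identity**: `∑_b e_(a,b)(z) = M² X_a(z^M)` for `a ≠ 0`. -/
theorem sum_eSeries (hζ : IsPrimitiveRoot ζ M) {a : ZMod M} (ha : a ≠ 0) :
    ∑ b : ZMod M, eSeries M ζ (a, b) =
      HahnSeries.C ((M : R) ^ 2) * qExpand R M (xSeries R a) := by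
  have hM : 0 < M := NeZero.pos M
  ext n
  rw [HahnSeries.coeff_sum, HahnSeries.C_mul_eq_smul, HahnSeries.coeff_smul, smul_eq_mul]
  rcases lt_or_ge n 0 with hn | hn
  · have h1 : (qExpand R M (xSeries R a)).coeff n = 0 := by
      by_cases hd : (M : ℤ) ∣ n
      · obtain ⟨k, rfl⟩ := hd
        rw [qExpand_coeff_mul]
        have hk : k < 0 := by
          by_contra hk
          have : 0 ≤ (M : ℤ) * k := mul_nonneg (by exact_mod_cast hM.le) (not_lt.mp hk)
          omega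
        have h := PowerSeries.coeff_coe
          (PowerSeries.mk fun n => ((AC.xCoeff a n : ℕ) : R)) k
        rw [if_pos hk] at h
        exact h
      · exact qExpand_coeff_of_not_dvd M _ hd
    rw [h1, mul_zero]
    exact Finset.sum_eq_zero fun b _ => eSeries_coeff_of_neg ζ _ hn
  · obtain ⟨m, rfl⟩ := Int.eq_ofNat_of_zero_le hn
    simp only [eSeries_coeff_natCast]
    rw [sum_eCoeff hζ ha]
    by_cases hd : M ∣ m
    · obtain ⟨k, rfl⟩ := hd
      rw [if_pos (dvd_mul_right M k), Nat.mul_div_cancel_left k hM, Nat.cast_mul,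
        qExpand_coeff_mul, xSeries, HahnSeries.ofPowerSeries_apply_coeff, PowerSeries.coeff_mk]
    · rw [if_neg hd, qExpand_coeff_of_not_dvd M _ (by exact_mod_cast hd), mul_zero]

/-! ### WP-M3: lowest coefficients and distinctness -/

/-- below `min |a| |c|` both series vanish, and they differ at `z^(min |a| |c|)`. -/
theorem eCoeff_lowest (hζ : IsPrimitiveRoot ζ M) {v w : Vec M} (hv : v ≠ 0) (hw : w ≠ 0)
    (hvw : v ≠ w) (hvw' : v ≠ -w) :
    (∀ m < min (AC.absv v.1) (AC.absv w.1), eCoeff M ζ v m = 0 ∧ eCoeff M ζ w m = 0) ∧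
      eCoeff M ζ v (min (AC.absv v.1) (AC.absv w.1)) ≠
        eCoeff M ζ w (min (AC.absv v.1) (AC.absv w.1)) := by
  simp only [eCoeff_eq_eFull hζ.pow_eq_one]
  refine AC.exists_eFull_ne _ (zmodChar_faithful hζ) ?_ ?_ ?_ ?_
  · exact fun h => hv (Prod.ext h.1 h.2)
  · exact fun h => hw (Prod.ext h.1 h.2)
  · exact fun h => hvw (Prod.ext h.1 h.2)
  · exact fun h => hvw' (Prod.ext h.1 h.2)

/-- **Distinctness**: `e_v ≠ e_w` for `v ≠ ±w` (nonzero), over any field with a primitive `M`-th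
root of unity — in particular in every characteristic prime to `M`. -/
theorem eSeries_sub_ne_zero (hζ : IsPrimitiveRoot ζ M) {v w : Vec M} (hv : v ≠ 0) (hw : w ≠ 0)
    (hvw : v ≠ w) (hvw' : v ≠ -w) : eSeries M ζ v - eSeries M ζ w ≠ 0 := by
  intro h
  have h1 := (eCoeff_lowest hζ hv hw hvw hvw').2
  apply h1
  rw [← eSeries_coeff_natCast, ← eSeries_coeff_natCast, sub_eq_zero.mp h]

theorem eSeries_eq_iff (hζ : IsPrimitiveRoot ζ M) {v w : Vec M} (hv : v ≠ 0) (hw : w ≠ 0) :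
    eSeries M ζ v = eSeries M ζ w ↔ v = w ∨ v = -w := by
  constructor
  · intro h
    by_contra hcon
    rw [not_or] at hcon
    exact eSeries_sub_ne_zero hζ hv hw hcon.1 hcon.2 (sub_eq_zero.mpr h)
  · rintro (rfl | rfl)
    · rfl
    · exact Identities.eSeries_neg hζ.pow_eq_one w

/-- the order of `e_v - e_w` is `min |a| |c|`. -/
theorem order_eSeries_sub (hζ : IsPrimitiveRoot ζ M) {v w : Vec M} (hv : v ≠ 0) (hw : w ≠ 0)
    (hvw : v ≠ w) (hvw' : v ≠ -w) :
    (eSeries M ζ v - eSeries M ζ w).order = (min (AC.absv v.1) (AC.absv w.1) : ℕ) := by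
  obtain ⟨hlow, hne⟩ := eCoeff_lowest hζ hv hw hvw hvw'
  have hx := eSeries_sub_ne_zero hζ hv hw hvw hvw'
  set n := min (AC.absv v.1) (AC.absv w.1) with hn
  have hcoeff : (eSeries M ζ v - eSeries M ζ w).coeff (n : ℤ) ≠ 0 := by
    rw [HahnSeries.coeff_sub, eSeries_coeff_natCast, eSeries_coeff_natCast]
    exact sub_ne_zero.mpr hne
  apply le_antisymm (HahnSeries.order_le_of_coeff_ne_zero hcoeff)
  by_contra hlt
  have hlt' : (eSeries M ζ v - eSeries M ζ w).order < (n : ℤ) := not_le.mp hlt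
  have h0 : (eSeries M ζ v - eSeries M ζ w).coeff (eSeries M ζ v - eSeries M ζ w).order ≠ 0 :=
    fun h => hx (HahnSeries.coeff_order_eq_zero.mp h)
  apply h0
  rw [HahnSeries.coeff_sub]
  rcases lt_or_ge (eSeries M ζ v - eSeries M ζ w).order 0 with hneg | hpos
  · rw [eSeries_coeff_of_neg ζ _ hneg, eSeries_coeff_of_neg ζ _ hneg, sub_zero]
  · obtain ⟨m, hm⟩ := Int.eq_ofNat_of_zero_le hpos
    rw [hm] at hlt' ⊢
    have hmn : m < n := by exact_mod_cast hlt'
    rw [eSeries_coeff_natCast, eSeries_coeff_natCast, (hlow m hmn).1, (hlow m hmn).2, sub_zero]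

/-- `e1_b - e1_c` has nonzero constant term
`(ζ^b - ζ^c)(1 - ζ^(b+c)) / ((1 - ζ^b)² (1 - ζ^c)²)` for `b ≠ ±c`. -/
theorem e1Coeff_zero_sub (hζ : IsPrimitiveRoot ζ M) {b c : ZMod M} (hb : b ≠ 0) (hc : c ≠ 0) :
    e1Coeff M ζ b 0 - e1Coeff M ζ c 0 =
      (ζ ^ b.val - ζ ^ c.val) * (1 - ζ ^ (b + c).val) /
        ((1 - ζ ^ b.val) ^ 2 * (1 - ζ ^ c.val) ^ 2) := by
  have h := AC.c0_sub (AddChar.zmodChar M hζ.pow_eq_one) (zmodChar_faithful hζ) hb hc
  rw [e1Coeff, e1Coeff, if_pos rfl, if_pos rfl]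
  exact h

theorem e1Coeff_zero_ne (hζ : IsPrimitiveRoot ζ M) {b c : ZMod M} (hb : b ≠ 0) (hc : c ≠ 0)
    (hbc : b ≠ c) (hbc' : b ≠ -c) : e1Coeff M ζ b 0 ≠ e1Coeff M ζ c 0 := by
  have h := AC.c0_ne (AddChar.zmodChar M hζ.pow_eq_one) (zmodChar_faithful hζ) hb hc hbc hbc'
  rw [e1Coeff, e1Coeff, if_pos rfl, if_pos rfl]
  exact h

end Fermat.Agent.S48x.Model.SL
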