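import Mathlib
import Fermat.Prelude.Def_ModularCurve_LaurentCoeff

/-!
# P-S48, MODEL: Galois descent for subfields of `K((q))` (abstract Lemma GEN)

`K` a finite Galois extension of `ℚ`, acting coefficientwise on `K((q))`.  For a `K`-subfield
`E` of `K((q))` stable under this action, the rational subfield
`comapRat E = {f ∈ ℚ((q)) | f ∈ E}` generates `E` over `K`:
`laurentBaseChange K (comapRat E) = E` (`laurentBaseChange_comapRat`).  For a further field `L`
with `φ : K →+* L` and `E = K(S)`: `laurentBaseChange L (comapRat E) = L(φ(S))`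
(`laurentBaseChange_comapRat_eq_adjoin`).

Proof: `f = ∑ᵢ b'ᵢ · Tr(bᵢ f)` coefficientwise, for a `ℚ`-basis `b` of `K` with trace-dual basis
`b'`, and `Tr(bᵢ f) = ∑_σ σ(bᵢ f) ∈ E`.
-/

set_option autoImplicit false

noncomputable section

namespace Fermat.Agent.S48x.Model.LaurentDescent

open ModularCurve IntermediateField

/-! ### Images of adjoins under coefficient maps -/

section Adjoin

variable {K L : Type*} [Field K] [Field L] (φ : K →+* L)

theorem coeffMap_algebraMap' (c : K) :
    coeffMap φ (algebraMap K (LaurentSeries K) c) = algebraMap L (LaurentSeries L) (φ c) := by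
  rw [algebraMap_laurentSeries_eq_single, algebraMap_laurentSeries_eq_single, coeffMap_single]

/-- The preimage of an `L`-subfield of `L((q))` under a coefficient map is a `K`-subfield. -/
def comapField (E : IntermediateField L (LaurentSeries L)) :
    IntermediateField K (LaurentSeries K) where
  toSubalgebra :=
    { carrier := {f | coeffMap φ f ∈ E}
      mul_mem' := fun {a b} ha hb => by
        show coeffMap φ (a * b) ∈ E
        rw [map_mul]; exact E.mul_mem ha hb
      one_mem' := by
        show coeffMap φ 1 ∈ E
        rw [map_one]; exact E.one_mem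
      add_mem' := fun {a b} ha hb => by
        show coeffMap φ (a + b) ∈ E
        rw [map_add]; exact E.add_mem ha hb
      zero_mem' := by
        show coeffMap φ 0 ∈ E
        rw [map_zero]; exact E.zero_mem
      algebraMap_mem' := fun c => by
        show coeffMap φ (algebraMap K (LaurentSeries K) c) ∈ E
        rw [coeffMap_algebraMap']; exact E.algebraMap_mem _ }
  inv_mem' := fun a ha => by
    show coeffMap φ a⁻¹ ∈ E
    rw [map_inv₀]; exact E.inv_mem ha

@[simp] theorem mem_comapField {E : IntermediateField L (LaurentSeries L)}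
    {f : LaurentSeries K} : f ∈ comapField φ E ↔ coeffMap φ f ∈ E := Iff.rfl

/-- A coefficient map sends `K(T)` into `L(φ(T))`. -/
theorem coeffMap_mem_adjoin {T : Set (LaurentSeries K)} {f : LaurentSeries K}
    (hf : f ∈ adjoin K T) : coeffMap φ f ∈ adjoin L (⇑(coeffMap φ) '' T) := by
  have h : adjoin K T ≤ comapField φ (adjoin L (⇑(coeffMap φ) '' T)) := by
    rw [adjoin_le_iff]
    intro t ht
    exact subset_adjoin L _ ⟨t, ht, rfl⟩
  exact h hf

end Adjoin

/-! ### The rational subfield -/

section Rat

variable {K : Type*} [Field K] [Algebra ℚ K]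

/-- The subfield of `ℚ((q))` of the rational series lying in `E`. -/
def comapRat (E : IntermediateField K (LaurentSeries K)) :
    IntermediateField ℚ (LaurentSeries ℚ) where
  toSubalgebra :=
    { carrier := {f | coeffEmb K f ∈ E}
      mul_mem' := fun {a b} ha hb => by
        show coeffEmb K (a * b) ∈ E
        rw [map_mul]; exact E.mul_mem ha hb
      one_mem' := by
        show coeffEmb K 1 ∈ E
        rw [map_one]; exact E.one_mem
      add_mem' := fun {a b} ha hb => by
        show coeffEmb K (a + b) ∈ E
        rw [map_add]; exact E.add_mem ha hb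
      zero_mem' := by
        show coeffEmb K 0 ∈ E
        rw [map_zero]; exact E.zero_mem
      algebraMap_mem' := fun c => by
        show coeffEmb K (algebraMap ℚ (LaurentSeries ℚ) c) ∈ E
        rw [coeffEmb, coeffMap_algebraMap']; exact E.algebraMap_mem _ }
  inv_mem' := fun a ha => by
    show coeffEmb K a⁻¹ ∈ E
    rw [map_inv₀]; exact E.inv_mem ha

@[simp] theorem mem_comapRat {E : IntermediateField K (LaurentSeries K)}
    {f : LaurentSeries ℚ} : f ∈ comapRat E ↔ coeffEmb K f ∈ E := Iff.rfl

theorem laurentBaseChange_comapRat_le (E : IntermediateField K (LaurentSeries K)) :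
    laurentBaseChange K (comapRat E) ≤ E := by
  rw [laurentBaseChange, adjoin_le_iff]
  rintro _ ⟨g, hg, rfl⟩
  exact hg

end Rat

/-! ### Descent -/

section Descent

variable {K : Type*} [Field K] [Algebra ℚ K] [FiniteDimensional ℚ K] [IsGalois ℚ K]

/-- The `ℚ`-linear form `u ↦ Tr(a u)`. -/
def traceMul (a : K) : K →ₗ[ℚ] ℚ := (Algebra.trace ℚ K).comp (LinearMap.mulLeft ℚ a)

omit [FiniteDimensional ℚ K] [IsGalois ℚ K] in
@[simp] theorem traceMul_apply (a u : K) : traceMul a u = Algebra.trace ℚ K (a * u) := rfl

/-- The rational series with coefficients `Tr(a fₖ)`. -/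
def traceSeries (a : K) (f : LaurentSeries K) : LaurentSeries ℚ := f.map (traceMul a)

omit [FiniteDimensional ℚ K] [IsGalois ℚ K] in
@[simp] theorem traceSeries_coeff (a : K) (f : LaurentSeries K) (k : ℤ) :
    (traceSeries a f).coeff k = Algebra.trace ℚ K (a * f.coeff k) := rfl

/-- `Tr(a f) = ∑_σ σ(a f)` coefficientwise. -/
theorem coeffEmb_traceSeries (a : K) (f : LaurentSeries K) :
    coeffEmb K (traceSeries a f) =
      ∑ σ : K ≃ₐ[ℚ] K, coeffMap (σ : K →+* K) (a • f) := by
  ext k
  rw [coeffEmb_coeff, traceSeries_coeff, trace_eq_sum_automorphisms, HahnSeries.coeff_sum]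
  refine Finset.sum_congr rfl fun σ _ => ?_
  rw [coeffMap_coeff, HahnSeries.coeff_smul, smul_eq_mul]
  rfl

variable (E : IntermediateField K (LaurentSeries K))
  (hE : ∀ σ : K ≃ₐ[ℚ] K, ∀ f ∈ E, coeffMap (σ : K →+* K) f ∈ E)

include hE in
theorem traceSeries_mem (a : K) {f : LaurentSeries K} (hf : f ∈ E) :
    traceSeries a f ∈ comapRat E := by
  rw [mem_comapRat, coeffEmb_traceSeries]
  refine E.sum_mem fun σ _ => hE σ _ ?_
  rw [← HahnSeries.C_mul_eq_smul, HahnSeries.C_apply, ← algebraMap_laurentSeries_eq_single]
  exact E.mul_mem (E.algebraMap_mem a) hf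

include hE in
/-- **Galois descent.** A `K`-subfield of `K((q))` stable under the coefficientwise action of
`Gal(K/ℚ)` is generated over `K` by its rational elements. -/
theorem laurentBaseChange_comapRat : laurentBaseChange K (comapRat E) = E := by
  refine le_antisymm (laurentBaseChange_comapRat_le E) ?_
  intro f hf
  classical
  let b := Module.finBasis ℚ K
  let b' := (Algebra.traceForm ℚ K).dualBasis (traceForm_nondegenerate ℚ K) b
  have key : f = ∑ i, b' i • coeffEmb K (traceSeries (b i) f) := by
    ext k
    rw [HahnSeries.coeff_sum]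
    have hx := b'.sum_repr (f.coeff k)
    conv_lhs => rw [← hx]
    refine Finset.sum_congr rfl fun i _ => ?_
    rw [HahnSeries.coeff_smul, coeffEmb_coeff, traceSeries_coeff, smul_eq_mul,
      LinearMap.BilinForm.dualBasis_repr_apply, Algebra.traceForm_apply, Algebra.smul_def,
      mul_comm (f.coeff k) (b i), mul_comm]
  rw [key]
  refine (laurentBaseChange K (comapRat E)).sum_mem fun i _ => ?_
  rw [← HahnSeries.C_mul_eq_smul, HahnSeries.C_apply, ← algebraMap_laurentSeries_eq_single]
  refine (laurentBaseChange K (comapRat E)).mul_mem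
    ((laurentBaseChange K (comapRat E)).algebraMap_mem _) ?_
  exact coeffEmb_mem_laurentBaseChange K (traceSeries_mem E hE (b i) hf)

end Descent

/-! ### Base change to a further field -/

section BaseChange

variable {K : Type*} [Field K] [Algebra ℚ K] [FiniteDimensional ℚ K] [IsGalois ℚ K]
  {L : Type*} [Field L] [Algebra ℚ L] (φ : K →+* L)

omit [FiniteDimensional ℚ K] [IsGalois ℚ K] in
theorem coeffMap_coeffEmb' (g : LaurentSeries ℚ) :
    coeffMap φ (coeffEmb K g) = coeffEmb L g := by
  rw [coeffEmb, coeffMap_coeffMap]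
  exact coeffMap_congr (Subsingleton.elim _ _) g

/-- **Lemma GEN, abstract form.** If `E = K(S)` is stable under the coefficientwise Galois
action, then the base change to `L` of its rational subfield is `L(φ(S))`. -/
theorem laurentBaseChange_comapRat_eq_adjoin (E : IntermediateField K (LaurentSeries K))
    (hE : ∀ σ : K ≃ₐ[ℚ] K, ∀ f ∈ E, coeffMap (σ : K →+* K) f ∈ E)
    (S : Set (LaurentSeries K)) (hS : E = adjoin K S) :
    laurentBaseChange L (comapRat E) = adjoin L (⇑(coeffMap φ) '' S) := by
  apply le_antisymm
  · rw [laurentBaseChange, adjoin_le_iff]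
    rintro _ ⟨g, hg, rfl⟩
    rw [← coeffMap_coeffEmb' φ g]
    have hgE : coeffEmb K g ∈ adjoin K S := hS ▸ hg
    exact coeffMap_mem_adjoin φ hgE
  · rw [adjoin_le_iff]
    rintro _ ⟨s, hs, rfl⟩
    have hsE : s ∈ E := hS ▸ subset_adjoin K S hs
    rw [← laurentBaseChange_comapRat E hE, laurentBaseChange] at hsE
    have := coeffMap_mem_adjoin φ hsE
    have himg : ⇑(coeffMap φ) '' (⇑(coeffEmb K) '' (comapRat E : Set (LaurentSeries ℚ))) =
        ⇑(coeffEmb L) '' (comapRat E : Set (LaurentSeries ℚ)) := by
      rw [Set.image_image]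
      exact Set.image_congr fun g _ => coeffMap_coeffEmb' φ g
    rw [himg] at this
    exact this

omit [Algebra ℚ K] [FiniteDimensional ℚ K] [IsGalois ℚ K] in
/-- Stability of `K(S)` under a coefficient automorphism follows from stability of the
generators. -/
theorem coeffMap_mem_adjoin_of_generators (σ : K →+* K) (S : Set (LaurentSeries K))
    (hS : ∀ s ∈ S, coeffMap σ s ∈ adjoin K S) {f : LaurentSeries K} (hf : f ∈ adjoin K S) :
    coeffMap σ f ∈ adjoin K S := by
  have h : adjoin K S ≤ comapField σ (adjoin K S) := by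
    rw [adjoin_le_iff]
    exact fun s hs => hS s hs
  exact h hf

end BaseChange

end Fermat.Agent.S48x.Model.LaurentDescent
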