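/-
P-S48 (G1 MODEL): the hypothesis `OrderFacts` of `Model/Rigidity.lean` (helper43) discharged from
`Model/SeriesLemmas.lean`; unconditional forms of the rigidity lemma (RIG).
-/
import Mathlib
import Fermat.Agent.S48x.Model.Rigidity
import Fermat.Agent.S48x.Model.SeriesLemmas

set_option autoImplicit false

noncomputable section

namespace Fermat.Agent.S48x.Model.SL

open Fermat.Agent.S48x.Model.Rigidity

variable {R : Type*} [Field R] {M : ℕ} [NeZero M] {ζ : R}

/-- the order facts of `Model/Rigidity.lean` hold over every field containing a primitive `M`-th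
root of unity. -/
theorem orderFacts (hζ : IsPrimitiveRoot ζ M) : OrderFacts M ζ where
  ne_zero := fun _ _ h => eSeries_sub_ne_zero hζ h.1 h.2.1 h.2.2.1 h.2.2.2
  order := fun _ _ h => order_eSeries_sub hζ h.1 h.2.1 h.2.2.1 h.2.2.2

/-- **(RIG)** unconditional: a matrix with two-sided inverse fixing all ratios is `±1`. -/
theorem eq_one_or_neg_one_of_fixesRatios (hζ : IsPrimitiveRoot ζ M) (hM : 5 ≤ M)
    {g h : Matrix (Fin 2) (Fin 2) (ZMod M)} (hgh : g * h = 1) (hhg : h * g = 1)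
    (H : FixesRatios ζ g) : g = 1 ∨ g = -1 :=
  Rigidity.eq_one_or_neg_one_of_fixesRatios (orderFacts hζ) hζ hM hgh hhg H

/-- **(RIG)** for `GL₂(ℤ/M)`, unconditional. -/
theorem GL_eq_one_or_neg_one_of_fixesRatios (hζ : IsPrimitiveRoot ζ M) (hM : 5 ≤ M)
    (g : GL (Fin 2) (ZMod M)) (H : FixesRatios ζ (g : Matrix (Fin 2) (Fin 2) (ZMod M))) :
    g = 1 ∨ g = -1 :=
  Rigidity.GL_eq_one_or_neg_one_of_fixesRatios (orderFacts hζ) hζ hM g H

/-- **(RIG)** for `SL₂(ℤ/M)`, unconditional. -/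
theorem SL_eq_one_or_neg_one_of_fixesRatios (hζ : IsPrimitiveRoot ζ M) (hM : 5 ≤ M)
    (g : Matrix.SpecialLinearGroup (Fin 2) (ZMod M))
    (H : FixesRatios ζ (g : Matrix (Fin 2) (Fin 2) (ZMod M))) : g = 1 ∨ g = -1 :=
  Rigidity.SL_eq_one_or_neg_one_of_fixesRatios (orderFacts hζ) hζ hM g H

end Fermat.Agent.S48x.Model.SL
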