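/-
P-S48 (G1 MODEL): exact stabiliser of the `Γ₁`-generators for a GENERAL matrix.
If an invertible `g ∈ M₂(ℤ/M)` fixes all the ratios of the series `e_(0,b)` (the generators of
`qExpand M (gamma1FieldC M ζ)` inside `fullField M ζ`), then its lower row is `(0, ±1)`.
-/
import Mathlib
import Fermat.Agent.S48x.Model.Rigidity
import Fermat.Agent.S48x.Model.SeriesLemmas
import Fermat.Agent.S48x.Model.Stab

set_option autoImplicit false
set_option linter.unusedSectionVars false

noncomputable section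

namespace Fermat.Agent.S48x.Model.SL

open Fermat.Agent.S48x.Model.Rigidity (vecAct Good good_vecAct vecAct_fst vecAct_snd)

variable {R : Type*} [Field R] {M : ℕ} [NeZero M] {ζ : R}

/-- `b, c ≠ 0` and `b ≠ ±c`. -/
def Good0 (b c : ZMod M) : Prop := b ≠ 0 ∧ c ≠ 0 ∧ b ≠ c ∧ b ≠ -c

theorem good_of_good0 {b c : ZMod M} (h : Good0 b c) :
    Good ((0, b) : Vec M) ((0, c) : Vec M) := by
  obtain ⟨h1, h2, h3, h4⟩ := h
  refine ⟨fun h => h1 (congrArg Prod.snd h), fun h => h2 (congrArg Prod.snd h),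
    fun h => h3 (congrArg Prod.snd h), fun h => h4 ?_⟩
  have := congrArg Prod.snd h
  simpa using this

theorem good0_natCast {i j : ℕ} (hi : 0 < i) (hij : i < j) (hM : i + j < M) :
    Good0 ((i : ℕ) : ZMod M) ((j : ℕ) : ZMod M) :=
  ⟨Model.natCast_ne_zero_of_lt hi (by omega), Model.natCast_ne_zero_of_lt (by omega) (by omega),
    (Model.natCast_ne_of_lt hi hij hM).1, (Model.natCast_ne_of_lt hi hij hM).2⟩

theorem good0_mul {u r : ZMod M} (hur : u * r = 1) {x y : ZMod M} (h : Good0 x y) :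
    Good0 (x * u) (y * u) := by
  have key : ∀ t : ZMod M, t * u = 0 → t = 0 := by
    intro t ht
    have : t * (u * r) = 0 := by rw [← mul_assoc, ht, zero_mul]
    rwa [hur, mul_one] at this
  obtain ⟨h1, h2, h3, h4⟩ := h
  refine ⟨fun h => h1 (key _ h), fun h => h2 (key _ h), fun h => h3 ?_, fun h => h4 ?_⟩
  · have : (x - y) * u = 0 := by rw [sub_mul, h, sub_self]
    exact sub_eq_zero.mp (key _ this)
  · have : (x + y) * u = 0 := by rw [add_mul, h]; ring
    exact eq_neg_of_add_eq_zero_left (key _ this)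

theorem absv_natCast_of_le {n : ℕ} (h : 2 * n ≤ M) : AC.absv ((n : ℕ) : ZMod M) = n := by
  have hM : 0 < M := NeZero.pos M
  have hn : n < M := by
    rcases Nat.eq_zero_or_pos n with rfl | h0
    · exact hM
    · omega
  unfold AC.absv
  rw [ZMod.val_natCast, Nat.mod_eq_of_lt hn]
  omega

/-- `g` fixes the ratios of the generators `e_(0,b)`. -/
def FixesRatios0 (ζ : R) (g : Matrix (Fin 2) (Fin 2) (ZMod M)) : Prop :=
  ∀ b c b' c' : ZMod M, b ≠ 0 → c ≠ 0 → b' ≠ 0 → c' ≠ 0 →
    ratio M ζ (vecAct g ((0, b) : Vec M)) (vecAct g ((0, c) : Vec M))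
        (vecAct g ((0, b') : Vec M)) (vecAct g ((0, c') : Vec M)) =
      ratio M ζ ((0, b) : Vec M) ((0, c) : Vec M) ((0, b') : Vec M) ((0, c') : Vec M)

section Main

variable {g h : Matrix (Fin 2) (Fin 2) (ZMod M)}

theorem vecAct_zero_fst (g : Matrix (Fin 2) (Fin 2) (ZMod M)) (b : ZMod M) :
    vecAct g ((0, b) : Vec M) = ((b * g 1 0, b * g 1 1) : Vec M) := by
  ext <;> simp

/-- the orders of the translated differences do not depend on the good pair. -/
theorem order_const (hζ : IsPrimitiveRoot ζ M) (hgh : g * h = 1) (H : FixesRatios0 ζ g)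
    {b c b' c' : ZMod M} (hbc : Good0 b c) (hbc' : Good0 b' c') :
    min (AC.absv (b * g 1 0)) (AC.absv (c * g 1 0)) =
      min (AC.absv (b' * g 1 0)) (AC.absv (c' * g 1 0)) := by
  have G1 := good_of_good0 hbc
  have G2 := good_of_good0 hbc'
  have G1g := good_vecAct hgh G1
  have G2g := good_vecAct hgh G2
  have ne1 := eSeries_sub_ne_zero hζ G1.1 G1.2.1 G1.2.2.1 G1.2.2.2
  have ne2 := eSeries_sub_ne_zero hζ G2.1 G2.2.1 G2.2.2.1 G2.2.2.2
  have ne1g := eSeries_sub_ne_zero hζ G1g.1 G1g.2.1 G1g.2.2.1 G1g.2.2.2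
  have ne2g := eSeries_sub_ne_zero hζ G2g.1 G2g.2.1 G2g.2.2.1 G2g.2.2.2
  have o1 := order_eSeries_sub hζ G1.1 G1.2.1 G1.2.2.1 G1.2.2.2
  have o2 := order_eSeries_sub hζ G2.1 G2.2.1 G2.2.2.1 G2.2.2.2
  have o1g := order_eSeries_sub hζ G1g.1 G1g.2.1 G1g.2.2.1 G1g.2.2.2
  have o2g := order_eSeries_sub hζ G2g.1 G2g.2.1 G2g.2.2.1 G2g.2.2.2
  have hr := H b c b' c' hbc.1 hbc.2.1 hbc'.1 hbc'.2.1
  unfold ratio at hr
  rw [div_eq_div_iff ne2g ne2] at hr
  have hc := congrArg HahnSeries.order hr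
  rw [HahnSeries.order_mul ne1g ne2, HahnSeries.order_mul ne1 ne2g, o1, o2, o1g, o2g] at hc
  simp only [vecAct_fst, zero_mul, zero_add, AC.absv_zero, min_self, Nat.cast_zero, add_zero] at hc
  exact_mod_cast hc

/-- the lower left entry vanishes. -/
theorem g10_eq_zero_of_fixesRatios0 (hM : 8 ≤ M) (hζ : IsPrimitiveRoot ζ M) (hgh : g * h = 1)
    (H : FixesRatios0 ζ g) : g 1 0 = 0 := by
  set r := g 1 0 with hr
  have h12 : Good0 ((1 : ℕ) : ZMod M) ((2 : ℕ) : ZMod M) :=
    good0_natCast (by norm_num) (by norm_num) (by omega)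
  have h13 : Good0 ((1 : ℕ) : ZMod M) ((3 : ℕ) : ZMod M) :=
    good0_natCast (by norm_num) (by norm_num) (by omega)
  have h23 : Good0 ((2 : ℕ) : ZMod M) ((3 : ℕ) : ZMod M) :=
    good0_natCast (by norm_num) (by norm_num) (by omega)
  by_cases hu : IsUnit r
  · -- `r` a unit: the pairs `(u, 2u)` and `(2u, 3u)` have different orders
    exfalso
    obtain ⟨u, hur⟩ := hu.exists_left_inv
    have e := order_const hζ hgh H (good0_mul hur h12) (good0_mul hur h23)
    have h1 : ((1 : ℕ) : ZMod M) * u * r = ((1 : ℕ) : ZMod M) := by rw [mul_assoc, hur, mul_one]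
    have h2 : ((2 : ℕ) : ZMod M) * u * r = ((2 : ℕ) : ZMod M) := by rw [mul_assoc, hur, mul_one]
    have h3 : ((3 : ℕ) : ZMod M) * u * r = ((3 : ℕ) : ZMod M) := by rw [mul_assoc, hur, mul_one]
    rw [← hr, h1, h2, h3, absv_natCast_of_le (by omega), absv_natCast_of_le (by omega),
      absv_natCast_of_le (by omega)] at e
    simp at e
  · -- `r` a zero divisor
    rw [isUnit_iff_mem_nonZeroDivisors_of_finite, mem_nonZeroDivisors_iff_right] at hu
    push Not at hu
    obtain ⟨b0, hb0r, hb0⟩ := hu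
    -- a partner for `b0`
    have hcard : ({0, b0, -b0} : Finset (ZMod M)).card < (Finset.univ : Finset (ZMod M)).card := by
      rw [Finset.card_univ, ZMod.card]
      exact lt_of_le_of_lt Finset.card_le_three (by omega)
    obtain ⟨c0, -, hc0⟩ := Finset.exists_mem_notMem_of_card_lt_card hcard
    simp only [Finset.mem_insert, Finset.mem_singleton, not_or] at hc0
    have hgood : Good0 b0 c0 := ⟨hb0, hc0.1, fun h => hc0.2.1 h.symm, fun h => hc0.2.2 (by rw [h, neg_neg])⟩
    have hzero : ∀ {b c : ZMod M}, Good0 b c → b * r = 0 ∨ c * r = 0 := by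
      intro b c hbc
      have e := order_const hζ hgh H hbc hgood
      rw [← hr, hb0r, AC.absv_zero, Nat.zero_min] at e
      rcases min_eq_iff.mp e with ⟨h1, -⟩ | ⟨h1, -⟩
      · exact Or.inl (AC.absv_eq_zero.mp h1)
      · exact Or.inr (AC.absv_eq_zero.mp h1)
    have e12 := hzero h12
    have e13 := hzero h13
    have e23 := hzero h23
    push_cast at e12 e13 e23
    rcases e12 with h1 | h2
    · simpa using h1
    · rcases e13 with h1 | h3
      · simpa using h1
      · linear_combination h3 - h2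

/-- **Exact stabiliser of the `Γ₁`-generators.**  An invertible matrix fixing all ratios of the
series `e_(0,b)` has lower row `(0, ±1)`. -/
theorem lowerRow_of_fixesRatios0 (hM : 8 ≤ M) (hζ : IsPrimitiveRoot ζ M) (hgh : g * h = 1)
    (H : FixesRatios0 ζ g) : g 1 0 = 0 ∧ (g 1 1 = 1 ∨ g 1 1 = -1) := by
  have h10 := g10_eq_zero_of_fixesRatios0 hM hζ hgh H
  refine ⟨h10, ?_⟩
  -- `g 1 1` is a unit
  have h11 : g 1 1 * h 1 1 = 1 := by
    have := congrFun (congrFun hgh 1) 1
    rw [Matrix.mul_apply, Fin.sum_univ_two, h10, zero_mul, zero_add, Matrix.one_apply_eq] at this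
    exact this
  set d : (ZMod M)ˣ := Units.mkOfMulEqOne (g 1 1) (h 1 1) h11 with hd
  have hdv : (d : ZMod M) = g 1 1 := rfl
  have hstab := unit_eq_one_or_neg_one_of_ratio1_eq hM hζ d ?_
  · rcases hstab with h1 | h1
    · left
      rw [← hdv, h1, Units.val_one]
    · right
      rw [← hdv, h1, Units.val_neg, Units.val_one]
  · intro b c b' c' hb hc hb' hc'
    apply ModularCurve.qExpand_injective (R := R) M
    rw [Identities.qExpand_ratio1, Identities.qExpand_ratio1]
    have := H b c b' c' hb hc hb' hc'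
    simp only [vecAct_zero_fst, h10, mul_zero] at this
    rw [hdv]
    simpa only [mul_comm] using this

/-- conversely, matrices with lower row `(0, ±1)` fix the ratios of the `e_(0,b)`. -/
theorem fixesRatios0_of_lowerRow (hζM : ζ ^ M = 1) (h10 : g 1 0 = 0)
    (h11 : g 1 1 = 1 ∨ g 1 1 = -1) : FixesRatios0 ζ g := by
  intro b c b' c' _ _ _ _
  simp only [vecAct_zero_fst, h10, mul_zero]
  rcases h11 with h1 | h1
  · simp only [h1, mul_one]
  · have hneg : ∀ x : ZMod M, ((0, x * -1) : Vec M) = -((0, x) : Vec M) := by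
      intro x
      ext <;> simp
    simp only [h1, hneg]
    unfold ratio
    rw [Identities.eSeries_neg hζM, Identities.eSeries_neg hζM, Identities.eSeries_neg hζM,
      Identities.eSeries_neg hζM]

/-- the exact stabiliser of the `Γ₁`-generators inside `SL₂(ℤ/M)`. -/
theorem SL_fixesRatios0_iff (hM : 8 ≤ M) (hζ : IsPrimitiveRoot ζ M)
    (γ : Matrix.SpecialLinearGroup (Fin 2) (ZMod M)) :
    FixesRatios0 ζ (γ : Matrix (Fin 2) (Fin 2) (ZMod M)) ↔
      γ 1 0 = 0 ∧ (γ 1 1 = 1 ∨ γ 1 1 = -1) := by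
  constructor
  · intro H
    have hgh : (γ : Matrix (Fin 2) (Fin 2) (ZMod M)) *
        ((γ⁻¹ : Matrix.SpecialLinearGroup (Fin 2) (ZMod M)) :
          Matrix (Fin 2) (Fin 2) (ZMod M)) = 1 := by
      rw [← Matrix.SpecialLinearGroup.coe_mul, mul_inv_cancel, Matrix.SpecialLinearGroup.coe_one]
    exact lowerRow_of_fixesRatios0 hM hζ hgh H
  · rintro ⟨h10, h11⟩
    exact fixesRatios0_of_lowerRow hζ.pow_eq_one h10 h11

end Main

end Fermat.Agent.S48x.Model.SL
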