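/-
P-S48 (G1 MODEL): the twist `z ↦ ζ z` on the full level field, formal side (any field `R` with an
`M`-th root of unity `ζ`):

* `twistEquivOfStable` : an intermediate field of `R((z))` stable under the twists by `ζ` and `ζ⁻¹`
  carries the `R`-automorphism `f ↦ f(ζ z)`;
* `twist_mem_fullField` : `fullField M ζ` is stable under the twist by `ζ` (it sends
  `ratio v w v' w'` to `ratio (v U) (w U) (v' U) (w' U)`, `U = (1 1; 0 1)`, and fixes the
  `j(z^(dM))`);
* `twistFull` : the resulting automorphism of `fullField M ζ`, which fixes `j(z^(dM))`, acts on the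
  ratios through `U`, has order dividing `M`, and fixes the image of `gamma1FieldC M ζ` under
  `q ↦ z^M` pointwise.
-/
import Mathlib
import Fermat.Agent.S48x.Model.Series
import Fermat.Agent.S48x.Model.Identities
import Fermat.Agent.S28.Basic

set_option autoImplicit false
set_option linter.unusedSectionVars false

noncomputable section

open ModularCurve

namespace Fermat.Agent.S48x.Model.SL

open Fermat.Agent.S28 (twist twist_coeff twist_twist twist_one twist_C twist_qExpand_of_pow_eq_one)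

/-! ### Generic: the twist automorphism of a stable intermediate field -/

section Generic

variable {K : Type*} [Field K]

theorem twist_algebraMap (ζ : Kˣ) (c : K) :
    twist ζ (algebraMap K (LaurentSeries K) c) = algebraMap K (LaurentSeries K) c := by
  have h1 : algebraMap K (PowerSeries K) c = PowerSeries.C c := by simp
  rw [HahnSeries.algebraMap_apply', h1, HahnSeries.ofPowerSeries_C, twist_C]

/-- the twist as an `K`-algebra endomorphism of `K((z))`. -/
def twistAlgHom (ζ : Kˣ) : LaurentSeries K →ₐ[K] LaurentSeries K :=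
  { twist ζ with commutes' := twist_algebraMap ζ }

@[simp] theorem twistAlgHom_apply (ζ : Kˣ) (f : LaurentSeries K) : twistAlgHom ζ f = twist ζ f :=
  rfl

/-- stability under the twist can be checked on generators. -/
theorem twist_mem_adjoin (ζ : Kˣ) {S : Set (LaurentSeries K)}
    (hS : ∀ x ∈ S, twist ζ x ∈ IntermediateField.adjoin K S) {f : LaurentSeries K}
    (hf : f ∈ IntermediateField.adjoin K S) : twist ζ f ∈ IntermediateField.adjoin K S := by
  have hle : IntermediateField.adjoin K S ≤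
      (IntermediateField.adjoin K S).comap (twistAlgHom ζ) := by
    rw [IntermediateField.adjoin_le_iff]
    intro x hx
    exact hS x hx
  exact hle hf

theorem twist_pow_mem (ζ : Kˣ) {F : IntermediateField K (LaurentSeries K)}
    (h : ∀ f ∈ F, twist ζ f ∈ F) (n : ℕ) : ∀ f ∈ F, twist (ζ ^ n) f ∈ F := by
  induction n with
  | zero =>
    intro f hf
    rwa [pow_zero, twist_one]
  | succ n ih =>
    intro f hf
    rw [pow_succ, ← twist_twist]
    exact ih _ (h f hf)

/-- the automorphism `f ↦ f(ζ z)` of an intermediate field stable under the twists by `ζ`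
and `ζ⁻¹`. -/
def twistEquivOfStable (F : IntermediateField K (LaurentSeries K)) (ζ : Kˣ)
    (h : ∀ f ∈ F, twist ζ f ∈ F) (h' : ∀ f ∈ F, twist ζ⁻¹ f ∈ F) : F ≃ₐ[K] F where
  toFun f := ⟨twist ζ f, h f f.2⟩
  invFun f := ⟨twist ζ⁻¹ f, h' f f.2⟩
  left_inv f := by
    apply Subtype.ext
    show twist ζ⁻¹ (twist ζ (f : LaurentSeries K)) = f
    rw [twist_twist, inv_mul_cancel, twist_one]
  right_inv f := by
    apply Subtype.ext
    show twist ζ (twist ζ⁻¹ (f : LaurentSeries K)) = f
    rw [twist_twist, mul_inv_cancel, twist_one]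
  map_mul' f g := by
    apply Subtype.ext
    show twist ζ ((f : LaurentSeries K) * g) = twist ζ f * twist ζ g
    rw [map_mul]
  map_add' f g := by
    apply Subtype.ext
    show twist ζ ((f : LaurentSeries K) + g) = twist ζ f + twist ζ g
    rw [map_add]
  commutes' c := by
    apply Subtype.ext
    show twist ζ (algebraMap K (LaurentSeries K) c) = algebraMap K (LaurentSeries K) c
    exact twist_algebraMap ζ c

@[simp] theorem coe_twistEquivOfStable (F : IntermediateField K (LaurentSeries K)) (ζ : Kˣ)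
    (h : ∀ f ∈ F, twist ζ f ∈ F) (h' : ∀ f ∈ F, twist ζ⁻¹ f ∈ F) (f : F) :
    ((twistEquivOfStable F ζ h h' f : F) : LaurentSeries K) = twist ζ (f : LaurentSeries K) := rfl

end Generic

/-! ### The full level field -/

section Full

variable {R : Type*} [Field R] {M : ℕ} [NeZero M]

theorem shear_ne_zero {v : Vec M} (hv : v ≠ 0) : ((v.1, v.1 + v.2) : Vec M) ≠ 0 := by
  intro h
  apply hv
  have h1 : v.1 = 0 := congrArg Prod.fst h
  have h2 : v.1 + v.2 = 0 := congrArg Prod.snd h
  rw [h1, zero_add] at h2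
  exact Prod.ext h1 h2

/-- the twist by `ζ` fixes `j(z^(dM))`. -/
theorem twist_jqd (ζ : Rˣ) (hζ : ζ ^ M = 1) (d : ℕ) [NeZero d] :
    twist ζ (qExpand R (d * M) (jqModC R)) = qExpand R (d * M) (jqModC R) :=
  twist_qExpand_of_pow_eq_one ζ (d * M) (by rw [mul_comm, pow_mul, hζ, one_pow]) _

/-- the twist by `ζ` fixes the image of `q ↦ z^M`. -/
theorem twist_qExpand_M (ζ : Rˣ) (hζ : ζ ^ M = 1) (f : LaurentSeries R) :
    twist ζ (qExpand R M f) = qExpand R M f :=
  twist_qExpand_of_pow_eq_one ζ M hζ f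

/-- `fullField M ζ` is stable under the twist by `ζ`. -/
theorem twist_mem_fullField (ζ : Rˣ) (hζ : ζ ^ M = 1) {f : LaurentSeries R}
    (hf : f ∈ fullField M (ζ : R)) : twist ζ f ∈ fullField M (ζ : R) := by
  refine twist_mem_adjoin ζ ?_ hf
  rintro x (⟨d, hd0, hd, rfl⟩ | ⟨v, w, v', w', hv, hw, hv', hw', rfl⟩)
  · rw [twist_jqd ζ hζ d]
    exact jqd_mem_fullField (ζ : R) hd
  · rw [Identities.twist_ratio ζ hζ]
    exact ratio_mem_fullField (ζ : R) (shear_ne_zero hv) (shear_ne_zero hw) (shear_ne_zero hv')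
      (shear_ne_zero hw')

theorem twist_pow_mem_fullField (ζ : Rˣ) (hζ : ζ ^ M = 1) (n : ℕ) {f : LaurentSeries R}
    (hf : f ∈ fullField M (ζ : R)) : twist (ζ ^ n) f ∈ fullField M (ζ : R) :=
  twist_pow_mem ζ (fun _ h => twist_mem_fullField ζ hζ h) n f hf

theorem inv_eq_pow_of_pow_eq_one (ζ : Rˣ) (hζ : ζ ^ M = 1) : ζ⁻¹ = ζ ^ (M - 1) := by
  have hM : 0 < M := NeZero.pos M
  apply inv_eq_of_mul_eq_one_right
  rw [← pow_succ', Nat.sub_add_cancel hM, hζ]

theorem twist_inv_mem_fullField (ζ : Rˣ) (hζ : ζ ^ M = 1) {f : LaurentSeries R}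
    (hf : f ∈ fullField M (ζ : R)) : twist ζ⁻¹ f ∈ fullField M (ζ : R) := by
  rw [inv_eq_pow_of_pow_eq_one ζ hζ]
  exact twist_pow_mem_fullField ζ hζ _ hf

/-- **the transvection `u = (1 1; 0 1)` on the full level field**: `f(z) ↦ f(ζ z)`. -/
def twistFull (ζ : Rˣ) (hζ : ζ ^ M = 1) : fullField M (ζ : R) ≃ₐ[R] fullField M (ζ : R) :=
  twistEquivOfStable (fullField M (ζ : R)) ζ (fun _ h => twist_mem_fullField ζ hζ h)
    (fun _ h => twist_inv_mem_fullField ζ hζ h)

@[simp] theorem coe_twistFull (ζ : Rˣ) (hζ : ζ ^ M = 1) (f : fullField M (ζ : R)) :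
    ((twistFull ζ hζ f : fullField M (ζ : R)) : LaurentSeries R) =
      twist ζ (f : LaurentSeries R) := rfl

/-- `twistFull` fixes `j(z^(dM))`. -/
theorem twistFull_jqd (ζ : Rˣ) (hζ : ζ ^ M = 1) {d : ℕ} [NeZero d] (hd : d ∣ M) :
    twistFull ζ hζ ⟨qExpand R (d * M) (jqModC R), jqd_mem_fullField (ζ : R) hd⟩ =
      ⟨qExpand R (d * M) (jqModC R), jqd_mem_fullField (ζ : R) hd⟩ :=
  Subtype.ext (twist_jqd ζ hζ d)

/-- `twistFull` fixes every element of the image of `q ↦ z^M`. -/
theorem twistFull_of_eq_qExpand (ζ : Rˣ) (hζ : ζ ^ M = 1) (f : fullField M (ζ : R))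
    {f₀ : LaurentSeries R} (hf : (f : LaurentSeries R) = qExpand R M f₀) :
    twistFull ζ hζ f = f := by
  apply Subtype.ext
  rw [coe_twistFull, hf, twist_qExpand_M ζ hζ]

/-- `twistFull` fixes the image of `gamma1FieldC M ζ` under `q ↦ z^M` pointwise. -/
theorem twistFull_qExpand_gamma1 (ζ : Rˣ) (hζ : ζ ^ M = 1) {f₀ : LaurentSeries R}
    (hf₀ : f₀ ∈ gamma1FieldC M (ζ : R)) :
    twistFull ζ hζ ⟨qExpand R M f₀, Identities.qExpand_mem_fullField (ζ : R) hf₀⟩ =
      ⟨qExpand R M f₀, Identities.qExpand_mem_fullField (ζ : R) hf₀⟩ :=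
  twistFull_of_eq_qExpand ζ hζ _ rfl

/-- `twistFull` acts on the ratio generators through `U = (1 1; 0 1)`: `(a, b) ↦ (a, a + b)`. -/
theorem twistFull_ratio (ζ : Rˣ) (hζ : ζ ^ M = 1) {v w v' w' : Vec M} (hv : v ≠ 0) (hw : w ≠ 0)
    (hv' : v' ≠ 0) (hw' : w' ≠ 0) :
    twistFull ζ hζ ⟨ratio M (ζ : R) v w v' w', ratio_mem_fullField (ζ : R) hv hw hv' hw'⟩ =
      ⟨ratio M (ζ : R) (v.1, v.1 + v.2) (w.1, w.1 + w.2) (v'.1, v'.1 + v'.2) (w'.1, w'.1 + w'.2),
        ratio_mem_fullField (ζ : R) (shear_ne_zero hv) (shear_ne_zero hw) (shear_ne_zero hv')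
          (shear_ne_zero hw')⟩ :=
  Subtype.ext (Identities.twist_ratio ζ hζ v w v' w')

/-- iterating the twist: `(twistFull ζ)^n = ` twist by `ζ^n`. -/
theorem coe_twistFull_pow (ζ : Rˣ) (hζ : ζ ^ M = 1) (n : ℕ) (f : fullField M (ζ : R)) :
    (((twistFull ζ hζ ^ n) f : fullField M (ζ : R)) : LaurentSeries R) =
      twist (ζ ^ n) (f : LaurentSeries R) := by
  induction n generalizing f with
  | zero => rw [pow_zero, pow_zero, twist_one]; rfl
  | succ n ih =>
    rw [pow_succ, AlgEquiv.mul_apply, ih, coe_twistFull, twist_twist, ← pow_succ]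

/-- the twist has order dividing `M`. -/
theorem twistFull_pow_M (ζ : Rˣ) (hζ : ζ ^ M = 1) : twistFull ζ hζ ^ M = 1 := by
  refine AlgEquiv.ext fun f => Subtype.ext ?_
  rw [coe_twistFull_pow, hζ, twist_one]
  rfl

end Full

end Fermat.Agent.S48x.Model.SL
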